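/-
Project S44 (Mazur–Ribet at `p`, Frey form), cell [A] LOC-FREY-p (helper17), file (A1b), part 1.
Prefix `s44a_`.

THE KERNEL OF REDUCTION MEETS `E[p]` IN A LINE (residue characteristic `p`, multiplicative type).

`K` algebraically closed of characteristic zero, `A : ValuationSubring K`, `W : Affine K` with
integral `b`-invariants and `Δ ≠ 0`, `p = 2m+1` an odd prime such that the ladder denominator
`Bₚ = ldB (ldPoly W) p` has a coefficient which is a unit of `A` (`MZ.mzj_eu_main`).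

* `s44a_exists_tors_inKerRed`     : if `p` is not a unit of `A`, some nonzero `p`-torsion point lies
  in the kernel of reduction `E₁(A)`  [the leading coefficient `-p` of `Cₘ` is not a unit].
* `s44a_exists_tors_not_inKerRed` : if the reduction has a singular point over `x = e`
  (`psi2Sq W e = 0`, `|dupNum W e| < 1`), some nonzero `p`-torsion point does NOT lie in `E₁(A)`
  [ladder: `Aₙ(e) ≡ Bₙ(e) ≡ 0` for all `n ≥ 2`; if all roots of `Cₘ` were non-integral, `Cₘ(e)`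
  would be a unit].
-/
import Mathlib
import Fermat.Agent.S13.Ladder.Vieta
import Fermat.Agent.S13.Ladder.Integral
import Fermat.Agent.S05.NoTorsion

set_option autoImplicit false
set_option linter.unusedSectionVars false

namespace Fermat.Agent.S44

open Polynomial WeierstrassCurve WeierstrassCurve.Affine Fermat.Agent.S13 Fermat.Agent.S05

/-! ### The ladder at a singular point -/

section Ladder

variable {S : Type*} [CommRing S]

/-- If `A₂ = B₂ = 0` then `Aₙ = Bₙ = 0` for all `n ≥ 2`. -/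
theorem s44a_ld_eq_zero (p : LdPar S) (hA : ldA p 2 = 0) (hB : ldB p 2 = 0) :
    ∀ n, 2 ≤ n → ldA p n = 0 ∧ ldB p n = 0 := by
  intro n
  induction n using Nat.strong_induction_on with
  | _ n ih =>
    intro hn
    rcases Nat.even_or_odd' n with ⟨m, hm | hm⟩
    · by_cases hm1 : m = 1
      · subst hm1; subst hm; exact ⟨hA, hB⟩
      · obtain ⟨h1, h2⟩ := ih m (by omega) (by omega)
        subst hm
        rw [ldA_two_mul, ldB_two_mul, h1, h2]
        constructor
        · simp [ldDupNum]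
        · simp [ldDupDen]
    · obtain ⟨h1, h2⟩ := ih (m + 1) (by omega) (by omega)
      subst hm
      rw [ldA_two_mul_add_one, ldB_two_mul_add_one, h1, h2]
      constructor
      · simp [ldAddNum, ldSum, ldDiff]
      · simp [ldDiff]

/-- Ideal form: if `A₂, B₂ ∈ I` then `Aₙ, Bₙ ∈ I` for all `n ≥ 2`. -/
theorem s44a_ld_mem_ideal (I : Ideal S) (p : LdPar S) (hA : ldA p 2 ∈ I) (hB : ldB p 2 ∈ I)
    (n : ℕ) (hn : 2 ≤ n) : ldA p n ∈ I ∧ ldB p n ∈ I := by
  have h := s44a_ld_eq_zero (p.map (Ideal.Quotient.mk I))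
    (by rw [← ldA_map]; exact Ideal.Quotient.eq_zero_iff_mem.mpr hA)
    (by rw [← ldB_map]; exact Ideal.Quotient.eq_zero_iff_mem.mpr hB) n hn
  rw [← ldA_map, ← ldB_map] at h
  exact ⟨Ideal.Quotient.eq_zero_iff_mem.mp h.1, Ideal.Quotient.eq_zero_iff_mem.mp h.2⟩

end Ladder

section LadderVal

variable {K : Type*} [Field K] (A : ValuationSubring K)

/-- Valuation form: parameters in `A`, `|A₂| < 1`, `|B₂| < 1` ⟹ `|Aₙ| < 1`, `|Bₙ| < 1` for all
`n ≥ 2`. -/
theorem s44a_ld_val_lt_one (p : LdPar K) (h₂ : p.β₂ ∈ A) (h₄ : p.β₄ ∈ A) (h₆ : p.β₆ ∈ A)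
    (h₈ : p.β₈ ∈ A) (hx : p.x ∈ A) (hA : A.valuation (ldA p 2) < 1)
    (hB : A.valuation (ldB p 2) < 1) (n : ℕ) (hn : 2 ≤ n) :
    A.valuation (ldA p n) < 1 ∧ A.valuation (ldB p n) < 1 := by
  set p' : LdPar A := ⟨⟨p.β₂, h₂⟩, ⟨p.β₄, h₄⟩, ⟨p.β₆, h₆⟩, ⟨p.β₈, h₈⟩, ⟨p.x, hx⟩⟩ with hp'
  have hmap : p'.map A.subtype = p := by
    ext <;> rfl
  have hAn : ∀ k, ldA p k = ((ldA p' k : A) : K) := by
    intro k
    have := ldA_map A.subtype p' k
    rw [hmap] at this
    exact this.symm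
  have hBn : ∀ k, ldB p k = ((ldB p' k : A) : K) := by
    intro k
    have := ldB_map A.subtype p' k
    rw [hmap] at this
    exact this.symm
  rw [hAn 2] at hA
  rw [hBn 2] at hB
  have h := s44a_ld_mem_ideal (IsLocalRing.maximalIdeal A) p'
    ((A.valuation_lt_one_iff _).mpr hA) ((A.valuation_lt_one_iff _).mpr hB) n hn
  rw [hAn n, hBn n]
  exact ⟨(A.valuation_lt_one_iff _).mp h.1, (A.valuation_lt_one_iff _).mp h.2⟩

end LadderVal

/-! ### Gauss-content lemmas for `c ∏ (X - r)` -/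

section Gauss

variable {K : Type*} [Field K] [DecidableEq K] (A : ValuationSubring K)

/-- roots in `A`: all coefficients of `∏ (X - r)` lie in `A`. -/
theorem s44a_prod_coeff_mem (S : Finset K) (h : ∀ r ∈ S, r ∈ A) (i : ℕ) :
    (∏ r ∈ S, (X - C r)).coeff i ∈ A := by
  induction S using Finset.induction_on generalizing i with
  | empty =>
    rw [Finset.prod_empty, coeff_one]
    split_ifs
    · exact A.one_mem
    · exact A.zero_mem
  | insert a s ha ih =>
    rw [Finset.prod_insert ha]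
    have ha' : a ∈ A := h a (Finset.mem_insert_self a s)
    have ih' := fun j => ih (fun r hr => h r (Finset.mem_insert_of_mem hr)) j
    rcases i with _ | i
    · rw [mul_coeff_zero, coeff_sub, coeff_X_zero, coeff_C_zero, zero_sub]
      exact A.mul_mem _ _ (A.neg_mem _ ha') (ih' 0)
    · rw [coeff_X_sub_C_mul]
      exact sub_mem (ih' i) (A.mul_mem _ _ ha' (ih' (i + 1)))

/-- roots in `A`: `|coeffᵢ (c ∏ (X - r))| ≤ |c|`. -/
theorem s44a_gauss_in (c : K) (S : Finset K) (hin : ∀ r ∈ S, r ∈ A) (i : ℕ) :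
    A.valuation ((C c * ∏ r ∈ S, (X - C r)).coeff i) ≤ A.valuation c := by
  rw [coeff_C_mul, map_mul]
  calc A.valuation c * A.valuation ((∏ r ∈ S, (X - C r)).coeff i)
      ≤ A.valuation c * 1 :=
        mul_le_mul' le_rfl ((A.valuation_le_one_iff _).mpr (s44a_prod_coeff_mem A S hin i))
    _ = A.valuation c := mul_one _

/-- roots outside `A`: `|coeffᵢ ∏ (X - r)| ≤ ∏ |r|`. -/
theorem s44a_prod_coeff_le (S : Finset K) (h : ∀ r ∈ S, r ∉ A) (i : ℕ) :
    A.valuation ((∏ r ∈ S, (X - C r)).coeff i) ≤ ∏ r ∈ S, A.valuation r := by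
  induction S using Finset.induction_on generalizing i with
  | empty =>
    rw [Finset.prod_empty, Finset.prod_empty, coeff_one]
    split_ifs
    · rw [map_one]
    · rw [map_zero]; exact zero_le_one
  | insert a s ha ih =>
    rw [Finset.prod_insert ha, Finset.prod_insert ha]
    have ha' : 1 < A.valuation a := by
      rw [← not_le, A.valuation_le_one_iff]
      exact h a (Finset.mem_insert_self a s)
    have ih' := fun j => ih (fun r hr => h r (Finset.mem_insert_of_mem hr)) j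
    rcases i with _ | i
    · rw [mul_coeff_zero, coeff_sub, coeff_X_zero, coeff_C_zero, zero_sub, map_mul,
        Valuation.map_neg]
      exact mul_le_mul' le_rfl (ih' 0)
    · rw [coeff_X_sub_C_mul]
      refine (Valuation.map_sub _ _ _).trans (max_le ?_ ?_)
      · calc A.valuation ((∏ r ∈ s, (X - C r)).coeff i) ≤ ∏ r ∈ s, A.valuation r := ih' i
          _ = 1 * ∏ r ∈ s, A.valuation r := (one_mul _).symm
          _ ≤ A.valuation a * ∏ r ∈ s, A.valuation r := mul_le_mul' ha'.le le_rfl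
      · rw [map_mul]
        exact mul_le_mul' (le_refl (A.valuation a)) (ih' (i + 1))

/-- roots outside `A`, `e ∈ A`: `|∏ (e - r)| = ∏ |r|`. -/
theorem s44a_prod_eval_val (S : Finset K) (h : ∀ r ∈ S, r ∉ A) {e : K} (he : e ∈ A) :
    A.valuation ((∏ r ∈ S, (X - C r)).eval e) = ∏ r ∈ S, A.valuation r := by
  rw [eval_prod, map_prod]
  refine Finset.prod_congr rfl fun r hr => ?_
  rw [eval_sub, eval_X, eval_C]
  have h1 : A.valuation e ≤ 1 := (A.valuation_le_one_iff _).mpr he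
  have h2 : 1 < A.valuation r := by
    rw [← not_le, A.valuation_le_one_iff]
    exact h r hr
  exact Valuation.map_sub_eq_of_lt_right _ (lt_of_le_of_lt h1 h2)

/-- **Gauss, all roots outside `A`**: if `P = c ∏ (X - r)` has integral coefficients, one of them a
unit, and all `r ∉ A`, then `P(e)` is a unit for every `e ∈ A`. -/
theorem s44a_gauss_out (c : K) (S : Finset K) (hout : ∀ r ∈ S, r ∉ A)
    (hint : ∀ i, (C c * ∏ r ∈ S, (X - C r)).coeff i ∈ A)
    (hunit : ∃ i, A.valuation ((C c * ∏ r ∈ S, (X - C r)).coeff i) = 1) {e : K} (he : e ∈ A) :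
    A.valuation ((C c * ∏ r ∈ S, (X - C r)).eval e) = 1 := by
  have heval : ∀ {t : K}, t ∈ A → A.valuation ((C c * ∏ r ∈ S, (X - C r)).eval t) =
      A.valuation c * ∏ r ∈ S, A.valuation r := by
    intro t ht
    rw [eval_mul, eval_C, map_mul, s44a_prod_eval_val A S hout ht]
  have h0 : A.valuation c * ∏ r ∈ S, A.valuation r ≤ 1 := by
    rw [← heval A.zero_mem, ← coeff_zero_eq_eval_zero]
    exact (A.valuation_le_one_iff _).mpr (hint 0)
  have h1 : 1 ≤ A.valuation c * ∏ r ∈ S, A.valuation r := by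
    obtain ⟨i, hi⟩ := hunit
    rw [← hi, coeff_C_mul, map_mul]
    exact mul_le_mul' le_rfl (s44a_prod_coeff_le A S hout i)
  rw [heval he]
  exact le_antisymm h0 h1

/-- integral coefficients and a unit coefficient of `P²` ⟹ a unit coefficient of `P`. -/
theorem s44a_exists_unit_coeff_of_sq {P : K[X]} (hint : ∀ i, P.coeff i ∈ A)
    (h : ∃ i, A.valuation ((P ^ 2).coeff i) = 1) : ∃ j, A.valuation (P.coeff j) = 1 := by
  by_contra hcon
  have hlt : ∀ j, A.valuation (P.coeff j) < 1 := by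
    intro j
    refine lt_of_le_of_ne ((A.valuation_le_one_iff _).mpr (hint j)) ?_
    intro hj
    exact hcon ⟨j, hj⟩
  obtain ⟨i, hi⟩ := h
  rw [pow_two, coeff_mul] at hi
  have : A.valuation (∑ x ∈ Finset.HasAntidiagonal.antidiagonal i, P.coeff x.1 * P.coeff x.2) < 1 := by
    refine Valuation.map_sum_lt _ one_ne_zero fun x _ => ?_
    rw [map_mul]
    calc A.valuation (P.coeff x.1) * A.valuation (P.coeff x.2)
        ≤ 1 * A.valuation (P.coeff x.2) :=
          mul_le_mul' ((A.valuation_le_one_iff _).mpr (hint x.1)) le_rfl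
      _ = A.valuation (P.coeff x.2) := one_mul _
      _ < 1 := hlt x.2
  rw [hi] at this
  exact lt_irrefl _ this

end Gauss

/-! ### The curve -/

section Curve

variable {K : Type*} [Field K] [DecidableEq K] [IsAlgClosed K] [CharZero K]
  (A : ValuationSubring K) (W : Affine K)

omit [DecidableEq K] [IsAlgClosed K] [CharZero K] in
/-- `A₂(e) = dupNum W e`, `B₂(e) = psi2Sq W e`. -/
theorem s44a_ld_two (e : K) :
    ldA (ldParOf W e) 2 = dupNum W e ∧ ldB (ldParOf W e) 2 = psi2Sq W e := by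
  have hA := ldA_two_mul (ldParOf W e) 1
  have hB := ldB_two_mul (ldParOf W e) 1
  rw [mul_one, ldA_one, ldB_one] at hA hB
  rw [hA, hB]
  constructor
  · simp only [ldDupNum, ldParOf, dupNum]; ring
  · simp only [ldDupDen, ldParOf, psi2Sq]; ring

omit [IsAlgClosed K] [CharZero K] in
/-- a unit coefficient of `B_{2m+1} = Cₘ²` gives a unit coefficient of `Cₘ`. -/
theorem s44a_ldC_unit (h₂ : W.b₂ ∈ A) (h₄ : W.b₄ ∈ A) (h₆ : W.b₆ ∈ A) (h₈ : W.b₈ ∈ A) (m : ℕ)
    (hunit : ∃ i, A.valuation ((ldB (ldPoly W) (2 * m + 1)).coeff i) = 1) :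
    ∃ j, A.valuation ((ldC (ldPoly W) m).coeff j) = 1 := by
  rw [ldB_two_mul_add_one_eq_sq] at hunit
  exact s44a_exists_unit_coeff_of_sq A (ldC_coeff_mem_valuationSubring A W h₂ h₄ h₆ h₈ m) hunit

/-- **lower bound**: if `2m+1` is not a unit of `A` and `B_{2m+1}` has a unit coefficient, some
nonzero `(2m+1)`-torsion point lies in the kernel of reduction. -/
theorem s44a_exists_tors_inKerRed (hΔ : W.Δ ≠ 0) (h₂ : W.b₂ ∈ A) (h₄ : W.b₄ ∈ A)
    (h₆ : W.b₆ ∈ A) (h₈ : W.b₈ ∈ A) (m : ℕ)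
    (hpA : A.valuation ((2 * m + 1 : ℕ) : K) < 1)
    (hunit : ∃ i, A.valuation ((ldB (ldPoly W) (2 * m + 1)).coeff i) = 1) :
    ∃ T : W.Point, (2 * m + 1) • T = 0 ∧ T ≠ 0 ∧ InKerRed A T := by
  obtain ⟨S, hS, hfac⟩ := ld_vieta W hΔ m
  obtain ⟨j, hj⟩ := s44a_ldC_unit A W h₂ h₄ h₆ h₈ m hunit
  by_contra hcon
  have hin : ∀ r ∈ S, r ∈ A := by
    intro r hr
    obtain ⟨y, h, hT⟩ := (hS r).mp hr
    by_contra hrA
    exact hcon ⟨_, hT, Point.some_ne_zero h, (inKerRed_some h).mpr hrA⟩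
  have := s44a_gauss_in A (-((2 * m + 1 : ℕ) : K)) S hin j
  rw [← hfac, hj, Valuation.map_neg] at this
  exact absurd hpA (not_lt.mpr this)

/-- **upper bound**: if the reduction is singular over `x = e` (`|ψ₂²(e)| < 1`, `|dupNum(e)| < 1`)
and `B_{2m+1}` has a unit coefficient, some nonzero `(2m+1)`-torsion point does not lie in the
kernel of reduction. -/
theorem s44a_exists_tors_not_inKerRed (hΔ : W.Δ ≠ 0) (h₂ : W.b₂ ∈ A) (h₄ : W.b₄ ∈ A)
    (h₆ : W.b₆ ∈ A) (h₈ : W.b₈ ∈ A) (m : ℕ) (hm : 1 ≤ m) {e : K} (he : e ∈ A)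
    (hroot : A.valuation (psi2Sq W e) < 1) (hdup : A.valuation (dupNum W e) < 1)
    (hunit : ∃ i, A.valuation ((ldB (ldPoly W) (2 * m + 1)).coeff i) = 1) :
    ∃ T : W.Point, (2 * m + 1) • T = 0 ∧ T ≠ 0 ∧ ¬ InKerRed A T := by
  obtain ⟨S, hS, hfac⟩ := ld_vieta W hΔ m
  obtain ⟨j, hj⟩ := s44a_ldC_unit A W h₂ h₄ h₆ h₈ m hunit
  by_contra hcon
  have hout : ∀ r ∈ S, r ∉ A := by
    intro r hr hrA
    obtain ⟨y, h, hT⟩ := (hS r).mp hr
    exact hcon ⟨_, hT, Point.some_ne_zero h, fun hk => (inKerRed_some h).mp hk hrA⟩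
  have h1 := s44a_gauss_out A (-((2 * m + 1 : ℕ) : K)) S hout
    (by rw [← hfac]; exact ldC_coeff_mem_valuationSubring A W h₂ h₄ h₆ h₈ m)
    ⟨j, by rw [← hfac]; exact hj⟩ he
  rw [← hfac] at h1
  obtain ⟨e2A, e2B⟩ := s44a_ld_two W e
  have h2 := (s44a_ld_val_lt_one A (ldParOf W e) h₂ h₄ h₆ h₈ he (by rw [e2A]; exact hdup)
    (by rw [e2B]; exact hroot) (2 * m + 1) (by omega)).2
  rw [← ldB_eval, ldB_two_mul_add_one_eq_sq, eval_pow, map_pow, h1, one_pow] at h2
  exact lt_irrefl _ h2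

end Curve

/-! ### The subgroups `W[n]` and `Z_n = W[n] ∩ E₁(A)` -/

section Subgroup

variable {K : Type*} [Field K] [DecidableEq K] (A : ValuationSubring K) {W : Affine K}

/-- the `n`-torsion subgroup -/
def s44a_T (W : Affine K) (n : ℕ) : AddSubgroup W.Point where
  carrier := {T | n • T = 0}
  zero_mem' := nsmul_zero n
  add_mem' := fun {a b} ha hb => by
    show n • (a + b) = 0
    rw [nsmul_add, ha, hb, add_zero]
  neg_mem' := fun {a} ha => by
    show n • (-a) = 0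
    rw [neg_nsmul, ha, neg_zero]

theorem s44a_mem_T {n : ℕ} {x : W.Point} : x ∈ s44a_T W n ↔ n • x = 0 := Iff.rfl

/-- `Z_n = W[n] ∩ E₁(A)`, the `n`-torsion of the kernel of reduction. -/
def s44a_Z (hW : IntegralModel W A) (n : ℕ) : AddSubgroup W.Point where
  carrier := {T | n • T = 0 ∧ InKerRed A T}
  zero_mem' := ⟨nsmul_zero n, inKerRed_zero⟩
  add_mem' := fun {a b} ha hb => ⟨by rw [nsmul_add, ha.1, hb.1, add_zero],
    (InKerRed.add_sub hW ha.2 hb.2).1⟩
  neg_mem' := fun {a} ha => ⟨by rw [neg_nsmul, ha.1, neg_zero], ha.2.neg⟩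

theorem s44a_mem_Z {hW : IntegralModel W A} {n : ℕ} {x : W.Point} :
    x ∈ s44a_Z A hW n ↔ n • x = 0 ∧ InKerRed A x := Iff.rfl

theorem s44a_Z_le_T (hW : IntegralModel W A) (n : ℕ) : s44a_Z A hW n ≤ s44a_T W n :=
  fun _ hx => hx.1

variable [IsAlgClosed K] [CharZero K]

theorem s44a_card_T (hΔ : W.Δ ≠ 0) {n : ℕ} (hn : Odd n) : Nat.card (s44a_T W n) = n ^ 2 :=
  ld_card_torsion W hΔ hn

theorem s44a_finite_T (hΔ : W.Δ ≠ 0) {n : ℕ} (hn : Odd n) : Finite (s44a_T W n) := by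
  apply Nat.finite_of_card_ne_zero
  rw [s44a_card_T hΔ hn]
  obtain ⟨k, rfl⟩ := hn
  positivity

theorem s44a_finite_Z (hW : IntegralModel W A) (hΔ : W.Δ ≠ 0) {n : ℕ} (hn : Odd n) :
    Finite (s44a_Z A hW n) := by
  have := s44a_finite_T (W := W) hΔ hn
  exact Finite.of_injective (AddSubgroup.inclusion (s44a_Z_le_T A hW n))
    (AddSubgroup.inclusion_injective _)

/-- **`|W[p] ∩ E₁(A)| = p`** as soon as `W[p] ∩ E₁(A)` is neither `0` nor `W[p]`. -/
theorem s44a_card_Z (hW : IntegralModel W A) (hΔ : W.Δ ≠ 0) {p : ℕ} (hp : p.Prime) (hp2 : p ≠ 2)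
    (hin : ∃ T : W.Point, p • T = 0 ∧ T ≠ 0 ∧ InKerRed A T)
    (hout : ∃ T : W.Point, p • T = 0 ∧ T ≠ 0 ∧ ¬ InKerRed A T) :
    Nat.card (s44a_Z A hW p) = p := by
  have hodd : Odd p := hp.odd_of_ne_two hp2
  have hTfin := s44a_finite_T (W := W) hΔ hodd
  have hZfin := s44a_finite_Z A hW hΔ hodd
  have hTcard := s44a_card_T (W := W) hΔ hodd
  have hd1 : Nat.card (s44a_Z A hW p) ∣ p ^ 2 := by
    have h := AddSubgroup.card_dvd_of_le (s44a_Z_le_T A hW p)
    rwa [hTcard] at h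
  obtain ⟨j, hj, hcj⟩ := (Nat.dvd_prime_pow hp).mp hd1
  have hj0 : j ≠ 0 := by
    rintro rfl
    rw [pow_zero] at hcj
    obtain ⟨T, hT, hT0, hTk⟩ := hin
    have hsub : Subsingleton (s44a_Z A hW p) := (Nat.card_eq_one_iff_unique.mp hcj).1
    have := congrArg Subtype.val (hsub.elim ⟨T, ⟨hT, hTk⟩⟩ 0)
    exact hT0 this
  have hj2 : j ≠ 2 := by
    rintro rfl
    have heq : s44a_Z A hW p = s44a_T W p :=
      AddSubgroup.eq_of_le_of_card_ge (s44a_Z_le_T A hW p) (by rw [hTcard, hcj])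
    obtain ⟨T, hT, -, hTk⟩ := hout
    have hmem : T ∈ s44a_T W p := hT
    rw [← heq] at hmem
    exact hTk hmem.2
  have hj1 : j = 1 := by omega
  rw [hcj, hj1, pow_one]

end Subgroup

end Fermat.Agent.S44
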