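/-
S44 cell [A] LOC-FREY-p, sub-cell (T1) (helper27).  Prefix `s44p_`.

THE VALUATION OF `η² = ψ₂²(x(T))` AT A `p`-TORSION POINT OFF THE KERNEL OF REDUCTION, at a
multiplicative place (nodal parametrisation `ψ₂² = 4 ξ (ξ² + a ξ + b)`, `ξ = x - e`, `v a = 1`,
`v b = v π ^ (p k) < 1`).  For `T ∈ E[p]`, `T ∉ E₁`:

* region (a) `v ξ = 1`: `v (ψ₂²(x)) = 1` (else `2 T ∈ E₁`, so `T ∈ E₁`);
* region (b) `v b < v ξ < 1` (annulus): `v (ψ₂²(x)) = v ξ ^ 2 = v (π ^ (2 m k)) ^ 2` (S05 `un_M1`);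
* region (c) `v ξ ≤ v b` (middle): `2 T` is in region (a).

Hence (`s44p_eta_val`) for `j = 1` or `j = 2`: `v (ψ₂²(x(j T))) = v (π ^ n) ^ 2` for some `n : ℤ`.
This is the input `hcv` of `s44p_peu_curve`.
-/
import Mathlib
import Fermat.Agent.S05.UnM1Final
import Fermat.Agent.S05.TransTwo
import Fermat.Agent.S05.FreyAnnulus
import Fermat.Agent.S05.NoTorsion

set_option autoImplicit false

namespace Fermat.Agent.S44

open WeierstrassCurve WeierstrassCurve.Affine WeierstrassCurve.Affine.Point Fermat.Agent.S05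

variable {K : Type*} [Field K] [DecidableEq K] {W : Affine K} {A : ValuationSubring K}

/-- `E₁` is closed under multiples. -/
theorem s44p_inKerRed_nsmul (hW : IntegralModel W A) {P : W.Point} (hP : InKerRed A P) (n : ℕ) :
    InKerRed A (n • P) := by
  induction n with
  | zero => rw [zero_nsmul]; exact inKerRed_zero
  | succ n ih => rw [succ_nsmul]; exact (InKerRed.add_sub hW ih hP).1

/-- a `p`-torsion point off `E₁` has all its prime-to-`p` multiples off `E₁`. -/
theorem s44p_not_inKerRed_nsmul (hW : IntegralModel W A) {p : ℕ} {T : W.Point}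
    (hT : p • T = 0) (hT1 : ¬ InKerRed A T) {j : ℕ} (hj : Nat.Coprime j p) :
    ¬ InKerRed A (j • T) := by
  intro h
  apply hT1
  -- `T = j' • (j • T)` with `j' j ≡ 1 mod p`
  have hb : (j : ℤ) * Nat.gcdA j p + (p : ℤ) * Nat.gcdB j p = 1 := by
    have := Nat.gcd_eq_gcd_ab j p
    rw [hj.gcd_eq_one] at this
    exact_mod_cast this.symm
  have hpT : (p : ℤ) • T = 0 := by rw [natCast_zsmul]; exact hT
  have h1 : T = (Nat.gcdA j p) • ((j : ℤ) • T) := by
    calc T = (1 : ℤ) • T := (one_smul _ _).symm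
      _ = ((j : ℤ) * Nat.gcdA j p + (p : ℤ) * Nat.gcdB j p) • T := by rw [hb]
      _ = (Nat.gcdA j p) • ((j : ℤ) • T) + (Nat.gcdB j p) • ((p : ℤ) • T) := by
          rw [add_smul, mul_comm (j : ℤ), mul_comm (p : ℤ), mul_smul, mul_smul]
      _ = (Nat.gcdA j p) • ((j : ℤ) • T) := by rw [hpT, smul_zero, add_zero]
  rw [natCast_zsmul] at h1
  rw [h1]
  -- integer multiples
  have hz : ∀ z : ℤ, InKerRed A (z • (j • T)) := by
    intro z
    rcases z with n | n
    · rw [Int.ofNat_eq_natCast, natCast_zsmul]; exact s44p_inKerRed_nsmul hW h n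
    · rw [negSucc_zsmul]; exact (s44p_inKerRed_nsmul hW h _).neg
  exact hz _

omit [DecidableEq K] in
/-- the duplication numerator in nodal coordinates -/
theorem s44p_dupNum_node {e a b : K} (h2 : (2 : K) ≠ 0) (hN : NodeParam W e a b) (x : K) :
    dupNum W x = ((x - e) ^ 2 - b) ^ 2 + e * psi2Sq W x := by
  have h4 : (4 : K) ≠ 0 := by
    have : (4 : K) = 2 * 2 := by norm_num
    rw [this]; exact mul_ne_zero h2 h2
  have hrel := W.b_relation
  have key : 4 * dupNum W x = 4 * (((x - e) ^ 2 - b) ^ 2 + e * psi2Sq W x) := by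
    simp only [dupNum, psi2Sq]
    rw [hN.hb₂, hN.hb₄, hN.hb₆] at hrel ⊢
    linear_combination (-1 : K) * hrel
  exact mul_left_cancel₀ h4 key


/-- `2 • T = 0` and `p • T = 0`, `p` odd ⟹ `T = 0`. -/
theorem s44p_eq_zero_of_two_nsmul {p : ℕ} (hp : p.Prime) (hp2 : p ≠ 2) {T : W.Point}
    (hT : p • T = 0) (h2T : (2 : ℕ) • T = 0) : T = 0 := by
  obtain ⟨k, hk⟩ : ∃ k, p = 2 * k + 1 := by
    rcases hp.eq_two_or_odd' with h | ⟨k, hk⟩
    · exact absurd h hp2
    · exact ⟨k, hk⟩
  have : T = p • T - k • ((2 : ℕ) • T) := by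
    rw [hk, add_nsmul, one_nsmul, mul_nsmul, add_sub_cancel_left]
  rw [this, hT, h2T, nsmul_zero, sub_zero]

section regions

variable (hW : IntegralModel W A) {e a b : K} (hN : NodeParam W e a b) (he : e ∈ A)
  (hb1 : A.valuation b < 1) {p : ℕ} (hp : p.Prime) (hp2 : p ≠ 2)
include hW hN he hb1 hp hp2

omit [DecidableEq K] hN he hb1 hp hp2 in
theorem s44p_psi2Sq_mem {x : K} (hx : x ∈ A) : psi2Sq W x ∈ A := by
  have h2 : (2 : K) ∈ A := (A.valuation_le_one_iff _).mp hW.two.le
  have h4 : (4 : K) ∈ A := by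
    have : (4 : K) = 2 * 2 := by norm_num
    rw [this]; exact mul_mem h2 h2
  simp only [psi2Sq]
  exact add_mem (add_mem (add_mem (mul_mem h4 (pow_mem hx 3)) (mul_mem hW.b₂ (pow_mem hx 2)))
    (mul_mem (mul_mem h2 hW.b₄) hx)) hW.b₆

omit [DecidableEq K] hW hN he hp hp2 in
theorem s44p_val_sq_sub_b {ξ : K} (hξ : A.valuation ξ = 1) :
    A.valuation ((ξ ^ 2 - b) ^ 2) = 1 := by
  have h1 : A.valuation (ξ ^ 2) = 1 := by rw [map_pow, hξ, one_pow]
  have h2 : A.valuation (ξ ^ 2 - b) = 1 := by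
    rw [Valuation.map_sub_eq_of_lt_left _ (by rw [h1]; exact hb1), h1]
  rw [map_pow, h2, one_pow]

/-- **region (a)**: `v (x - e) = 1` ⟹ `v (ψ₂²(x)) = 1`. -/
theorem s44p_regionA {x y : K} (h : W.Nonsingular x y) (hT : p • Point.some x y h = 0)
    (hT1 : ¬ InKerRed A (Point.some x y h)) (hξ : A.valuation (x - e) = 1) :
    A.valuation (psi2Sq W x) = 1 := by
  have h2ne : (2 : K) ≠ 0 := by
    intro h0
    have := hW.two
    rw [h0, _root_.map_zero] at this
    exact zero_ne_one this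
  have hx : x ∈ A := by
    by_contra hx
    exact hT1 ((inKerRed_some h).mpr hx)
  have hle : A.valuation (psi2Sq W x) ≤ 1 :=
    (A.valuation_le_one_iff _).mpr (s44p_psi2Sq_mem hW hx)
  by_contra hne
  have hlt : A.valuation (psi2Sq W x) < 1 := lt_of_le_of_ne hle hne
  have hcop : Nat.Coprime 2 p := by
    rw [Nat.coprime_comm, hp.coprime_iff_not_dvd]
    intro hd
    exact hp2 ((Nat.prime_dvd_prime_iff_eq hp Nat.prime_two).mp hd)
  have h2T1 := s44p_not_inKerRed_nsmul hW hT hT1 hcop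
  rcases two_nsmul_some h with ⟨-, h0⟩ | ⟨hpsi, x', y', h', e', hx'⟩
  · exact Point.some_ne_zero h (s44p_eq_zero_of_two_nsmul hp hp2 hT h0)
  · rw [e'] at h2T1
    apply h2T1
    rw [inKerRed_some]
    intro hx'A
    have hdup : A.valuation (dupNum W x) = 1 := by
      rw [s44p_dupNum_node h2ne hN x]
      have h1 := s44p_val_sq_sub_b (A := A) (b := b) hb1 hξ
      have h3 : A.valuation (e * psi2Sq W x) < 1 := by
        rw [map_mul]
        calc A.valuation e * A.valuation (psi2Sq W x) ≤ 1 * A.valuation (psi2Sq W x) :=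
              mul_le_mul_left ((A.valuation_le_one_iff _).mpr he) _
          _ = A.valuation (psi2Sq W x) := one_mul _
          _ < 1 := hlt
      rw [Valuation.map_add_eq_of_lt_left _ (by rw [h1]; exact h3), h1]
    have h5 := congrArg A.valuation hx'
    rw [map_mul, hdup] at h5
    have h6 : A.valuation x' ≤ 1 := (A.valuation_le_one_iff _).mpr hx'A
    have : A.valuation x' * A.valuation (psi2Sq W x) < 1 := by
      calc A.valuation x' * A.valuation (psi2Sq W x) ≤ 1 * A.valuation (psi2Sq W x) :=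
            mul_le_mul_left h6 _
        _ = A.valuation (psi2Sq W x) := one_mul _
        _ < 1 := hlt
    rw [h5] at this
    exact lt_irrefl _ this

omit [DecidableEq K] he hb1 hp hp2 in
/-- **region (b)**, the annulus: `v b < v (x - e) < 1` ⟹ `v (ψ₂²(x)) = v (x - e) ^ 2`. -/
theorem s44p_regionB (hva : A.valuation a = 1) {x : K} (hl : A.valuation b < A.valuation (x - e))
    (hu : A.valuation (x - e) < 1) : A.valuation (psi2Sq W x) = A.valuation (x - e) ^ 2 := by
  have h4 : A.valuation (4 : K) = 1 := by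
    have : (4 : K) = 2 * 2 := by norm_num
    rw [this, map_mul, hW.two, one_mul]
  set ξ := x - e with hξ
  have hξ0 : A.valuation ξ ≠ 0 := ne_of_gt (lt_of_le_of_lt zero_le hl)
  have h1 : A.valuation (a * ξ) = A.valuation ξ := by rw [map_mul, hva, one_mul]
  have h2 : A.valuation (ξ ^ 2) < A.valuation ξ := by
    rw [map_pow, sq]
    calc A.valuation ξ * A.valuation ξ < 1 * A.valuation ξ :=
          mul_lt_mul_of_pos_right hu (zero_lt_iff.mpr hξ0)
      _ = A.valuation ξ := one_mul _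
  have h3 : A.valuation (ξ ^ 2 + a * ξ + b) = A.valuation ξ := by
    have h5 : A.valuation (ξ ^ 2 + a * ξ) = A.valuation ξ := by
      rw [Valuation.map_add_eq_of_lt_right _ (by rw [h1]; exact h2), h1]
    rw [Valuation.map_add_eq_of_lt_left _ (by rw [h5]; exact hl), h5]
  rw [hN.un_psi2Sq x, map_mul, map_mul, h4, one_mul, h3, sq]

/-- **region (c)**, the middle: `v (x - e) ≤ v b` ⟹ `2 T` is in region (a), so
`v (ψ₂²(x(2 T))) = 1`. -/
theorem s44p_regionC (hTe : ∃ yT : K, W.Nonsingular e yT) {x y : K} (h : W.Nonsingular x y)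
    (hT : p • Point.some x y h = 0) (hT1 : ¬ InKerRed A (Point.some x y h))
    (hv : A.valuation (x - e) ≤ A.valuation b) :
    A.valuation (psi2Sq W (xOf ((2 : ℕ) • Point.some x y h))) = 1 := by
  have h2ne : (2 : K) ≠ 0 := by
    intro h0
    have := hW.two
    rw [h0, _root_.map_zero] at this
    exact zero_ne_one this
  have hcop : Nat.Coprime 2 p := by
    rw [Nat.coprime_comm, hp.coprime_iff_not_dvd]
    intro hd
    exact hp2 ((Nat.prime_dvd_prime_iff_eq hp Nat.prime_two).mp hd)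
  have h2T1 := s44p_not_inKerRed_nsmul hW hT hT1 hcop
  obtain ⟨yT, hTn⟩ := hTe
  have hpsie : psi2Sq W e = 0 := by rw [hN.un_psi2Sq e]; ring
  have h2b : 2 * b = 6 * e ^ 2 + W.b₂ * e + W.b₄ := by rw [hN.hb₂, hN.hb₄]; ring
  have h2T2 : (2 : ℕ) • Point.some e yT hTn = 0 := tt_two_nsmul_eq_zero hpsie hTn
  have h2R : (2 : ℕ) • (Point.some x y h - Point.some e yT hTn) = (2 : ℕ) • Point.some x y h := by
    rw [nsmul_sub, h2T2, sub_zero]
  have hpT' : p • ((2 : ℕ) • Point.some x y h) = 0 := by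
    rw [smul_comm, hT, nsmul_zero]
  rcases tt_M3 A h2ne hpsie h2b h hTn hv with h0 | ⟨x', y', h', hR, hx'⟩
  · exfalso
    rw [h0, nsmul_zero] at h2R
    exact Point.some_ne_zero h (s44p_eq_zero_of_two_nsmul hp hp2 hT h2R.symm)
  · rw [hR] at h2R
    have hx'A : x' ∈ A := by
      by_contra hx'A
      have : InKerRed A ((2 : ℕ) • Point.some x' y' h') :=
        s44p_inKerRed_nsmul hW ((inKerRed_some h').mpr hx'A) 2
      rw [h2R] at this
      exact h2T1 this
    have hξ' : A.valuation (x' - e) = 1 :=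
      le_antisymm ((A.valuation_le_one_iff _).mpr (sub_mem hx'A he)) hx'
    rcases two_nsmul_some h' with ⟨-, h0⟩ | ⟨hpsi, x'', y'', h'', e'', hx''⟩
    · exfalso
      rw [h0] at h2R
      exact Point.some_ne_zero h (s44p_eq_zero_of_two_nsmul hp hp2 hT h2R.symm)
    · rw [e''] at h2R
      rw [← h2R] at h2T1 hpT' ⊢
      rw [xOf_some]
      have hx''A : x'' ∈ A := by
        by_contra hx''A
        exact h2T1 ((inKerRed_some h'').mpr hx''A)
      refine s44p_regionA hW hN he hb1 hp hp2 h'' hpT' h2T1 ?_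
      -- `(x'' - e) ψ₂²(x') = ((x' - e)² - b)²`
      have hid : (x'' - e) * psi2Sq W x' = ((x' - e) ^ 2 - b) ^ 2 := by
        rw [sub_mul, hx'', s44p_dupNum_node h2ne hN x']; ring
      have hv1 := congrArg A.valuation hid
      rw [map_mul, s44p_val_sq_sub_b (A := A) (b := b) hb1 hξ'] at hv1
      have hle1 : A.valuation (x'' - e) ≤ 1 := (A.valuation_le_one_iff _).mpr (sub_mem hx''A he)
      have hle2 : A.valuation (psi2Sq W x') ≤ 1 :=
        (A.valuation_le_one_iff _).mpr (s44p_psi2Sq_mem hW hx'A)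
      by_contra hne
      have hlt : A.valuation (x'' - e) < 1 := lt_of_le_of_ne hle1 hne
      have : A.valuation (x'' - e) * A.valuation (psi2Sq W x') < 1 := by
        calc A.valuation (x'' - e) * A.valuation (psi2Sq W x')
            ≤ A.valuation (x'' - e) * 1 := mul_le_mul_right hle2 _
          _ = A.valuation (x'' - e) := mul_one _
          _ < 1 := hlt
      rw [hv1] at this
      exact lt_irrefl _ this

/-- **(T1), generic form**: for a `p`-torsion point `T` off the kernel of reduction, `j = 1` or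
`j = 2`: `v (ψ₂²(x(j T))) = v (π ^ n) ^ 2`. -/
theorem s44p_eta_val_generic (hva : A.valuation a = 1) (hb0 : b ≠ 0)
    (hTe : ∃ yT : K, W.Nonsingular e yT) {π : K} (hπ : π ≠ 0) {k : ℕ}
    (hβ : A.valuation b = A.valuation π ^ (p * k))
    {T : W.Point} (hT : p • T = 0) (hT1 : ¬ InKerRed A T) :
    ∃ j : ℕ, (j = 1 ∨ j = 2) ∧ ∃ n : ℤ,
      A.valuation (psi2Sq W (xOf (j • T))) = A.valuation (π ^ n) ^ 2 := by
  rcases T with _ | ⟨x, y, h⟩
  · exact absurd inKerRed_zero hT1
  have hx : x ∈ A := by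
    by_contra hx
    exact hT1 ((inKerRed_some h).mpr hx)
  rcases le_or_gt 1 (A.valuation (x - e)) with h1 | h1
  · -- region (a)
    have hξ : A.valuation (x - e) = 1 :=
      le_antisymm ((A.valuation_le_one_iff _).mpr (sub_mem hx he)) h1
    refine ⟨1, Or.inl rfl, 0, ?_⟩
    rw [one_nsmul, xOf_some, s44p_regionA hW hN he hb1 hp hp2 h hT hT1 hξ, zpow_zero,
      map_one, one_pow]
  rcases lt_or_ge (A.valuation b) (A.valuation (x - e)) with h2 | h2
  · -- region (b)
    obtain ⟨m, hm⟩ := un_M1 A.valuation hN hW.two hva hb1 hb0 h hT h2 h1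
    have hfix := fa_exists_fixed_of_pow_eq A hπ hp.ne_zero hβ hm
    refine ⟨1, Or.inl rfl, 2 * m * k, ?_⟩
    rw [one_nsmul, xOf_some, s44p_regionB hW hN hva h2 h1, hfix]
  · -- region (c)
    refine ⟨2, Or.inr rfl, 0, ?_⟩
    rw [s44p_regionC hW hN he hb1 hp hp2 hTe h hT hT1 h2, zpow_zero, map_one, one_pow]

end regions

end Fermat.Agent.S44
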