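/-
S44 cell [A] LOC-FREY-p, sub-cell (T1), Frey instance (helper27).  Prefix `s44p_`.

For the Frey curve over `ℚ̄`, a place `A | q` (`q` odd, `q = p` ALLOWED) of bad reduction, and
`T ∈ E[p]` off the kernel of reduction `E₁(A)`: for `j = 1` or `j = 2`,
`v (ψ₂²(x(j T))) = v ((q : ℚ̄) ^ n) ^ 2` for some `n : ℤ` (`s44p_frey_eta_val`).
-/
import Mathlib
import Fermat.Agent.S44.LocP.Annulus
import Fermat.Agent.S05.FreyFixed
import Fermat.Agent.S05.NodeUnit
import Fermat.Agent.S05.Inertia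

set_option autoImplicit false

open WeierstrassCurve WeierstrassCurve.Affine WeierstrassCurve.Affine.Point
open FreyPackage Fermat.Agent.S05

namespace Fermat.Agent.S44

/-- **(T1) for the Frey curve, node data given.** -/
theorem s44p_frey_node_eta_val (P : FreyPackage) {q : ℕ} (hq : q.Prime) (hq2 : q ≠ 2)
    (A : ValuationSubring (AlgebraicClosure ℚ)) (hA : A.LiesOverPrime q)
    (r₁ r₂ r₃ : ℚ) (k : ℕ)
    (hfac : ∀ x : AlgebraicClosure ℚ, psi2Sq (P.freyCurve⁄(AlgebraicClosure ℚ)) x =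
        4 * (x - algebraMap ℚ (AlgebraicClosure ℚ) r₁) * (x - algebraMap ℚ (AlgebraicClosure ℚ) r₂)
          * (x - algebraMap ℚ (AlgebraicClosure ℚ) r₃))
    (hv12 : A.valuation (algebraMap ℚ (AlgebraicClosure ℚ) r₁ -
      algebraMap ℚ (AlgebraicClosure ℚ) r₂) = A.valuation (q : AlgebraicClosure ℚ) ^ (P.p * k))
    (hk : 0 < k)
    (hv13 : A.valuation (algebraMap ℚ (AlgebraicClosure ℚ) r₁ -
      algebraMap ℚ (AlgebraicClosure ℚ) r₃) = 1)
    (hr1 : algebraMap ℚ (AlgebraicClosure ℚ) r₁ ∈ A)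
    (hne12 : r₁ ≠ r₂) (hne13 : r₁ ≠ r₃)
    (T : (P.freyCurve⁄(AlgebraicClosure ℚ)).Point) (hT : P.p • T = 0)
    (hT1 : ¬ InKerRed A T) :
    ∃ j : ℕ, (j = 1 ∨ j = 2) ∧ ∃ n : ℤ,
      A.valuation (psi2Sq (P.freyCurve⁄(AlgebraicClosure ℚ)) (xOf (j • T))) =
        A.valuation ((q : AlgebraicClosure ℚ) ^ n) ^ 2 := by
  have hW := freyL_integralModel P A hA hq hq2
  have h2 : A.valuation (2 : AlgebraicClosure ℚ) = 1 := two_unit A hA hq hq2
  have h2ne : (2 : AlgebraicClosure ℚ) ≠ 0 := two_ne_zero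
  have hp2 : P.p ≠ 2 := by have := P.hp5; omega
  set e : AlgebraicClosure ℚ := algebraMap ℚ (AlgebraicClosure ℚ) r₁ with he_def
  set e₂ : AlgebraicClosure ℚ := algebraMap ℚ (AlgebraicClosure ℚ) r₂ with he₂_def
  set e₃ : AlgebraicClosure ℚ := algebraMap ℚ (AlgebraicClosure ℚ) r₃ with he₃_def
  set a : AlgebraicClosure ℚ := (e - e₂) + (e - e₃) with ha_def
  set b : AlgebraicClosure ℚ := (e - e₂) * (e - e₃) with hb_def
  have hqK : (q : AlgebraicClosure ℚ) ≠ 0 := by exact_mod_cast hq.ne_zero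
  have hqlt : A.valuation (q : AlgebraicClosure ℚ) < 1 := intVal_prime_lt_one A hA
  have hpk : P.p * k ≠ 0 := Nat.mul_ne_zero P.hp0 hk.ne'
  have h12lt : A.valuation (e - e₂) < 1 := by
    rw [hv12]; exact pow_lt_one₀ zero_le hqlt hpk
  have hvb : A.valuation b = A.valuation (e - e₂) := by
    rw [hb_def, map_mul, hv13, mul_one]
  have hb1 : A.valuation b < 1 := by rw [hvb]; exact h12lt
  have hva : A.valuation a = 1 := by
    rw [ha_def, Valuation.map_add_eq_of_lt_right _ (by rw [hv13]; exact h12lt), hv13]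
  have hinj : Function.Injective (algebraMap ℚ (AlgebraicClosure ℚ)) :=
    (algebraMap ℚ (AlgebraicClosure ℚ)).injective
  have hb0 : b ≠ 0 := by
    rw [hb_def]
    refine mul_ne_zero (sub_ne_zero.mpr ?_) (sub_ne_zero.mpr ?_)
    · exact fun h => hne12 (hinj h)
    · exact fun h => hne13 (hinj h)
  have hfac' : ∀ x : AlgebraicClosure ℚ, psi2Sq (P.freyCurve⁄(AlgebraicClosure ℚ)) x =
      4 * (x - e) * ((x - e) ^ 2 + a * (x - e) + b) := by
    intro x; rw [hfac x, ha_def, hb_def]; ring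
  obtain ⟨hb₂, hb₄, hb₆⟩ := nu_coeffs_of_forall (P.freyCurve⁄(AlgebraicClosure ℚ)) h2ne hfac'
  have hN : NodeParam (P.freyCurve⁄(AlgebraicClosure ℚ)) e a b := ⟨hb₂, hb₄, hb₆⟩
  have hβ : A.valuation b = A.valuation (q : AlgebraicClosure ℚ) ^ (P.p * k) := by
    rw [hvb, hv12]
  obtain ⟨yT, hTn, -⟩ := frey_hTe_of_factor P (AlgEquiv.refl) r₁ r₂ r₃ hfac
  exact s44p_eta_val_generic hW hN hr1 hb1 P.pp hp2 hva hb0 ⟨yT, hTn⟩ hqK hβ hT hT1

/-- **(T1) for the Frey curve** at a place of bad reduction over an odd prime `q`. -/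
theorem s44p_frey_eta_val (P : FreyPackage) {q : ℕ} (hq : q.Prime) (hq2 : q ≠ 2)
    (A : ValuationSubring (AlgebraicClosure ℚ)) (hA : A.LiesOverPrime q)
    (hbad : A.valuation (P.freyCurve⁄(AlgebraicClosure ℚ)).Δ ≠ 1)
    (T : (P.freyCurve⁄(AlgebraicClosure ℚ)).Point) (hT : P.p • T = 0)
    (hT1 : ¬ InKerRed A T) :
    ∃ j : ℕ, (j = 1 ∨ j = 2) ∧ ∃ n : ℤ,
      A.valuation (psi2Sq (P.freyCurve⁄(AlgebraicClosure ℚ)) (xOf (j • T))) =
        A.valuation ((q : AlgebraicClosure ℚ) ^ n) ^ 2 := by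
  rcases freyL_dichotomy P A hA hq hq2 with hΔ |
    ⟨r₁, r₂, r₃, k, hk, hfac, hv12, hv13, hv23, hr1, hr2, hr3, hne12, hne13, hne23, hp12, hp13⟩
  · exact absurd hΔ hbad
  · exact s44p_frey_node_eta_val P hq hq2 A hA r₁ r₂ r₃ k hfac hv12 hk hv13 hr1 hne12 hne13 T hT hT1

end Fermat.Agent.S44
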