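/-
S44 project, cell [A] LOC-FREY-p, sub-cell (A2-CHI), piece CUSP (helper6).  Prefix `s44av_`.

THE GROUP LAW ON THE CUSPIDAL CUBIC `y² = x³` over a field `k` with `2 ≠ 0`: the map
`(x, y) ↦ x / y`, `O ↦ 0` is an additive homomorphism `W.Point →+ k`, injective.
Mathlib only.
-/
import Mathlib

set_option autoImplicit false
set_option linter.unusedSectionVars false

namespace Fermat.Agent.S44

open WeierstrassCurve WeierstrassCurve.Affine

variable {k : Type*} [Field k] [DecidableEq k]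

/-- all Weierstrass coefficients vanish: the cuspidal cubic `y² = x³`. -/
structure s44av_IsCusp (W : Affine k) : Prop where
  ha1 : W.a₁ = 0
  ha2 : W.a₂ = 0
  ha3 : W.a₃ = 0
  ha4 : W.a₄ = 0
  ha6 : W.a₆ = 0

/-- the additive parameter `x / y` -/
def s44av_kappa (W : Affine k) : W.Point → k
  | .zero => 0
  | .some x y _ => x / y

@[simp] theorem s44av_kappa_zero (W : Affine k) : s44av_kappa W (0 : W.Point) = 0 := rfl

theorem s44av_kappa_some (W : Affine k) {x y : k} (h : W.Nonsingular x y) :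
    s44av_kappa W (Point.some x y h) = x / y := rfl

section

variable {W : Affine k} (H : s44av_IsCusp W)
include H

theorem s44av_cusp_equation {x y : k} (h : W.Equation x y) : y ^ 2 = x ^ 3 := by
  have := (equation_iff x y).mp h
  rw [H.ha1, H.ha2, H.ha3, H.ha4, H.ha6] at this
  linear_combination this

theorem s44av_cusp_y_ne {x y : k} (h : W.Nonsingular x y) : y ≠ 0 := by
  intro hy
  have he := s44av_cusp_equation H h.1
  have hx : x = 0 := by
    rw [hy] at he
    have : x ^ 3 = 0 := by rw [← he]; ring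
    exact pow_eq_zero_iff (by norm_num) |>.mp this
  have h2 := (nonsingular_iff' x y).mp h
  rw [H.ha1, H.ha2, H.ha3, H.ha4, hx, hy] at h2
  rcases h2.2 with h3 | h3
  · exact h3 (by ring)
  · exact h3 (by ring)

theorem s44av_cusp_x_ne {x y : k} (h : W.Nonsingular x y) : x ≠ 0 := by
  intro hx
  have he := s44av_cusp_equation H h.1
  rw [hx] at he
  have : y ^ 2 = 0 := by rw [he]; ring
  exact s44av_cusp_y_ne H h (pow_eq_zero_iff (by norm_num) |>.mp this)

/-- the parametrisation: `x = t⁻²`, `y = t⁻³` with `t = x / y`. -/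
theorem s44av_cusp_param {x y : k} (h : W.Nonsingular x y) :
    x / y ≠ 0 ∧ x = ((x / y) ^ 2)⁻¹ ∧ y = ((x / y) ^ 3)⁻¹ := by
  have hy := s44av_cusp_y_ne H h
  have hx := s44av_cusp_x_ne H h
  have he := s44av_cusp_equation H h.1
  refine ⟨div_ne_zero hx hy, ?_, ?_⟩
  · have h1 : (x / y) ^ 2 = x⁻¹ := by
      rw [div_pow, he]
      field_simp
    rw [h1, inv_inv]
  · have h1 : (x / y) ^ 3 = y⁻¹ := by
      rw [div_pow, ← he]
      field_simp
    rw [h1, inv_inv]

theorem s44av_cusp_nonsingular (h2 : (2 : k) ≠ 0) {x y : k} (he : W.Equation x y) (hy : y ≠ 0) :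
    W.Nonsingular x y := by
  rw [nonsingular_iff']
  refine ⟨he, Or.inr ?_⟩
  rw [H.ha1, H.ha3]
  intro h0
  apply hy
  have : 2 * y = 0 := by linear_combination h0
  exact (mul_eq_zero.mp this).resolve_left h2

theorem s44av_cusp_negY (x y : k) : W.negY x y = -y := by
  rw [negY, H.ha1, H.ha3]; ring

theorem s44av_kappa_neg (P : W.Point) : s44av_kappa W (-P) = -s44av_kappa W P := by
  rcases P with _ | ⟨x, y, h⟩
  · change s44av_kappa W 0 = -s44av_kappa W 0
    simp
  · rw [Point.neg_some, s44av_kappa_some, s44av_kappa_some, s44av_cusp_negY H, div_neg]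

/-- **the cusp parameter is additive** (`2 ≠ 0`). -/
theorem s44av_kappa_add (h2 : (2 : k) ≠ 0) (P Q : W.Point) :
    s44av_kappa W (P + Q) = s44av_kappa W P + s44av_kappa W Q := by
  rcases P with _ | ⟨x₁, y₁, h₁⟩
  · change s44av_kappa W (0 + Q) = s44av_kappa W 0 + _
    rw [zero_add, s44av_kappa_zero, zero_add]
  rcases Q with _ | ⟨x₂, y₂, h₂⟩
  · change s44av_kappa W (_ + 0) = _ + s44av_kappa W 0
    rw [add_zero, s44av_kappa_zero, add_zero]
  by_cases hx : x₁ = x₂
  · by_cases hy : y₁ = W.negY x₂ y₂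
    · rw [Point.add_of_Y_eq hx hy, s44av_kappa_zero, s44av_kappa_some, s44av_kappa_some]
      rw [s44av_cusp_negY H] at hy
      rw [hx, hy, div_neg, neg_add_cancel]
    · -- doubling
      have hyy : y₁ = y₂ := by
        rw [s44av_cusp_negY H] at hy
        have e1 := s44av_cusp_equation H h₁.1
        have e2 := s44av_cusp_equation H h₂.1
        rw [hx] at e1
        have : (y₁ - y₂) * (y₁ + y₂) = 0 := by linear_combination e1 - e2
        rcases mul_eq_zero.mp this with h | h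
        · exact sub_eq_zero.mp h
        · exact absurd (by linear_combination h) hy
      subst hx
      subst hyy
      rw [Point.add_of_Y_ne hy, s44av_kappa_some, s44av_kappa_some,
        slope_of_Y_ne rfl hy, s44av_cusp_negY H, H.ha1, H.ha2, H.ha4]
      obtain ⟨ht, hx1, hy1⟩ := s44av_cusp_param H h₁
      generalize x₁ / y₁ = t at ht hx1 hy1 ⊢
      have h2t : 2 * t ≠ 0 := mul_ne_zero h2 ht
      have hℓ : (3 * x₁ ^ 2 + 2 * 0 * x₁ + 0 - 0 * y₁) / (y₁ - -y₁) = 3 / (2 * t) := by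
        have e : (3 * x₁ ^ 2 + 2 * 0 * x₁ + 0 - 0 * y₁) / (y₁ - -y₁) =
            3 * x₁ ^ 2 / (2 * y₁) := by
          congr 1 <;> ring
        rw [e, hx1, hy1]
        field_simp
      rw [hℓ]
      have hX : W.addX x₁ x₁ (3 / (2 * t)) = ((2 * t) ^ 2)⁻¹ := by
        rw [addX, H.ha1, H.ha2, hx1]
        field_simp
        ring
      have hY : W.addY x₁ x₁ y₁ (3 / (2 * t)) = ((2 * t) ^ 3)⁻¹ := by
        rw [addY, negAddY, hX, s44av_cusp_negY H, hx1, hy1]
        field_simp
        ring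
      rw [hX, hY]
      field_simp
      ring
  · -- chord
    rw [Point.add_of_X_ne hx, s44av_kappa_some, s44av_kappa_some, s44av_kappa_some,
      slope_of_X_ne hx]
    obtain ⟨ht1, hx1, hy1⟩ := s44av_cusp_param H h₁
    obtain ⟨ht2, hx2, hy2⟩ := s44av_cusp_param H h₂
    generalize x₁ / y₁ = t₁ at ht1 hx1 hy1 ⊢
    generalize x₂ / y₂ = t₂ at ht2 hx2 hy2 ⊢
    have hne : t₁ ^ 2 ≠ t₂ ^ 2 := by
      intro h
      apply hx
      rw [hx1, hx2, h]
    have hsum : t₁ + t₂ ≠ 0 := by
      intro h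
      apply hne
      have : t₁ = -t₂ := by linear_combination h
      rw [this]; ring
    have hℓ : (y₁ - y₂) / (x₁ - x₂) = (t₁ ^ 2 + t₁ * t₂ + t₂ ^ 2) / (t₁ * t₂ * (t₁ + t₂)) := by
      rw [div_eq_iff (sub_ne_zero.mpr hx), hx1, hy1, hx2, hy2]
      field_simp
      ring
    rw [hℓ]
    have hX : W.addX x₁ x₂ ((t₁ ^ 2 + t₁ * t₂ + t₂ ^ 2) / (t₁ * t₂ * (t₁ + t₂))) =
        ((t₁ + t₂) ^ 2)⁻¹ := by
      rw [addX, H.ha1, H.ha2, hx1, hx2]
      field_simp
      ring
    have hY : W.addY x₁ x₂ y₁ ((t₁ ^ 2 + t₁ * t₂ + t₂ ^ 2) / (t₁ * t₂ * (t₁ + t₂))) =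
        ((t₁ + t₂) ^ 3)⁻¹ := by
      rw [addY, negAddY, hX, s44av_cusp_negY H, hx1, hy1]
      field_simp
      ring
    rw [hX, hY]
    field_simp

theorem s44av_kappa_eq_zero_iff (P : W.Point) : s44av_kappa W P = 0 ↔ P = 0 := by
  rcases P with _ | ⟨x, y, h⟩
  · exact ⟨fun _ => rfl, fun _ => rfl⟩
  · rw [s44av_kappa_some]
    constructor
    · intro h0
      exact absurd h0 (div_ne_zero (s44av_cusp_x_ne H h) (s44av_cusp_y_ne H h))
    · intro h0
      exact absurd h0 (Point.some_ne_zero h)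

/-- the cusp parameter as an additive homomorphism -/
def s44av_kappaHom (h2 : (2 : k) ≠ 0) : W.Point →+ k where
  toFun := s44av_kappa W
  map_zero' := rfl
  map_add' := s44av_kappa_add H h2

theorem s44av_kappaHom_apply (h2 : (2 : k) ≠ 0) (P : W.Point) :
    s44av_kappaHom H h2 P = s44av_kappa W P := rfl

theorem s44av_kappa_nsmul (h2 : (2 : k) ≠ 0) (n : ℕ) (P : W.Point) :
    s44av_kappa W (n • P) = (n : k) * s44av_kappa W P := by
  rw [← s44av_kappaHom_apply H h2, map_nsmul, nsmul_eq_mul, s44av_kappaHom_apply]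

end

end Fermat.Agent.S44
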