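/-
S44 project, cell [A] LOC-FREY-p, sub-cell (A2-CHI) (helper6).  Prefix `s44av_`.

THE CHARACTER OF INERTIA ON THE `p`-TORSION OF THE KERNEL OF REDUCTION, BY THE SCALED-CURVE TRICK
(no formal group, no Weil pairing).

`K` a field, `A : ValuationSubring K` (`2 ∈ Aˣ`), `W : Affine K` with `aᵢ ∈ A`, `Δ ≠ 0`,
`lam ≠ 0` with `v(lam) < 1`.  The change of variables `x' = lam² x`, `y' = lam³ y` gives a curve
`W' = C • W` with coefficients `lamⁱ aᵢ ∈ 𝔪_A`, whose reduction is the CUSPIDAL cubic `y² = x³`;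
`τ := κ ∘ red' ∘ φ` (`φ = lrvc_map`, `red' = s58r_red`, `κ = x / y`) is additive on the points
with `v(x) v(lam)² ≥ 1` and sends `P = (x, y)`, `v(x) v(lam)² = 1`, to `res (lam² x) / res (lam³ y)`.

* `s44av_chi` : if `σ` is a ring automorphism of `K` acting trivially on the residue field of `A`
  and fixing the `aᵢ`, `σ lam = g * lam` with `g ∈ Aˣ`, `g ≡ c mod 𝔪_A`, and `σ P = n • P` for a
  point `P = (x, y)` with `v(x) * v(lam)² = 1`, then `n ≡ c mod 𝔪_A`.
-/
import Mathlib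
import Fermat.Agent.LR.NonEis.VarChange
import Fermat.Agent.S58.Red.Hom
import Fermat.Agent.S58.Red.E1
import Fermat.Agent.S44.LocP.Cusp

set_option autoImplicit false
set_option linter.unusedSectionVars false

namespace Fermat.Agent.S44

open WeierstrassCurve WeierstrassCurve.Affine IsLocalRing Fermat.Agent.S58 Fermat.Agent.LR
  Fermat.Agent.S05

variable {K : Type*} [Field K] [DecidableEq K] (A : ValuationSubring K)
  [DecidableEq (ResidueField A)]

/-- the scaling change of variables `x' = lam² x`, `y' = lam³ y` -/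
def s44av_C {lam : K} (hl : lam ≠ 0) : VariableChange K := ⟨(Units.mk0 lam hl)⁻¹, 0, 0, 0⟩

theorem s44av_C_u {lam : K} (hl : lam ≠ 0) : ((s44av_C hl).u⁻¹ : Kˣ) = Units.mk0 lam hl := by
  rw [s44av_C, inv_inv]

theorem s44av_C_X {lam : K} (hl : lam ≠ 0) (x : K) : lrvc_X (s44av_C hl) x = lam ^ 2 * x := by
  rw [lrvc_X, s44av_C_u]
  simp [s44av_C]

theorem s44av_C_Y {lam : K} (hl : lam ≠ 0) (x y : K) :
    lrvc_Y (s44av_C hl) x y = lam ^ 3 * y := by
  rw [lrvc_Y, s44av_C_u]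
  simp [s44av_C]

/-- the model over `A` of the scaled curve -/
def s44av_WA (W : Affine K) {lam : K} (hlA : lam ∈ A) (ha1 : W.a₁ ∈ A) (ha2 : W.a₂ ∈ A)
    (ha3 : W.a₃ ∈ A) (ha4 : W.a₄ ∈ A) (ha6 : W.a₆ ∈ A) : WeierstrassCurve A :=
  ⟨⟨lam * W.a₁, A.mul_mem _ _ hlA ha1⟩, ⟨lam ^ 2 * W.a₂, A.mul_mem _ _ (pow_mem hlA 2) ha2⟩,
    ⟨lam ^ 3 * W.a₃, A.mul_mem _ _ (pow_mem hlA 3) ha3⟩,
    ⟨lam ^ 4 * W.a₄, A.mul_mem _ _ (pow_mem hlA 4) ha4⟩,
    ⟨lam ^ 6 * W.a₆, A.mul_mem _ _ (pow_mem hlA 6) ha6⟩⟩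

theorem s44av_WA_map_subtype (W : Affine K) {lam : K} (hl : lam ≠ 0) (hlA : lam ∈ A)
    (ha1 : W.a₁ ∈ A) (ha2 : W.a₂ ∈ A) (ha3 : W.a₃ ∈ A) (ha4 : W.a₄ ∈ A) (ha6 : W.a₆ ∈ A) :
    (s44av_WA A W hlA ha1 ha2 ha3 ha4 ha6).map A.subtype = s44av_C hl • W := by
  have hu : (((s44av_C hl).u⁻¹ : Kˣ) : K) = lam := by rw [s44av_C_u]; rfl
  ext
  · rw [variableChange_a₁, hu]; simp [s44av_WA, s44av_C]
  · rw [variableChange_a₂, hu]; simp [s44av_WA, s44av_C]
  · rw [variableChange_a₃, hu]; simp [s44av_WA, s44av_C]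
  · rw [variableChange_a₄, hu]; simp [s44av_WA, s44av_C]
  · rw [variableChange_a₆, hu]; simp [s44av_WA, s44av_C]

theorem s44av_residue_eq_zero {z : K} (hz : A.valuation z < 1) (hzA : z ∈ A) :
    residue A ⟨z, hzA⟩ = 0 := by
  rw [residue_eq_zero_iff, A.valuation_lt_one_iff]
  exact hz

theorem s44av_WA_isCusp (W : Affine K) {lam : K} (hlA : lam ∈ A) (hl1 : A.valuation lam < 1)
    (ha1 : W.a₁ ∈ A) (ha2 : W.a₂ ∈ A) (ha3 : W.a₃ ∈ A) (ha4 : W.a₄ ∈ A) (ha6 : W.a₆ ∈ A) :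
    s44av_IsCusp ((s44av_WA A W hlA ha1 ha2 ha3 ha4 ha6).map (residue A)).toAffine := by
  have key : ∀ (n : ℕ) (_ : n ≠ 0) (a : K) (ha : a ∈ A),
      residue A ⟨lam ^ n * a, A.mul_mem _ _ (pow_mem hlA n) ha⟩ = 0 := by
    intro n hn a ha
    refine s44av_residue_eq_zero A ?_ _
    rw [map_mul, map_pow]
    have h1 : A.valuation lam ^ n < 1 := pow_lt_one₀ zero_le hl1 hn
    have h2 : A.valuation a ≤ 1 := (A.valuation_le_one_iff _).mpr ha
    calc A.valuation lam ^ n * A.valuation a ≤ A.valuation lam ^ n * 1 := mul_le_mul_right h2 _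
      _ = A.valuation lam ^ n := mul_one _
      _ < 1 := h1
  refine ⟨?_, ?_, ?_, ?_, ?_⟩
  · have := key 1 one_ne_zero _ ha1
    simp only [pow_one] at this
    simpa [s44av_WA] using this
  · simpa [s44av_WA] using key 2 (by norm_num) _ ha2
  · simpa [s44av_WA] using key 3 (by norm_num) _ ha3
  · simpa [s44av_WA] using key 4 (by norm_num) _ ha4
  · simpa [s44av_WA] using key 6 (by norm_num) _ ha6

section scaled

theorem s44av_lam_mem {lam : K} (hl1 : A.valuation lam < 1) : lam ∈ A :=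
  (A.valuation_le_one_iff _).mp hl1.le

/-- the model datum of the scaled curve -/
theorem s44av_model (W : Affine K)
    (ha1 : W.a₁ ∈ A) (ha2 : W.a₂ ∈ A) (ha3 : W.a₃ ∈ A) (ha4 : W.a₄ ∈ A) (ha6 : W.a₆ ∈ A)
    {lam : K} (hl : lam ≠ 0) (hl1 : A.valuation lam < 1) :
    s58r_Model A (s44av_C hl • W)
      ((s44av_WA A W (s44av_lam_mem A hl1) ha1 ha2 ha3 ha4 ha6).map (residue A)).toAffine :=
  ⟨_, s44av_WA_map_subtype A W hl (s44av_lam_mem A hl1) ha1 ha2 ha3 ha4 ha6, rfl⟩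

theorem s44av_two_ne (h2 : A.valuation (2 : K) = 1) : (2 : ResidueField A) ≠ 0 := by
  have h2A : (2 : K) ∈ A := (A.valuation_le_one_iff _).mp h2.le
  have hu : IsUnit (⟨2, h2A⟩ : A) := (A.valuation_eq_one_iff _).mpr h2
  have h1 : residue A ⟨2, h2A⟩ ≠ 0 := by
    intro h0
    exact ((mem_maximalIdeal _).mp ((residue_eq_zero_iff _).mp h0)) hu
  have h3 : (⟨2, h2A⟩ : A) = 2 := Subtype.ext rfl
  rwa [h3, map_ofNat] at h1

/-- **the scaled reduction of a point with `v(x) v(lam)² = 1`.** -/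
theorem s44av_red_scaled (W : Affine K) (hΔ : W.Δ ≠ 0) (h2 : A.valuation (2 : K) = 1)
    (ha1 : W.a₁ ∈ A) (ha2 : W.a₂ ∈ A) (ha3 : W.a₃ ∈ A) (ha4 : W.a₄ ∈ A) (ha6 : W.a₆ ∈ A)
    {lam : K} (hl : lam ≠ 0) (hl1 : A.valuation lam < 1)
    {x y : K} (h : W.Nonsingular x y)
    (hxl : A.valuation x * A.valuation lam ^ 2 = 1) :
    ∃ (a b : A) (hk : ((s44av_WA A W (s44av_lam_mem A hl1) ha1 ha2 ha3 ha4 ha6).map
        (residue A)).toAffine.Nonsingular (residue A a) (residue A b)),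
      (a : K) = lam ^ 2 * x ∧ (b : K) = lam ^ 3 * y ∧ residue A a ≠ 0 ∧ residue A b ≠ 0 ∧
      s58r_RedTo A (lrvc_map (s44av_C hl) W rfl hΔ (Point.some x y h)) (Point.some _ _ hk) := by
  set WA := s44av_WA A W (s44av_lam_mem A hl1) ha1 ha2 ha3 ha4 ha6 with hWA
  have hmap : WA.map A.subtype = s44av_C hl • W :=
    s44av_WA_map_subtype A W hl (s44av_lam_mem A hl1) ha1 ha2 ha3 ha4 ha6
  have hcusp : s44av_IsCusp (WA.map (residue A)).toAffine :=
    s44av_WA_isCusp A W (s44av_lam_mem A hl1) hl1 ha1 ha2 ha3 ha4 ha6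
  have h2k := s44av_two_ne A h2
  have hN0 : (s44av_C hl • W).toAffine.Nonsingular (lrvc_X (s44av_C hl) x)
      (lrvc_Y (s44av_C hl) x y) := lrvc_nonsingular (s44av_C hl) W hΔ h
  rw [s44av_C_X, s44av_C_Y] at hN0
  have hv1 : A.valuation (lam ^ 2 * x) = 1 := by
    rw [map_mul, map_pow, mul_comm]; exact hxl
  have hxA : lam ^ 2 * x ∈ A := (A.valuation_le_one_iff _).mp hv1.le
  have hN1 : (WA.map A.subtype).toAffine.Nonsingular (lam ^ 2 * x) (lam ^ 3 * y) := by
    rw [hmap]; exact hN0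
  have hyA : lam ^ 3 * y ∈ A := s58r_y_mem A WA hxA hN1.1
  set a : A := ⟨lam ^ 2 * x, hxA⟩ with ha
  set b : A := ⟨lam ^ 3 * y, hyA⟩ with hb
  have heA : WA.toAffine.Equation a b :=
    (map_equation (W := WA.toAffine) A.subtype_injective a b).mp hN1.1
  have hek : (WA.map (residue A)).toAffine.Equation (residue A a) (residue A b) :=
    Equation.map (W := WA.toAffine) (residue A) heA
  have hau : IsUnit a := (A.valuation_eq_one_iff _).mpr hv1
  have hra : residue A a ≠ 0 := by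
    intro h0
    exact ((mem_maximalIdeal _).mp ((residue_eq_zero_iff _).mp h0)) hau
  have hrb : residue A b ≠ 0 := by
    intro h0
    have he := s44av_cusp_equation hcusp hek
    rw [h0] at he
    have : residue A a ^ 3 = 0 := by rw [← he]; ring
    exact hra (pow_eq_zero_iff (by norm_num) |>.mp this)
  have hk := s44av_cusp_nonsingular hcusp h2k hek hrb
  refine ⟨a, b, hk, rfl, rfl, hra, hrb, ?_⟩
  have hφ : lrvc_map (s44av_C hl) W rfl hΔ (Point.some x y h) =
      Point.some (a : K) (b : K) hN0 := by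
    rw [lrvc_map_some]
    exact lrvc_some_congr _ _ (s44av_C_X hl x) (s44av_C_Y hl x y)
  rw [hφ]
  exact s58r_RedTo.aff a b hN0 hk

theorem s44av_map_nsmul (W : Affine K) (hΔ : W.Δ ≠ 0) {lam : K} (hl : lam ≠ 0) (n : ℕ)
    (P : W.Point) :
    lrvc_map (s44av_C hl) W rfl hΔ (n • P) = n • lrvc_map (s44av_C hl) W rfl hΔ P := by
  induction n with
  | zero => rw [zero_nsmul, zero_nsmul]; rfl
  | succ n ih => rw [succ_nsmul, succ_nsmul, lrvc_map_add, ih]

/-- **(A2-CHI)**: `σ P = n • P`, `σ lam = g lam`, `g ≡ c` ⟹ `n ≡ c` modulo the maximal ideal. -/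
theorem s44av_chi (W : Affine K) (hΔ : W.Δ ≠ 0) (h2 : A.valuation (2 : K) = 1)
    (ha1 : W.a₁ ∈ A) (ha2 : W.a₂ ∈ A) (ha3 : W.a₃ ∈ A) (ha4 : W.a₄ ∈ A) (ha6 : W.a₆ ∈ A)
    {lam : K} (hl : lam ≠ 0) (hl1 : A.valuation lam < 1)
    {x y : K} (h : W.Nonsingular x y)
    (hxl : A.valuation x * A.valuation lam ^ 2 = 1)
    (σ : K →+* K) (hσ : ∀ z ∈ A, A.valuation (σ z - z) < 1)
    {g : K} (hg : σ lam = g * lam) (hg1 : A.valuation g = 1) {c : ℕ}
    (hgc : A.valuation (g - (c : K)) < 1)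
    (h' : W.Nonsingular (σ x) (σ y)) {n : ℕ}
    (hn : Point.some (σ x) (σ y) h' = n • Point.some x y h) :
    A.valuation ((n : K) - (c : K)) < 1 := by
  set WA := s44av_WA A W (s44av_lam_mem A hl1) ha1 ha2 ha3 ha4 ha6 with hWA
  have hM := s44av_model A W ha1 ha2 ha3 ha4 ha6 hl hl1
  have hcusp : s44av_IsCusp (WA.map (residue A)).toAffine :=
    s44av_WA_isCusp A W (s44av_lam_mem A hl1) hl1 ha1 ha2 ha3 ha4 ha6
  have h2k := s44av_two_ne A h2
  have hg0 : g ≠ 0 := by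
    intro h0
    rw [h0, map_zero] at hg1
    exact zero_ne_one hg1
  have hgA : g ∈ A := (A.valuation_le_one_iff _).mp hg1.le
  -- the point `P`
  obtain ⟨a, b, hk, haK, hbK, hra, hrb, hred⟩ :=
    s44av_red_scaled A W hΔ h2 ha1 ha2 ha3 ha4 ha6 hl hl1 h hxl
  -- `σ` of an element of `A`
  have hσA : ∀ z : A, σ (z : K) ∈ A := by
    intro z
    have h1 := hσ z z.2
    have : σ (z : K) = (z : K) + (σ (z : K) - (z : K)) := by ring
    rw [this]
    exact A.add_mem _ _ z.2 ((A.valuation_le_one_iff _).mp h1.le)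
  have hres : ∀ z : A, residue A ⟨σ (z : K), hσA z⟩ = residue A z := by
    intro z
    rw [← sub_eq_zero, ← map_sub, residue_eq_zero_iff, A.valuation_lt_one_iff]
    exact hσ z z.2
  -- the point `σ P`
  have hσx : σ x = σ (a : K) / (g ^ 2 * lam ^ 2) := by
    rw [haK, map_mul, map_pow, hg]
    field_simp
  have hσy : σ y = σ (b : K) / (g ^ 3 * lam ^ 3) := by
    rw [hbK, map_mul, map_pow, hg]
    field_simp
  have hva : A.valuation (σ (a : K)) = 1 := by
    have h1 := hσ a a.2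
    have h2' : A.valuation (a : K) = 1 := by
      rw [haK, map_mul, map_pow, mul_comm]; exact hxl
    have : σ (a : K) = (a : K) + (σ (a : K) - (a : K)) := by ring
    rw [this, Valuation.map_add_eq_of_lt_left _ (by rw [h2']; exact h1), h2']
  have hxlσ : A.valuation (σ x) * A.valuation lam ^ 2 = 1 := by
    have hl0 : A.valuation lam ≠ 0 := (A.valuation.ne_zero_iff).mpr hl
    rw [hσx, map_div₀, hva, map_mul, map_pow, map_pow, hg1, one_pow, one_mul, one_div,
      inv_mul_cancel₀ (pow_ne_zero 2 hl0)]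
  obtain ⟨a', b', hk', haK', hbK', hra', hrb', hred'⟩ :=
    s44av_red_scaled A W hΔ h2 ha1 ha2 ha3 ha4 ha6 hl hl1 h' hxlσ
  -- residues
  set gA : A := ⟨g, hgA⟩ with hgAdef
  have hgAK : (gA : K) = g := rfl
  have hrg : residue A gA = (c : ResidueField A) := by
    have h1 : residue A (gA - (c : A)) = 0 := by
      rw [residue_eq_zero_iff, A.valuation_lt_one_iff]
      have : ((gA - (c : A) : A) : K) = g - (c : K) := by
        push_cast; rfl
      rw [this]; exact hgc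
    rw [map_sub, map_natCast, sub_eq_zero] at h1
    exact h1
  have e1 : a' * gA ^ 2 = ⟨σ (a : K), hσA a⟩ := by
    apply Subtype.ext
    push_cast
    rw [haK', hσx, hgAK]
    field_simp
  have e2 : b' * gA ^ 3 = ⟨σ (b : K), hσA b⟩ := by
    apply Subtype.ext
    push_cast
    rw [hbK', hσy, hgAK]
    field_simp
  have r1 : residue A a' * (c : ResidueField A) ^ 2 = residue A a := by
    rw [← hrg, ← map_pow, ← map_mul, e1, hres]
  have r2 : residue A b' * (c : ResidueField A) ^ 3 = residue A b := by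
    rw [← hrg, ← map_pow, ← map_mul, e2, hres]
  have hc0 : (c : ResidueField A) ≠ 0 := by
    intro h0
    rw [h0] at r1
    apply hra
    rw [← r1]; ring
  -- the homomorphism
  set PE : s58r_E0 hM := ⟨lrvc_map (s44av_C hl) W rfl hΔ (Point.some x y h), _, hred⟩ with hPE
  set QE : s58r_E0 hM := ⟨lrvc_map (s44av_C hl) W rfl hΔ (Point.some (σ x) (σ y) h'), _, hred'⟩
    with hQE
  have hQP : QE = n • PE := by
    apply Subtype.ext
    rw [AddSubgroup.coe_nsmul, hQE, hPE]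
    change lrvc_map (s44av_C hl) W rfl hΔ (Point.some (σ x) (σ y) h') = _
    rw [hn, s44av_map_nsmul]
  have hrP : s58r_red hM PE = Point.some _ _ hk := s58r_red_eq hM PE hred
  have hrQ : s58r_red hM QE = Point.some _ _ hk' := s58r_red_eq hM QE hred'
  have hκ : s44av_kappa _ (Point.some _ _ hk') = (n : ResidueField A) *
      s44av_kappa _ (Point.some _ _ hk) := by
    rw [← hrP, ← hrQ, hQP, map_nsmul, s44av_kappa_nsmul hcusp h2k]
  rw [s44av_kappa_some, s44av_kappa_some] at hκ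
  -- conclusion
  have hfin : (n : ResidueField A) = (c : ResidueField A) := by
    have h3 : residue A a' / residue A b' = (c : ResidueField A) * (residue A a / residue A b) := by
      rw [← r1, ← r2]
      field_simp
    rw [h3] at hκ
    have ht0 : residue A a / residue A b ≠ 0 := div_ne_zero hra hrb
    exact (mul_right_cancel₀ ht0 hκ).symm
  have h4 : residue A ((n : A) - (c : A)) = 0 := by
    rw [map_sub, map_natCast, map_natCast, hfin, sub_self]
  rw [residue_eq_zero_iff, A.valuation_lt_one_iff] at h4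
  have : (((n : A) - (c : A) : A) : K) = (n : K) - (c : K) := by push_cast; rfl
  rwa [this] at h4

end scaled

end Fermat.Agent.S44
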