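/-
S44 project, cell [A] LOC-FREY-p, sub-cell (A2-VAL), piece GAUSS-CONTENT (helper6).
Prefix `s44av_`.

`F` a field, `A : ValuationSubring F`.  A split polynomial `P = c * ∏_{r ∈ S} (X - r)` all of whose
coefficients lie in `A` and one of whose coefficients is a unit of `A` satisfies
`v(c) * ∏_{r ∈ S, r ∉ A} v(r) = 1`.

Proof: `P = C₀ * G`, `C₀ = c * ∏_{out} (-r)`, `G = ∏_{in} (X - r) * ∏_{out} (1 - r⁻¹ X)` has
coefficients in `A` and its reduction is the monic polynomial `∏_{in} (X - r̄)`, so some
coefficient of `G` is a unit.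
-/
import Mathlib

set_option autoImplicit false

namespace Fermat.Agent.S44

open Polynomial IsLocalRing

variable {F : Type*} [Field F]

/-- the element of `A` underlying `r` (or `0`) -/
noncomputable def s44av_in (A : ValuationSubring F) (r : F) : A :=
  open Classical in if h : r ∈ A then ⟨r, h⟩ else 0

/-- the element of `A` underlying `r⁻¹` (or `0`) -/
noncomputable def s44av_out (A : ValuationSubring F) (r : F) : A :=
  open Classical in if h : r⁻¹ ∈ A then ⟨r⁻¹, h⟩ else 0

theorem s44av_in_coe (A : ValuationSubring F) {r : F} (h : r ∈ A) : (s44av_in A r : F) = r := by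
  rw [s44av_in, dif_pos h]

theorem s44av_inv_mem (A : ValuationSubring F) {r : F} (h : r ∉ A) : r⁻¹ ∈ A :=
  (A.mem_or_inv_mem r).resolve_left h

theorem s44av_out_coe (A : ValuationSubring F) {r : F} (h : r ∉ A) :
    (s44av_out A r : F) = r⁻¹ := by
  rw [s44av_out, dif_pos (s44av_inv_mem A h)]

theorem s44av_ne_zero_of_not_mem (A : ValuationSubring F) {r : F} (h : r ∉ A) : r ≠ 0 := by
  rintro rfl
  exact h A.zero_mem

theorem s44av_out_mem_max (A : ValuationSubring F) {r : F} (h : r ∉ A) :
    s44av_out A r ∈ maximalIdeal A := by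
  rw [mem_maximalIdeal, mem_nonunits_iff]
  intro hu
  have h1 : A.valuation ((s44av_out A r : A) : F) = 1 := (A.valuation_eq_one_iff _).mp hu
  rw [s44av_out_coe A h, map_inv₀, inv_eq_one] at h1
  exact h ((A.valuation_le_one_iff r).mp h1.le)

/-- the integral cofactor `G` -/
noncomputable def s44av_G (A : ValuationSubring F) (S : Finset F) : A[X] :=
  open Classical in
  (∏ r ∈ S.filter (fun r => r ∈ A), (X - C (s44av_in A r))) *
    ∏ r ∈ S.filter (fun r => r ∉ A), (1 - C (s44av_out A r) * X)

theorem s44av_G_map_residue (A : ValuationSubring F) (S : Finset F) :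
    (s44av_G A S).map (residue A) =
      open Classical in
      ∏ r ∈ S.filter (fun r => r ∈ A), (X - C (residue A (s44av_in A r))) := by
  classical
  rw [s44av_G, Polynomial.map_mul, Polynomial.map_prod, Polynomial.map_prod]
  have h2 : ∏ r ∈ S.filter (fun r => r ∉ A),
      (1 - C (s44av_out A r) * X : A[X]).map (residue A) = 1 := by
    refine Finset.prod_eq_one fun r hr => ?_
    have hr' : r ∉ A := (Finset.mem_filter.mp hr).2
    have h0 : residue A (s44av_out A r) = 0 :=
      (residue_eq_zero_iff _).mpr (s44av_out_mem_max A hr')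
    simp [h0]
  rw [h2, mul_one]
  refine Finset.prod_congr rfl fun r _ => ?_
  simp

theorem s44av_G_unit_coeff (A : ValuationSubring F) (S : Finset F) :
    ∃ i : ℕ, A.valuation (((s44av_G A S).coeff i : A) : F) = 1 := by
  classical
  have hmonic : ((s44av_G A S).map (residue A)).Monic := by
    rw [s44av_G_map_residue]
    exact monic_prod_of_monic _ _ fun r _ => monic_X_sub_C _
  have hne : (s44av_G A S).map (residue A) ≠ 0 := hmonic.ne_zero
  obtain ⟨i, hi⟩ : ∃ i, ((s44av_G A S).map (residue A)).coeff i ≠ 0 := by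
    by_contra hcon
    push Not at hcon
    exact hne (Polynomial.ext fun i => by rw [hcon i, coeff_zero])
  refine ⟨i, ?_⟩
  rw [coeff_map] at hi
  have hu : IsUnit ((s44av_G A S).coeff i) := by
    by_contra hnu
    exact hi ((residue_eq_zero_iff _).mpr ((mem_maximalIdeal _).mpr hnu))
  exact (A.valuation_eq_one_iff _).mp hu

theorem s44av_G_map_subtype (A : ValuationSubring F) (S : Finset F) :
    (C (open Classical in ∏ r ∈ S.filter (fun r => r ∉ A), (-r)) : F[X]) *
      (s44av_G A S).map A.subtype = ∏ r ∈ S, (X - C r) := by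
  classical
  rw [s44av_G, Polynomial.map_mul, Polynomial.map_prod, Polynomial.map_prod, map_prod,
    mul_left_comm, ← Finset.prod_mul_distrib]
  rw [← Finset.prod_filter_mul_prod_filter_not S (fun r => r ∈ A)]
  congr 1
  · refine Finset.prod_congr rfl fun r hr => ?_
    have hr' : r ∈ A := (Finset.mem_filter.mp hr).2
    simp only [Polynomial.map_sub, map_X, map_C]
    congr 2
    exact s44av_in_coe A hr'
  · refine Finset.prod_congr rfl fun r hr => ?_
    have hr' : r ∉ A := (Finset.mem_filter.mp hr).2
    have hr0 : r ≠ 0 := s44av_ne_zero_of_not_mem A hr'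
    simp only [Polynomial.map_sub, Polynomial.map_one, Polynomial.map_mul, map_X, map_C]
    have e : A.subtype (s44av_out A r) = r⁻¹ := s44av_out_coe A hr'
    rw [e, mul_sub, mul_one, ← mul_assoc, ← C_mul, neg_mul, mul_inv_cancel₀ hr0]
    simp
    ring

/-- **GAUSS-CONTENT**: `P = c * ∏_{r ∈ S} (X - r)` with coefficients in `A`, one of them a unit:
`v(c) * ∏_{r ∈ S, r ∉ A} v(r) = 1`. -/
theorem s44av_gauss (A : ValuationSubring F) (c : F) (S : Finset F) (P : F[X])
    (hP : P = C c * ∏ r ∈ S, (X - C r)) (hint : ∀ i, P.coeff i ∈ A)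
    (hunit : ∃ i, A.valuation (P.coeff i) = 1) [inst : DecidablePred fun r : F => r ∉ A] :
    A.valuation c * ∏ r ∈ S.filter (fun r => r ∉ A), A.valuation r = 1 := by
  have hinst : inst = fun r => Classical.propDecidable _ := Subsingleton.elim _ _
  subst hinst
  classical
  set C₀ : F := c * ∏ r ∈ S.filter (fun r => r ∉ A), (-r) with hC₀
  have hPG : P = C C₀ * (s44av_G A S).map A.subtype := by
    rw [hP, ← s44av_G_map_subtype A S, hC₀, C_mul, mul_assoc]
  have hcoeff : ∀ i, P.coeff i = C₀ * (((s44av_G A S).coeff i : A) : F) := by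
    intro i
    rw [hPG, coeff_C_mul, coeff_map]
    rfl
  have hle : A.valuation C₀ ≤ 1 := by
    obtain ⟨i, hi⟩ := s44av_G_unit_coeff A S
    have h1 := (A.valuation_le_one_iff _).mpr (hint i)
    rwa [hcoeff i, map_mul, hi, mul_one] at h1
  have hge : 1 ≤ A.valuation C₀ := by
    obtain ⟨j, hj⟩ := hunit
    rw [hcoeff j, map_mul] at hj
    have h2 : A.valuation (((s44av_G A S).coeff j : A) : F) ≤ 1 :=
      (A.valuation_le_one_iff _).mpr ((s44av_G A S).coeff j).2
    calc (1 : A.ValueGroup) = A.valuation C₀ * A.valuation (((s44av_G A S).coeff j : A) : F) :=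
          hj.symm
      _ ≤ A.valuation C₀ * 1 := mul_le_mul_right h2 _
      _ = A.valuation C₀ := mul_one _
  have h1 : A.valuation C₀ = 1 := le_antisymm hle hge
  rw [hC₀, map_mul, map_prod] at h1
  simp only [Valuation.map_neg] at h1
  convert h1

end Fermat.Agent.S44
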