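/-
S44 project, cell [A] LOC-FREY-p, sub-cell (A2-VAL) (helper6).  Prefix `s44av_`.

THE SHARP VALUATION OF THE `p`-TORSION OF THE KERNEL OF REDUCTION, WITHOUT FORMAL GROUPS.

`K` algebraically closed of characteristic `0`, `A : ValuationSubring K`, `W : Affine K` with
integral `b`-invariants, `2 ∈ Aˣ`, `Δ ≠ 0`, `p = 2m+1` an odd prime such that every `0 < k < p` is
a unit of `A`, the division polynomial `C_m = ldC (ldPoly W) m` has a UNIT coefficient (i.e. `[p]`
does not vanish on the reduction), and `Z₁ := W[p] ∩ E₁(A)` is generated by `x₀ ≠ 0`.  Then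

  `v(x(x₀)) ^ m * v(p) = 1`                                   (`s44av_E1_val`)

(i.e. `|T|^(p-1) = |p|` for `T = -x/y`), and `v(x(k • x₀)) = v(x(x₀))` for `1 ≤ k ≤ m`
(`s44av_val_nsmul`).

Proof: `ld_vieta` (`C_m = -p ∏_{r ∈ S} (X - r)`, `S` = the `x`-coordinates of `W[p] ∖ 0`), the
GAUSS-CONTENT lemma `s44av_gauss` and the S05 induction `X(kP) = k² X + O(X²)`.
-/
import Mathlib
import Fermat.Agent.S05.NoTorsion
import Fermat.Agent.S13.Ladder.Vieta
import Fermat.Agent.S13.Ladder.Integral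
import Fermat.Agent.S44.LocP.Gauss

set_option autoImplicit false

namespace Fermat.Agent.S44

open Polynomial WeierstrassCurve WeierstrassCurve.Affine Fermat.Agent.S05 Fermat.Agent.S13

section torsclaim

variable {F : Type*} [Field F] [DecidableEq F] {W : Affine F} {A : ValuationSubring F}

/-- the S05 induction, exported: `X(kP) = k² X + O(X²)` for `1 ≤ k ≤ (p+1)/2`, `P ∈ E₁` of
order `p`. -/
theorem s44av_torsClaim (hW : IntegralModel W A) {p : ℕ} (hp : p.Prime) (hp2 : p ≠ 2)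
    {x y : F} (h : W.Nonsingular x y) (hx : x ∉ A) (hpP : p • Point.some x y h = 0) :
    ∀ k : ℕ, 1 ≤ k → 2 * (k + 1) ≤ p + 1 →
      TorsClaim A (Point.some x y h) x⁻¹ k ∧ TorsClaim A (Point.some x y h) x⁻¹ (k + 1) := by
  have hP0 : Point.some x y h ≠ 0 := Point.some_ne_zero h
  have : Fact p.Prime := ⟨hp⟩
  have hord : addOrderOf (Point.some x y h) = p := addOrderOf_eq_prime hpP hP0
  have hdvd : ∀ j : ℕ, j • Point.some x y h = 0 → p ∣ j := fun j hj =>
    hord ▸ addOrderOf_dvd_of_nsmul_eq_zero hj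
  have hp3 : 3 ≤ p := by
    have := hp.two_le
    omega
  intro k hk
  induction k, hk using Nat.le_induction with
  | base =>
    intro _
    refine ⟨⟨x, y, h, one_nsmul _, hx, ?_⟩, ?_⟩
    · have : x⁻¹ - ((1 : ℕ) : F) ^ 2 * x⁻¹ = 0 := by push_cast; ring
      rw [this, map_zero]; exact zero_le
    · obtain ⟨x', y', h', h2, hx', hest⟩ := double_of_not_mem hW h hx
      refine ⟨x', y', h', h2, hx', ?_⟩
      have : x'⁻¹ - ((1 + 1 : ℕ) : F) ^ 2 * x⁻¹ = x'⁻¹ - 4 * x⁻¹ := by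
        push_cast; ring
      rw [this]; exact hest
  | succ k hk ih =>
    intro hb
    obtain ⟨hCk, hCk1⟩ := ih (by omega)
    refine ⟨hCk1, torsClaim_succ_succ hW h hx ?_ hCk hCk1⟩
    intro x₁ y₁ h₁ e₁ hxx
    rcases (Point.X_eq_iff (h₁ := h₁) (h₂ := h)).mp hxx with e | e
    · have : k • Point.some x y h = 0 := by
        have h1 : (k + 1) • Point.some x y h = Point.some x y h := by rw [e₁, e]
        rw [succ_nsmul] at h1
        exact add_eq_right.mp h1
      have := Nat.le_of_dvd (by omega) (hdvd k this)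
      omega
    · have : (k + 2) • Point.some x y h = 0 := by
        rw [succ_nsmul _ (k + 1), e₁, e, neg_add_cancel]
      have := Nat.le_of_dvd (by omega) (hdvd _ this)
      omega

/-- `v(x(k • P)) = v(x(P))` for `P ∈ E₁` of order `p`, `1 ≤ k ≤ (p-1)/2`, `k ∈ Aˣ`. -/
theorem s44av_val_nsmul (hW : IntegralModel W A) {p : ℕ} (hp : p.Prime) (hp2 : p ≠ 2)
    {x y : F} (h : W.Nonsingular x y) (hx : x ∉ A) (hpP : p • Point.some x y h = 0)
    {k : ℕ} (hk1 : 1 ≤ k) (hkm : 2 * k + 1 ≤ p) (hku : A.valuation (k : F) = 1) :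
    ∃ (xk yk : F) (hk : W.Nonsingular xk yk), k • Point.some x y h = Point.some xk yk hk ∧
      xk ∉ A ∧ A.valuation xk = A.valuation x := by
  obtain ⟨⟨xk, yk, hk', ek, hxk, vk⟩, -⟩ := s44av_torsClaim hW hp hp2 h hx hpP k hk1 (by omega)
  refine ⟨xk, yk, hk', ek, hxk, ?_⟩
  have hx0 := ne_zero_of_not_mem hx
  have hxk0 := ne_zero_of_not_mem hxk
  have hv : A.valuation x⁻¹ < 1 := valuation_inv_lt_one hx
  have hX0 : x⁻¹ ≠ 0 := inv_ne_zero hx0
  have hvpos : 0 < A.valuation x⁻¹ := zero_lt_iff.mpr ((A.valuation.ne_zero_iff).mpr hX0)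
  have hlt : A.valuation x⁻¹ ^ 2 < A.valuation x⁻¹ := by
    rw [sq]
    calc A.valuation x⁻¹ * A.valuation x⁻¹ < A.valuation x⁻¹ * 1 :=
          mul_lt_mul_of_pos_left hv hvpos
      _ = A.valuation x⁻¹ := mul_one _
  have hk2 : A.valuation ((k : F) ^ 2 * x⁻¹) = A.valuation x⁻¹ := by
    rw [map_mul, map_pow, hku, one_pow, one_mul]
  have h1 : A.valuation xk⁻¹ = A.valuation ((k : F) ^ 2 * x⁻¹) := by
    refine Valuation.map_eq_of_sub_lt _ ?_
    rw [hk2]
    exact lt_of_le_of_lt vk hlt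
  rw [hk2, map_inv₀, map_inv₀] at h1
  exact inv_injective h1

end torsclaim

section main

variable {K : Type*} [Field K] [DecidableEq K] [IsAlgClosed K] [CharZero K]

/-- `x`-coordinate of a multiple of `x₀` -/
noncomputable def s44av_f (W : Affine K) (x₀ : W.Point) (k : ℕ) : K := xOf (k • x₀)

/-- **(A2-VAL)**: `v(x(x₀)) ^ m * v(p) = 1` for a generator `x₀` of `W[p] ∩ E₁(A)`. -/
theorem s44av_E1_val (A : ValuationSubring K) (W : Affine K) (hΔ : W.Δ ≠ 0)
    (hW : IntegralModel W A) {m : ℕ}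
    (hp : (2 * m + 1).Prime)
    (hku : ∀ k : ℕ, 0 < k → k < 2 * m + 1 → A.valuation (k : K) = 1)
    (hunit : ∃ i, A.valuation ((ldC (ldPoly W) m).coeff i) = 1)
    (x₀ : W.Point) (hx₀ : (2 * m + 1) • x₀ = 0) (hx₀0 : x₀ ≠ 0) (hx₀E : InKerRed A x₀)
    (hZ : ∀ T : W.Point, (2 * m + 1) • T = 0 → InKerRed A T → ∃ k : ℕ, T = k • x₀) :
    A.valuation (xOf x₀) ^ m * A.valuation ((2 * m + 1 : ℕ) : K) = 1 := by
  classical
  have hm0 : m ≠ 0 := by
    rintro rfl
    exact Nat.not_prime_one (by simpa using hp)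
  have hp2 : 2 * m + 1 ≠ 2 := by omega
  have : Fact (2 * m + 1).Prime := ⟨hp⟩
  have hord : addOrderOf x₀ = 2 * m + 1 := addOrderOf_eq_prime hx₀ hx₀0
  rcases x₀ with _ | ⟨x, y, h⟩
  · exact absurd rfl hx₀0
  have hx : x ∉ A := (inKerRed_some h).mp hx₀E
  set P : W.Point := Point.some x y h with hPdef
  obtain ⟨S, hS, hC⟩ := ld_vieta W hΔ m
  have hint : ∀ i, (ldC (ldPoly W) m).coeff i ∈ A :=
    fun i => ldC_coeff_mem_valuationSubring A W hW.b₂ hW.b₄ hW.b₆ hW.b₈ m i
  have hg := s44av_gauss A (-((2 * m + 1 : ℕ) : K)) S _ hC hint hunit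
  rw [Valuation.map_neg] at hg
  -- the non-integral roots are the `x(k • x₀)`, `1 ≤ k ≤ m`
  have hfk : ∀ k ∈ Finset.Icc 1 m, ∃ (xk yk : K) (hk : W.Nonsingular xk yk),
      k • P = Point.some xk yk hk ∧ xk ∉ A ∧ A.valuation xk = A.valuation x := by
    intro k hk
    obtain ⟨hk1, hkm⟩ := Finset.mem_Icc.mp hk
    exact s44av_val_nsmul hW hp hp2 h hx hx₀ hk1 (by omega) (hku k (by omega) (by omega))
  have hset : S.filter (fun r => r ∉ A) = (Finset.Icc 1 m).image (s44av_f W P) := by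
    ext r
    simp only [Finset.mem_filter, Finset.mem_image]
    constructor
    · rintro ⟨hrS, hrA⟩
      obtain ⟨yr, hr, hpr⟩ := (hS r).mp hrS
      obtain ⟨k, hk⟩ := hZ _ hpr ((inKerRed_some hr).mpr hrA)
      -- reduce `k` modulo `p`
      have hkmod : (k % (2 * m + 1)) • P = Point.some r yr hr := by
        rw [hk]
        conv_rhs => rw [← Nat.mod_add_div k (2 * m + 1)]
        rw [add_nsmul, mul_nsmul, hx₀, smul_zero, add_zero]
      set k' := k % (2 * m + 1) with hk'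
      have hk'lt : k' < 2 * m + 1 := Nat.mod_lt _ (by omega)
      have hk'0 : k' ≠ 0 := by
        intro h0
        rw [h0, zero_nsmul] at hkmod
        exact Point.some_ne_zero hr hkmod.symm
      by_cases hle : k' ≤ m
      · refine ⟨k', Finset.mem_Icc.mpr ⟨by omega, hle⟩, ?_⟩
        rw [s44av_f, hkmod, xOf_some]
      · refine ⟨2 * m + 1 - k', Finset.mem_Icc.mpr ⟨by omega, by omega⟩, ?_⟩
        have h1 : (2 * m + 1 - k') • P = -Point.some r yr hr := by
          rw [← hkmod, eq_neg_iff_add_eq_zero, ← add_nsmul]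
          have : 2 * m + 1 - k' + k' = 2 * m + 1 := by omega
          rw [this]
          exact hx₀
        rw [s44av_f, h1, xOf_neg, xOf_some]
    · rintro ⟨k, hk, rfl⟩
      obtain ⟨xk, yk, hk', ek, hxk, -⟩ := hfk k hk
      rw [s44av_f, ek, xOf_some]
      refine ⟨(hS xk).mpr ⟨yk, hk', ?_⟩, hxk⟩
      rw [← ek, smul_comm, hx₀, smul_zero]
  have hinj : Set.InjOn (s44av_f W P) (Finset.Icc 1 m : Finset ℕ) := by
    intro k hk k' hk' hkk
    obtain ⟨hk1, hkm⟩ := Finset.mem_Icc.mp hk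
    obtain ⟨hk'1, hk'm⟩ := Finset.mem_Icc.mp hk'
    obtain ⟨xk, yk, hkn, ek, -, -⟩ := hfk k hk
    obtain ⟨xk', yk', hkn', ek', -, -⟩ := hfk k' hk'
    rw [s44av_f, s44av_f, ek, ek', xOf_some, xOf_some] at hkk
    rcases (Point.X_eq_iff (h₁ := hkn) (h₂ := hkn')).mp hkk with e | e
    · -- `k • P = k' • P`
      rw [← ek, ← ek'] at e
      have h1 : ((k : ℤ) - k') • P = 0 := by
        rw [sub_zsmul, natCast_zsmul, natCast_zsmul, e]
        abel
      have h2 : ((2 * m + 1 : ℕ) : ℤ) ∣ (k : ℤ) - k' := by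
        rw [← hord]
        exact (addOrderOf_dvd_iff_zsmul_eq_zero).mpr h1
      have h3 : (k : ℤ) - k' = 0 := by
        refine Int.eq_zero_of_abs_lt_dvd h2 ?_
        rw [abs_lt]
        constructor <;> push_cast <;> omega
      omega
    · -- `k • P = -(k' • P)`
      rw [← ek, ← ek'] at e
      have h1 : (k + k') • P = 0 := by
        rw [add_nsmul, e, neg_add_cancel]
      have h2 : (2 * m + 1) ∣ k + k' := by
        rw [← hord]
        exact addOrderOf_dvd_of_nsmul_eq_zero h1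
      have := Nat.le_of_dvd (by omega) h2
      omega
  rw [hset, Finset.prod_image hinj] at hg
  have hconst : ∀ k ∈ Finset.Icc 1 m, A.valuation (s44av_f W P k) = A.valuation x := by
    intro k hk
    obtain ⟨xk, yk, hk', ek, -, hv⟩ := hfk k hk
    rw [s44av_f, ek, xOf_some, hv]
  rw [Finset.prod_congr rfl hconst, Finset.prod_const, Nat.card_Icc, Nat.add_sub_cancel,
    mul_comm] at hg
  rw [xOf_some]
  exact hg

end main

end Fermat.Agent.S44
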