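/-
Project S44 (Mazur–Ribet at `p`, Frey form), cell [A] LOC-FREY-p (helper17), file (A1a).
Prefix `s44a_`.

THE `q = p` TWIN OF S05: for a place `A` of `ℚ̄` over an odd prime `q` (`q = p` ALLOWED) at which the
Frey curve has multiplicative reduction, and `σ` in the inertia group of `A`, every `p`-torsion
point `T` satisfies `σ • T - T ∈ E₁` (the kernel of reduction, `S05.InKerRed`).

This is the `suffices hD` of `S05.node_fixed_alt` / `S05.final_node`; the only change is that the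
two appeals to "`E₁` has no `p`-torsion" (which need `p` to be a unit of `A`) are dropped.
Consequence (for `q = p`): the inertia group at `p` acts trivially on `E[p] / E₁[p]`.
-/
import Mathlib
import Fermat.Agent.S05.UnM1Final
import Fermat.Agent.S05.NodeFixedAlt
import Fermat.Agent.S05.FreyFixed
import Fermat.Agent.S05.FreyAnnulus
import Fermat.Agent.S05.NodeUnit
import Fermat.Agent.S05.TransTwo
import Fermat.Agent.S05.Congruent
import Fermat.Agent.S05.Inertia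

set_option autoImplicit false

open WeierstrassCurve WeierstrassCurve.Affine WeierstrassCurve.Affine.Point
open FreyPackage Fermat.Agent.S05

namespace Fermat.Agent.S44

section Generic

variable {R S K : Type*} [CommRing R] [CommRing S] [Field K] [DecidableEq K]
  [Algebra R S] [Algebra R K] [Algebra S K] [IsScalarTower R S K]
  {W' : Affine R} (A : ValuationSubring K) (σ : K ≃ₐ[S] K)

/-- **Generic endgame without `p ∈ Aˣ`**: `σ • T - T` lies in the kernel of reduction. -/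
theorem s44a_node_sub (hW : IntegralModel (W'⁄K) A)
    (ha1 : (W'⁄K).a₁ ∈ A) (ha2 : (W'⁄K).a₂ ∈ A) (ha3 : (W'⁄K).a₃ ∈ A) (ha4 : (W'⁄K).a₄ ∈ A)
    (ha6 : (W'⁄K).a₆ ∈ A)
    (hσA : ∀ z : K, σ z ∈ A ↔ z ∈ A) (hσm : ∀ z : K, z ∈ A → A.valuation (σ z - z) < 1)
    {p : ℕ} {e : K} (he : e ∈ A) (hσe : σ e = e) (β : A.ValueGroup)
    (hM1' : ∀ {x y : K} (h : (W'⁄K).Nonsingular x y),
      p • (Point.some x y h : (W'⁄K).Point) = 0 → β < A.valuation (x - e) →
        A.valuation (x - e) < 1 → ∃ c : K, c ≠ 0 ∧ σ c = c ∧ A.valuation (x - e) = A.valuation c)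
    (hN : ∀ {x y : K}, (W'⁄K).toAffine.Equation x y → β < A.valuation (x - e) →
      A.valuation (x - e) < 1 →
        A.valuation (2 * y + (W'⁄K).a₁ * x + (W'⁄K).a₃) = A.valuation (x - e))
    (hM3 : ∀ {x y yT : K} (h : (W'⁄K).Nonsingular x y) (hT : (W'⁄K).Nonsingular e yT),
      A.valuation (x - e) ≤ β →
        (Point.some x y h - Point.some e yT hT : (W'⁄K).Point) = 0 ∨
          ∃ (X Y : K) (H : (W'⁄K).Nonsingular X Y),
            (Point.some x y h - Point.some e yT hT : (W'⁄K).Point) = Point.some X Y H ∧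
              1 ≤ A.valuation (X - e))
    (hM4 : ∀ {x y : K}, (W'⁄K).toAffine.Equation x y → x ∈ A → y ∈ A → A.valuation (x - e) = 1 →
      (A.valuation (2 * y + (W'⁄K).a₁ * x + (W'⁄K).a₃) = 1 ∨
        A.valuation (3 * x ^ 2 + 2 * (W'⁄K).a₂ * x + (W'⁄K).a₄ - (W'⁄K).a₁ * y) = 1))
    (hTe : ∃ (yT : K) (hT : (W'⁄K).Nonsingular e yT),
      σ • (Point.some e yT hT : (W'⁄K).Point) = Point.some e yT hT)
    (T : (W'⁄K).Point) (hT : p • T = 0) : InKerRed A (σ • T - T) := by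
  have hE0 := fun Rp hR => nf_smul_sub_inKerRed_of_E0 (W' := W') A σ hW ha1 ha2 ha3 ha4 ha6
    hσA hσm he hM4 Rp hR
  rcases T with _ | ⟨x, y, h⟩
  · have : σ • (0 : (W'⁄K).Point) - 0 = 0 := by rw [smul_zero, sub_zero]
    change InKerRed A (σ • (0 : (W'⁄K).Point) - 0)
    rw [this]; exact inKerRed_zero
  rcases le_or_gt 1 (A.valuation (x - e)) with h1 | h1
  · exact hE0 _ (Or.inr ⟨x, y, h, rfl, h1⟩)
  have hx : x ∈ A := by
    have h2 : x - e ∈ A := (A.valuation_le_one_iff _).mp h1.le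
    have : x = (x - e) + e := by ring
    rw [this]; exact add_mem h2 he
  rcases lt_or_ge β (A.valuation (x - e)) with h2 | h2
  · -- annulus: relative congruence
    obtain ⟨c, hc0, hσc, hvc⟩ := hM1' h hT h2 h1
    have hNv := hN h.1 h2 h1
    have hσ1 : (σ : K →+* K) (W'⁄K).a₁ = (W'⁄K).a₁ := by
      change σ (W'⁄K).a₁ = (W'⁄K).a₁
      have : (W'⁄K).a₁ = algebraMap R K W'.a₁ := rfl
      rw [this]; exact nfa_fix_algebraMap σ _
    have hσ3 : (σ : K →+* K) (W'⁄K).a₃ = (W'⁄K).a₃ := by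
      change σ (W'⁄K).a₃ = (W'⁄K).a₃
      have : (W'⁄K).a₃ = algebraMap R K W'.a₃ := rfl
      rw [this]; exact nfa_fix_algebraMap σ _
    rw [smul_some σ h]
    rcases eg_node_sub_mem_E1 A (W'⁄K) ha1 ha2 hW.two (σ : K →+* K)
        (fun z hz => hσm z hz) hσ1 hσ3 (e := e) (c := c) hσe hσc hc0 h
        ((W'.baseChange_nonsingular (f := σ.toAlgHom) σ.injective x y).mpr h) hx hvc
        (hNv.trans hvc) with h0 | ⟨X', Y', H', hD, hX'⟩
    · exact h0 ▸ inKerRed_zero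
    · exact hD ▸ (inKerRed_some H').mpr hX'
  · -- middle
    obtain ⟨yT, hTn, hfix⟩ := hTe
    have hR0 := hM3 h hTn h2
    have key : σ • Point.some x y h - Point.some x y h =
        σ • (Point.some x y h - Point.some e yT hTn) -
          (Point.some x y h - Point.some e yT hTn) := by
      rw [smul_sub, hfix]; abel
    rw [key]
    refine hE0 _ ?_
    rcases hR0 with h0 | ⟨X, Y, H, hXY, hX⟩
    · exact Or.inl h0
    · exact Or.inr ⟨X, Y, H, hXY, hX⟩

end Generic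

/-- **Frey curve, multiplicative place, any odd `q` (also `q = p`)**: `σ • T - T ∈ E₁` for `σ` in the
inertia group and `T ∈ E[p]`. -/
theorem s44a_frey_node_sub (P : FreyPackage) {q : ℕ} (hq : q.Prime) (hq2 : q ≠ 2)
    (A : ValuationSubring (AlgebraicClosure ℚ)) (hA : A.LiesOverPrime q)
    (σ : AlgebraicClosure ℚ ≃ₐ[ℚ] AlgebraicClosure ℚ) (hσ : σ ∈ A.inertiaSubgroupIn ℚ)
    (r₁ r₂ r₃ : ℚ) (k : ℕ)
    (hfac : ∀ x : AlgebraicClosure ℚ, psi2Sq (P.freyCurve⁄(AlgebraicClosure ℚ)) x =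
        4 * (x - algebraMap ℚ (AlgebraicClosure ℚ) r₁) * (x - algebraMap ℚ (AlgebraicClosure ℚ) r₂)
          * (x - algebraMap ℚ (AlgebraicClosure ℚ) r₃))
    (hv12 : A.valuation (algebraMap ℚ (AlgebraicClosure ℚ) r₁ -
      algebraMap ℚ (AlgebraicClosure ℚ) r₂) = A.valuation (q : AlgebraicClosure ℚ) ^ (P.p * k))
    (hk : 0 < k)
    (hv13 : A.valuation (algebraMap ℚ (AlgebraicClosure ℚ) r₁ -
      algebraMap ℚ (AlgebraicClosure ℚ) r₃) = 1)
    (hr1 : algebraMap ℚ (AlgebraicClosure ℚ) r₁ ∈ A)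
    (hne12 : r₁ ≠ r₂) (hne13 : r₁ ≠ r₃)
    (T : (P.freyCurve⁄(AlgebraicClosure ℚ)).Point) (hT : P.p • T = 0) :
    InKerRed A (σ • T - T) := by
  have hW := freyL_integralModel P A hA hq hq2
  obtain ⟨ha1, ha2, ha3, ha4, ha6⟩ := freyL_a_mem P A hA hq hq2
  have h2 : A.valuation (2 : AlgebraicClosure ℚ) = 1 := two_unit A hA hq hq2
  have h2ne : (2 : AlgebraicClosure ℚ) ≠ 0 := two_ne_zero
  set e : AlgebraicClosure ℚ := algebraMap ℚ (AlgebraicClosure ℚ) r₁ with he_def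
  set e₂ : AlgebraicClosure ℚ := algebraMap ℚ (AlgebraicClosure ℚ) r₂ with he₂_def
  set e₃ : AlgebraicClosure ℚ := algebraMap ℚ (AlgebraicClosure ℚ) r₃ with he₃_def
  set a : AlgebraicClosure ℚ := (e - e₂) + (e - e₃) with ha_def
  set b : AlgebraicClosure ℚ := (e - e₂) * (e - e₃) with hb_def
  -- valuations of the parameters
  have hqK : (q : AlgebraicClosure ℚ) ≠ 0 := by exact_mod_cast hq.ne_zero
  have hqlt : A.valuation (q : AlgebraicClosure ℚ) < 1 := intVal_prime_lt_one A hA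
  have hpk : P.p * k ≠ 0 := Nat.mul_ne_zero P.hp0 hk.ne'
  have h12lt : A.valuation (e - e₂) < 1 := by
    rw [hv12]; exact pow_lt_one₀ zero_le hqlt hpk
  have hvb : A.valuation b = A.valuation (e - e₂) := by
    rw [hb_def, map_mul, hv13, mul_one]
  have hb1 : A.valuation b < 1 := by rw [hvb]; exact h12lt
  have hva : A.valuation a = 1 := by
    rw [ha_def, Valuation.map_add_eq_of_lt_right _ (by rw [hv13]; exact h12lt), hv13]
  have haA : a ∈ A := (A.valuation_le_one_iff _).mp hva.le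
  have hinj : Function.Injective (algebraMap ℚ (AlgebraicClosure ℚ)) :=
    (algebraMap ℚ (AlgebraicClosure ℚ)).injective
  have hb0 : b ≠ 0 := by
    rw [hb_def]
    refine mul_ne_zero (sub_ne_zero.mpr ?_) (sub_ne_zero.mpr ?_)
    · exact fun h => hne12 (hinj h)
    · exact fun h => hne13 (hinj h)
  -- the nodal parametrisation
  have hfac' : ∀ x : AlgebraicClosure ℚ, psi2Sq (P.freyCurve⁄(AlgebraicClosure ℚ)) x =
      4 * (x - e) * ((x - e) ^ 2 + a * (x - e) + b) := by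
    intro x; rw [hfac x, ha_def, hb_def]; ring
  obtain ⟨hb₂, hb₄, hb₆⟩ := nu_coeffs_of_forall (P.freyCurve⁄(AlgebraicClosure ℚ)) h2ne hfac'
  have hN : NodeParam (P.freyCurve⁄(AlgebraicClosure ℚ)) e a b := ⟨hb₂, hb₄, hb₆⟩
  have hpsie : psi2Sq (P.freyCurve⁄(AlgebraicClosure ℚ)) e = 0 := by rw [hfac' e]; ring
  have h2b : 2 * b = 6 * e ^ 2 + (P.freyCurve⁄(AlgebraicClosure ℚ)).b₂ * e +
      (P.freyCurve⁄(AlgebraicClosure ℚ)).b₄ := by rw [hb₂, hb₄]; ring
  have hσe : σ e = e := σ.commutes r₁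
  refine s44a_node_sub (W' := P.freyCurve) A σ hW ha1 ha2 ha3 ha4 ha6
    (inertia_apply_mem_iff A hσ) (fun z hz => inertia_sub_lt_one A hσ hz) (p := P.p)
    hr1 hσe (A.valuation b) ?_ ?_ ?_ ?_ (frey_hTe_of_factor P σ r₁ r₂ r₃ hfac) T hT
  · -- (M1')
    intro x y h hp hl hu
    obtain ⟨m, hm⟩ := un_M1 A.valuation hN h2 hva hb1 hb0 h hp hl hu
    have hβ : A.valuation b = A.valuation (q : AlgebraicClosure ℚ) ^ (P.p * k) := by
      rw [hvb, hv12]
    refine ⟨(q : AlgebraicClosure ℚ) ^ (2 * m * k), zpow_ne_zero _ hqK, ?_,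
      fa_exists_fixed_of_pow_eq A hqK P.hp0 hβ hm⟩
    rw [map_zpow₀, map_natCast]
  · -- (N)
    intro x y h hl hu
    refine fa_val_N_eq A (P.freyCurve⁄(AlgebraicClosure ℚ)) h2 (ρ₁ := e) (ρ₂ := e₂) (ρ₃ := e₃)
      (fun t => hfac t) h ?_ hu hv13
    rw [← hvb]; exact hl
  · -- (M3)
    intro x y yT h hT hv
    exact tt_M3 A h2ne hpsie h2b h hT hv
  · -- (M4)
    intro x y h hx hy hξ
    exact nu_hns_of_coeffs A (P.freyCurve⁄(AlgebraicClosure ℚ)) h2 ha1 ha2 ha3 ha4 hr1 haA hb1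
      hb₂ hb₄ hb₆ h hx hξ

/-- **(A1a)**: at a place `A | q` (`q` odd, `q = p` allowed) where the Frey discriminant is not a
unit, `σ • T - T ∈ E₁` for all `σ` in the inertia group and all `T ∈ E[p]`. -/
theorem s44a_frey_sub (P : FreyPackage) {q : ℕ} (hq : q.Prime) (hq2 : q ≠ 2)
    (A : ValuationSubring (AlgebraicClosure ℚ)) (hA : A.LiesOverPrime q)
    (hbad : A.valuation (P.freyCurve⁄(AlgebraicClosure ℚ)).Δ ≠ 1)
    (σ : AlgebraicClosure ℚ ≃ₐ[ℚ] AlgebraicClosure ℚ) (hσ : σ ∈ A.inertiaSubgroupIn ℚ)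
    (T : (P.freyCurve⁄(AlgebraicClosure ℚ)).Point) (hT : P.p • T = 0) :
    InKerRed A (σ • T - T) := by
  rcases freyL_dichotomy P A hA hq hq2 with hΔ |
    ⟨r₁, r₂, r₃, k, hk, hfac, hv12, hv13, hv23, hr1, hr2, hr3, hne12, hne13, hne23, hp12, hp13⟩
  · exact absurd hΔ hbad
  · exact s44a_frey_node_sub P hq hq2 A hA σ hσ r₁ r₂ r₃ k hfac hv12 hk hv13 hr1 hne12 hne13 T hT

end Fermat.Agent.S44
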