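/-
Project S44 (Mazur–Ribet at `p`, Frey form), cell [A] LOC-FREY-p (helper17), file (A1b), part 2.
Prefix `s44a_`.

THE FREY CURVE AT A PLACE `A ∣ p` OF MULTIPLICATIVE REDUCTION (`p ∣ abc`):
`Z := E[p] ∩ E₁(A)` (the `p`-torsion of the kernel of reduction) HAS EXACTLY `p` ELEMENTS,
is stable under the decomposition group, and `σ T - T ∈ Z` for all `T ∈ E[p]` and all `σ` in the
inertia group.

* `s44a_frey_unit`       : `Bₚ` has a coefficient which is a unit of `A` (from `MZ.mzj_eu_main`);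
* `s44a_frey_exists_in`  : a nonzero `p`-torsion point in `E₁(A)`;
* `s44a_frey_exists_out` : a nonzero `p`-torsion point outside `E₁(A)` (needs `|Δ| ≠ 1`);
* `s44a_frey_card_Z`     : `|Z| = p`;
* `s44a_frey_Z_inertia`  : `σ T - T ∈ Z` (`σ` inertia, `T ∈ E[p]`);
* `s44a_frey_Z_decomp`   : `Z` is stable under the decomposition group.
-/
import Mathlib
import Fermat.Agent.S44.LocP.Line
import Fermat.Agent.S44.LocP.Sub
import Fermat.Agent.MZ.J.E1Unit
import Fermat.Agent.MZ.J.Frey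
import Fermat.Agent.S58.Frob.Residue

set_option autoImplicit false

open WeierstrassCurve WeierstrassCurve.Affine WeierstrassCurve.Affine.Point
open FreyPackage Fermat.Agent.S05 Fermat.Agent.S13 Fermat.Agent.S58 Fermat.Agent.MZ

namespace Fermat.Agent.S44

local notation "Qb" => AlgebraicClosure ℚ

variable (P : FreyPackage) (A : ValuationSubring Qb)

/-- `Bₚ` of the Frey curve has a coefficient which is a unit at every place over `p`. -/
theorem s44a_frey_unit (hA : A.LiesOverPrime P.p) :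
    ∃ i : ℕ, A.valuation ((ldB (ldPoly (P.freyCurve⁄Qb)) P.p).coeff i) = 1 := by
  have hss : ¬ ((P.p : ℤ) ∣ P.freyCurveInt.c₄ ∧ (P.p : ℤ) ∣ P.freyCurveInt.Δ) := by
    rintro ⟨h1, h2⟩
    rcases mzj_fr_SS P P.p P.pp with h | h
    · exact h h2
    · exact h h1
  have h := mzj_eu_main P.freyCurveInt (mzj_fr_Δ_ne_zero P) P.pp hss A hA
  have e : s58_WQ P.freyCurveInt = P.freyCurve := mzj_fr_map P
  rw [e] at h
  exact h

/-- a nonzero `p`-torsion point in the kernel of reduction at `A ∣ p`. -/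
theorem s44a_frey_exists_in (hA : A.LiesOverPrime P.p) :
    ∃ T : (P.freyCurve⁄Qb).Point, P.p • T = 0 ∧ T ≠ 0 ∧ InKerRed A T := by
  have hp2 : P.p ≠ 2 := by have := P.hp5; omega
  have hW := freyL_integralModel P A hA P.pp hp2
  obtain ⟨m, hm⟩ := P.pp.odd_of_ne_two hp2
  have hunit := s44a_frey_unit P A hA
  have hlt : A.valuation ((P.p : ℕ) : Qb) < 1 := intVal_prime_lt_one A hA
  rw [hm] at hunit hlt ⊢
  exact s44a_exists_tors_inKerRed A (P.freyCurve⁄Qb) (freyL_Δ_ne_zero P) hW.b₂ hW.b₄ hW.b₆ hW.b₈ m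
    hlt hunit

/-- a nonzero `p`-torsion point outside the kernel of reduction at a place `A ∣ p` of bad
reduction. -/
theorem s44a_frey_exists_out (hA : A.LiesOverPrime P.p)
    (hbad : A.valuation (P.freyCurve⁄Qb).Δ ≠ 1) :
    ∃ T : (P.freyCurve⁄Qb).Point, P.p • T = 0 ∧ T ≠ 0 ∧ ¬ InKerRed A T := by
  have hp2 : P.p ≠ 2 := by have := P.hp5; omega
  have hW := freyL_integralModel P A hA P.pp hp2
  obtain ⟨m, hm⟩ := P.pp.odd_of_ne_two hp2
  have hm1 : 1 ≤ m := by have := P.hp5; omega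
  have hunit := s44a_frey_unit P A hA
  rcases freyL_dichotomy P A hA P.pp hp2 with hΔ |
    ⟨r₁, r₂, r₃, k, hk, hfac, hv12, hv13, hv23, hr1, hr2, hr3, hne12, hne13, hne23, hp12, hp13⟩
  · exact absurd hΔ hbad
  have h2ne : (2 : Qb) ≠ 0 := two_ne_zero
  set e : Qb := algebraMap ℚ Qb r₁ with he_def
  set e₂ : Qb := algebraMap ℚ Qb r₂ with he₂_def
  set e₃ : Qb := algebraMap ℚ Qb r₃ with he₃_def
  have hfac' : ∀ x : Qb, psi2Sq (P.freyCurve⁄Qb) x =
      4 * (x - e) * ((x - e) ^ 2 + ((e - e₂) + (e - e₃)) * (x - e) + (e - e₂) * (e - e₃)) := by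
    intro x; rw [hfac x]; ring
  obtain ⟨hb₂, hb₄, hb₆⟩ := nu_coeffs_of_forall (P.freyCurve⁄Qb) h2ne hfac'
  have hroot : psi2Sq (P.freyCurve⁄Qb) e = 0 := by rw [hfac' e]; ring
  have hdup : dupNum (P.freyCurve⁄Qb) e = ((e - e₂) * (e - e₃)) ^ 2 := by
    have := nu_dupNum_sub (P.freyCurve⁄Qb) h2ne hb₂ hb₄ hb₆ e
    rw [hroot] at this
    linear_combination this
  have hqlt : A.valuation ((P.p : ℕ) : Qb) < 1 := intVal_prime_lt_one A hA
  have hpk : P.p * k ≠ 0 := Nat.mul_ne_zero P.hp0 hk.ne'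
  have h12lt : A.valuation (e - e₂) < 1 := by
    rw [hv12]; exact pow_lt_one₀ zero_le hqlt hpk
  have hdupv : A.valuation (dupNum (P.freyCurve⁄Qb) e) < 1 := by
    rw [hdup, map_pow, map_mul, hv13, mul_one]
    exact pow_lt_one₀ zero_le h12lt two_ne_zero
  rw [hm] at hunit ⊢
  exact s44a_exists_tors_not_inKerRed A (P.freyCurve⁄Qb) (freyL_Δ_ne_zero P) hW.b₂ hW.b₄ hW.b₆
    hW.b₈ m hm1 hr1 (by rw [hroot, _root_.map_zero]; exact zero_lt_one) hdupv hunit

/-- `Z = E[p] ∩ E₁(A)` for the Frey curve at a place over `p`. -/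
noncomputable def s44a_freyZ (hA : A.LiesOverPrime P.p) : AddSubgroup (P.freyCurve⁄Qb).Point :=
  s44a_Z A (freyL_integralModel P A hA P.pp (by have := P.hp5; omega)) P.p

theorem s44a_mem_freyZ (hA : A.LiesOverPrime P.p) {T : (P.freyCurve⁄Qb).Point} :
    T ∈ s44a_freyZ P A hA ↔ P.p • T = 0 ∧ InKerRed A T := Iff.rfl

/-- **(A1b)**: `|E[p] ∩ E₁(A)| = p` at a place `A ∣ p` of bad reduction. -/
theorem s44a_frey_card_Z (hA : A.LiesOverPrime P.p)
    (hbad : A.valuation (P.freyCurve⁄Qb).Δ ≠ 1) : Nat.card (s44a_freyZ P A hA) = P.p :=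
  s44a_card_Z A _ (freyL_Δ_ne_zero P) P.pp (by have := P.hp5; omega)
    (s44a_frey_exists_in P A hA) (s44a_frey_exists_out P A hA hbad)

/-- `σ T - T ∈ Z` for `σ` in the inertia group and `T ∈ E[p]`. -/
theorem s44a_frey_Z_inertia (hA : A.LiesOverPrime P.p)
    (hbad : A.valuation (P.freyCurve⁄Qb).Δ ≠ 1) (σ : Qb ≃ₐ[ℚ] Qb)
    (hσ : σ ∈ A.inertiaSubgroupIn ℚ) (T : (P.freyCurve⁄Qb).Point) (hT : P.p • T = 0) :
    σ • T - T ∈ s44a_freyZ P A hA := by
  refine ⟨?_, s44a_frey_sub P P.pp (by have := P.hp5; omega) A hA hbad σ hσ T hT⟩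
  rw [nsmul_sub, ← nf_smul_nsmul, hT, smul_zero, sub_zero]

/-- `Z` is stable under the decomposition group. -/
theorem s44a_frey_Z_decomp (hA : A.LiesOverPrime P.p) (σ : Qb ≃ₐ[ℚ] Qb)
    (hσ : σ ∈ A.decompositionSubgroup ℚ) {T : (P.freyCurve⁄Qb).Point}
    (hT : T ∈ s44a_freyZ P A hA) : σ • T ∈ s44a_freyZ P A hA := by
  obtain ⟨h1, h2⟩ := hT
  refine ⟨by rw [← nf_smul_nsmul, h1, smul_zero], ?_⟩
  rcases T with _ | ⟨x, y, h⟩
  · have : σ • (0 : (P.freyCurve⁄Qb).Point) = 0 := ga_smul_zero σ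
    change InKerRed A (σ • (0 : (P.freyCurve⁄Qb).Point))
    rw [this]
    exact inKerRed_zero
  · rw [Fermat.Agent.S05.smul_some σ h]
    exact (inKerRed_some _).mpr (s58fa_not_mem_of_decomp hσ ((inKerRed_some h).mp h2))

/-- the inertia group is contained in the decomposition group -/
theorem s44a_inertia_le_decomp {σ : Qb ≃ₐ[ℚ] Qb} (hσ : σ ∈ A.inertiaSubgroupIn ℚ) :
    σ ∈ A.decompositionSubgroup ℚ := by
  obtain ⟨τ, -, rfl⟩ := hσ
  exact τ.2

/-- `Z` is stable under the inertia group. -/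
theorem s44a_frey_Z_inertia_stable (hA : A.LiesOverPrime P.p) (σ : Qb ≃ₐ[ℚ] Qb)
    (hσ : σ ∈ A.inertiaSubgroupIn ℚ) {T : (P.freyCurve⁄Qb).Point}
    (hT : T ∈ s44a_freyZ P A hA) : σ • T ∈ s44a_freyZ P A hA :=
  s44a_frey_Z_decomp P A hA σ (s44a_inertia_le_decomp A hσ) hT

end Fermat.Agent.S44
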