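/-
S44 cell [A] LOC-FREY-p, sub-cell [P-ABS] (helper27; design finding #3808).  Prefix `s44p_`.
Mathlib only.

THE ABSTRACT "PEU" ARGUMENT BY VALUATION CLASSES.

`L` a field with a valuation `v`, `G` a group acting on `L` by `v`-preserving automorphisms,
`Z := {v c : c ≠ 0 fixed by G}` (`s44p_InZ`).  `ζ` a primitive `p`-th root of unity with
`g • ζ = ζ ^ χ(g)`; a family `η : ZMod p → L` with `g • η m = η (a g + χ g * m)` (think of
`η m = X(v + m x)`, `x` a generator of `E₁[p]`, `g v = v + a(g) x`, `g x = χ(g) x`), a family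
`ξ : ZMod p → L` with `g • ξ m = ξ (χ g * m)` (think of `ξ m = X(m x)`), and the curve relation
`v (η m - η 0) * v (η (-m) - η 0) = γN ^ 2 * (v (ξ m))⁻¹` with `γN ∈ Z`.

Then every `β ≠ 0` with `g • β = ζ ^ a(g) * β` has `v β ∈ Z` (`s44p_radical_inZ`), and such a
`β` exists as soon as `η` is injective (`s44p_exists_radical`); hence there is a UNIT radical
(`s44p_peu_abs`).
-/
import Mathlib

set_option autoImplicit false

namespace Fermat.Agent.S44

open Finset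

section InZ

variable {L : Type*} [Field L] {Γ₀ : Type*} [LinearOrderedCommGroupWithZero Γ₀]
  (v : Valuation L Γ₀) (G : Type*) [Group G] [MulSemiringAction G L]

/-- `γ` is the valuation of a nonzero `G`-fixed element. -/
def s44p_InZ (γ : Γ₀) : Prop := ∃ c : L, c ≠ 0 ∧ (∀ g : G, g • c = c) ∧ v c = γ

variable {v G}

theorem s44p_inZ_one : s44p_InZ v G 1 := ⟨1, one_ne_zero, fun g => smul_one g, map_one v⟩

theorem s44p_inZ_ne_zero {γ : Γ₀} (h : s44p_InZ v G γ) : γ ≠ 0 := by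
  obtain ⟨c, hc, -, rfl⟩ := h
  exact (v.ne_zero_iff).mpr hc

theorem s44p_inZ_mul {γ δ : Γ₀} (h : s44p_InZ v G γ) (h' : s44p_InZ v G δ) :
    s44p_InZ v G (γ * δ) := by
  obtain ⟨c, hc, hf, rfl⟩ := h
  obtain ⟨d, hd, hf', rfl⟩ := h'
  exact ⟨c * d, mul_ne_zero hc hd, fun g => by rw [smul_mul', hf, hf'], map_mul v c d⟩

theorem s44p_inZ_inv {γ : Γ₀} (h : s44p_InZ v G γ) : s44p_InZ v G γ⁻¹ := by
  obtain ⟨c, hc, hf, rfl⟩ := h
  exact ⟨c⁻¹, inv_ne_zero hc, fun g => by rw [smul_inv'', hf], map_inv₀ v c⟩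

theorem s44p_inZ_pow {γ : Γ₀} (h : s44p_InZ v G γ) (n : ℕ) : s44p_InZ v G (γ ^ n) := by
  induction n with
  | zero => rw [pow_zero]; exact s44p_inZ_one
  | succ n ih => rw [pow_succ]; exact s44p_inZ_mul ih h

theorem s44p_inZ_zpow {γ : Γ₀} (h : s44p_InZ v G γ) (n : ℤ) : s44p_InZ v G (γ ^ n) := by
  rcases n with n | n
  · rw [Int.ofNat_eq_natCast, zpow_natCast]; exact s44p_inZ_pow h n
  · rw [zpow_negSucc]; exact s44p_inZ_inv (s44p_inZ_pow h _)

theorem s44p_inZ_natCast {n : ℕ} (hn : (n : L) ≠ 0) : s44p_InZ v G (v (n : L)) :=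
  ⟨n, hn, fun g => map_natCast (MulSemiringAction.toRingHom G L g) n, rfl⟩

/-- Bezout: `γ ^ n ∈ Z`, `γ ^ p ∈ Z`, `gcd n p = 1` ⟹ `γ ∈ Z`. -/
theorem s44p_inZ_of_coprime {γ : Γ₀} (hγ : γ ≠ 0) {n p : ℕ} (hnp : Nat.Coprime n p)
    (hn : s44p_InZ v G (γ ^ n)) (hp : s44p_InZ v G (γ ^ p)) : s44p_InZ v G γ := by
  have hb : (n : ℤ) * Nat.gcdA n p + (p : ℤ) * Nat.gcdB n p = 1 := by
    have := Nat.gcd_eq_gcd_ab n p
    rw [hnp.gcd_eq_one] at this
    exact_mod_cast this.symm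
  have h1 : γ = (γ ^ n) ^ (Nat.gcdA n p) * (γ ^ p) ^ (Nat.gcdB n p) := by
    rw [← zpow_natCast γ n, ← zpow_natCast γ p, ← zpow_mul, ← zpow_mul, ← zpow_add₀ hγ, hb,
      zpow_one]
  rw [h1]
  exact s44p_inZ_mul (s44p_inZ_zpow hn _) (s44p_inZ_zpow hp _)

end InZ


section Root

variable {L : Type*} [Field L] {p : ℕ} [Fact p.Prime] {ζ : L}

/-- `ζ ^ n` for `n : ZMod p`. -/
def s44p_E (ζ : L) (n : ZMod p) : L := ζ ^ n.val

theorem s44p_E_zero : s44p_E ζ (0 : ZMod p) = 1 := by simp [s44p_E]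

theorem s44p_E_natCast (hζ : IsPrimitiveRoot ζ p) (k : ℕ) : s44p_E ζ (k : ZMod p) = ζ ^ k := by
  unfold s44p_E
  rw [ZMod.val_natCast, ← pow_eq_pow_mod k hζ.pow_eq_one]

theorem s44p_E_add (hζ : IsPrimitiveRoot ζ p) (m n : ZMod p) :
    s44p_E ζ (m + n) = s44p_E ζ m * s44p_E ζ n := by
  unfold s44p_E
  rw [← pow_add, ZMod.val_add, ← pow_eq_pow_mod _ hζ.pow_eq_one]

theorem s44p_E_one (hζ : IsPrimitiveRoot ζ p) : s44p_E ζ (1 : ZMod p) = ζ := by
  have := s44p_E_natCast hζ 1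
  simpa using this

theorem s44p_E_ne_zero (hζ : IsPrimitiveRoot ζ p) (n : ZMod p) : s44p_E ζ n ≠ 0 :=
  pow_ne_zero _ (hζ.ne_zero (Fact.out : p.Prime).ne_zero)

theorem s44p_E_neg (hζ : IsPrimitiveRoot ζ p) (n : ZMod p) :
    s44p_E ζ (-n) = (s44p_E ζ n)⁻¹ := by
  refine eq_inv_of_mul_eq_one_left ?_
  rw [← s44p_E_add hζ, neg_add_cancel, s44p_E_zero]

theorem s44p_E_sub (hζ : IsPrimitiveRoot ζ p) (m n : ZMod p) :
    s44p_E ζ (m - n) = s44p_E ζ m * (s44p_E ζ n)⁻¹ := by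
  rw [sub_eq_add_neg, s44p_E_add hζ, s44p_E_neg hζ]

theorem s44p_E_pow (hζ : IsPrimitiveRoot ζ p) (n : ZMod p) (k : ℕ) :
    s44p_E ζ n ^ k = s44p_E ζ ((k : ZMod p) * n) := by
  induction k with
  | zero => simp [s44p_E_zero]
  | succ k ih =>
    rw [pow_succ, ih, ← s44p_E_add hζ]
    congr 1
    push_cast
    ring

theorem s44p_E_pow_val (hζ : IsPrimitiveRoot ζ p) (m n : ZMod p) :
    s44p_E ζ n ^ m.val = s44p_E ζ (m * n) := by
  rw [s44p_E_pow hζ, ZMod.natCast_zmod_val]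

theorem s44p_E_eq_one_iff (hζ : IsPrimitiveRoot ζ p) (n : ZMod p) : s44p_E ζ n = 1 ↔ n = 0 := by
  constructor
  · intro h
    unfold s44p_E at h
    have hd : p ∣ n.val := (hζ.pow_eq_one_iff_dvd _).mp h
    have hlt : n.val < p := ZMod.val_lt n
    have h0 : n.val = 0 := Nat.eq_zero_of_dvd_of_lt hd hlt
    exact (ZMod.val_eq_zero n).mp h0
  · rintro rfl; exact s44p_E_zero

/-- orthogonality -/
theorem s44p_sum_E (hζ : IsPrimitiveRoot ζ p) (d : ZMod p) :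
    ∑ j : ZMod p, s44p_E ζ (j * d) = if d = 0 then (p : L) else 0 := by
  split_ifs with hd
  · subst hd
    simp [s44p_E_zero]
  · have hS : ∑ j : ZMod p, s44p_E ζ (j * d) = ∑ j : ZMod p, s44p_E ζ j := by
      refine Fintype.sum_equiv (Equiv.mulRight₀ d hd) _ _ (fun j => ?_)
      simp
    rw [hS]
    have h1 : s44p_E ζ (1 : ZMod p) * ∑ j : ZMod p, s44p_E ζ j = ∑ j : ZMod p, s44p_E ζ j := by
      rw [Finset.mul_sum]
      refine Fintype.sum_equiv (Equiv.addLeft (1 : ZMod p)) _ _ (fun j => ?_)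
      simp [s44p_E_add hζ]
    have hne : s44p_E ζ (1 : ZMod p) ≠ 1 := by
      rw [Ne, s44p_E_eq_one_iff hζ]
      exact one_ne_zero
    have h2 : (s44p_E ζ (1 : ZMod p) - 1) * ∑ j : ZMod p, s44p_E ζ j = 0 := by
      rw [sub_mul, h1, one_mul, sub_self]
    rcases mul_eq_zero.mp h2 with h | h
    · exact absurd (sub_eq_zero.mp h) hne
    · exact h

variable {Γ₀ : Type*} [LinearOrderedCommGroupWithZero Γ₀] (v : Valuation L Γ₀)

theorem s44p_val_E (hζ : IsPrimitiveRoot ζ p) (n : ZMod p) : v (s44p_E ζ n) = 1 := by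
  have h1 : v ζ ^ p = 1 := by rw [← map_pow, hζ.pow_eq_one, map_one]
  have h2 : v ζ = 1 := (pow_eq_one_iff_of_nonneg zero_le (Fact.out : p.Prime).ne_zero).mp h1
  unfold s44p_E
  rw [map_pow, h2, one_pow]

theorem s44p_val_pow_sub_one_le {w : L} (hw : v w ≤ 1) (k : ℕ) : v (w ^ k - 1) ≤ v (w - 1) := by
  rw [← geom_sum_mul, map_mul]
  have : v (∑ i ∈ Finset.range k, w ^ i) ≤ 1 := by
    refine v.map_sum_le (fun i _ => ?_)
    rw [map_pow]
    exact pow_le_one' hw i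
  calc v (∑ i ∈ Finset.range k, w ^ i) * v (w - 1) ≤ 1 * v (w - 1) := mul_le_mul_left this _
    _ = v (w - 1) := one_mul _

theorem s44p_val_E_sub_one (hζ : IsPrimitiveRoot ζ p) {n : ZMod p} (hn : n ≠ 0) :
    v (s44p_E ζ n - 1) = v (ζ - 1) := by
  apply le_antisymm
  · unfold s44p_E
    have h1 : v ζ ≤ 1 := by
      have := s44p_val_E v hζ (1 : ZMod p)
      rw [s44p_E_one hζ] at this
      exact this.le
    exact s44p_val_pow_sub_one_le v h1 _
  · have h1 : ζ = s44p_E ζ n ^ (n⁻¹).val := by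
      rw [s44p_E_pow_val hζ, inv_mul_cancel₀ hn, s44p_E_one hζ]
    have h2 := s44p_val_pow_sub_one_le v (s44p_val_E v hζ n).le (n⁻¹).val
    rwa [← h1] at h2

/-- `v (ζ - 1) ^ (p - 1) = v p`. -/
theorem s44p_val_zeta_sub_one_pow (hζ : IsPrimitiveRoot ζ p) :
    v (ζ - 1) ^ (p - 1) = v (p : L) := by
  have hp : p.Prime := Fact.out
  obtain ⟨n, rfl⟩ : ∃ n, p = n + 1 := ⟨p - 1, (Nat.succ_pred_eq_of_pos hp.pos).symm⟩
  have h := IsPrimitiveRoot.prod_one_sub_pow_eq_order hζ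
  have h2 : v (∏ k ∈ Finset.range n, (1 - ζ ^ (k + 1))) = v (ζ - 1) ^ n := by
    rw [map_prod]
    have : ∀ k ∈ Finset.range n, v (1 - ζ ^ (k + 1)) = v (ζ - 1) := by
      intro k hk
      rw [← s44p_E_natCast hζ (k + 1), ← Valuation.map_neg, neg_sub]
      refine s44p_val_E_sub_one v hζ ?_
      intro h0
      rw [ZMod.natCast_eq_zero_iff] at h0
      have := Nat.le_of_dvd (Nat.succ_pos k) h0
      have := Finset.mem_range.mp hk
      omega
    rw [Finset.prod_congr rfl this, Finset.prod_const, Finset.card_range]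
  rw [Nat.add_sub_cancel, ← h2, h]
  push_cast
  rfl

end Root

section Resolvent

variable {L : Type*} [Field L] {G : Type*} [Group G] [MulSemiringAction G L]
  {p : ℕ} [Fact p.Prime] {ζ : L} {χ a : G → ZMod p}

/-- the resolvent `e_j = ∑ₘ ζ ^ (-(j m)) ηₘ`. -/
def s44p_res (ζ : L) (η : ZMod p → L) (j : ZMod p) : L :=
  ∑ m : ZMod p, s44p_E ζ (-(j * m)) * η m

theorem s44p_smul_E (hζ : IsPrimitiveRoot ζ p) (hχ : ∀ g : G, g • ζ = s44p_E ζ (χ g)) (g : G)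
    (n : ZMod p) : g • s44p_E ζ n = s44p_E ζ (χ g * n) := by
  conv_lhs => rw [s44p_E, smul_pow', hχ, s44p_E_pow_val hζ]
  rw [mul_comm]

theorem s44p_chi_ne_zero (hζ : IsPrimitiveRoot ζ p) (hχ : ∀ g : G, g • ζ = s44p_E ζ (χ g))
    (g : G) : χ g ≠ 0 := by
  intro h0
  have h1 : g • ζ = 1 := by rw [hχ, h0, s44p_E_zero]
  have h2 : ζ = 1 := by
    have := congrArg (fun y => g⁻¹ • y) h1
    simpa using this
  exact hζ.ne_one (Fact.out : p.Prime).one_lt h2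

theorem s44p_smul_res (hζ : IsPrimitiveRoot ζ p) (hχ : ∀ g : G, g • ζ = s44p_E ζ (χ g))
    {η : ZMod p → L} (hη : ∀ (g : G) (m : ZMod p), g • η m = η (a g + χ g * m)) (g : G)
    (j : ZMod p) : g • s44p_res ζ η j = s44p_E ζ (j * a g) * s44p_res ζ η j := by
  have hc := s44p_chi_ne_zero hζ hχ g
  unfold s44p_res
  rw [Finset.smul_sum, Finset.mul_sum]
  refine Fintype.sum_equiv ((Equiv.mulLeft₀ (χ g) hc).trans (Equiv.addLeft (a g))) _ _
    (fun m => ?_)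
  have hφ : ((Equiv.mulLeft₀ (χ g) hc).trans (Equiv.addLeft (a g))) m = a g + χ g * m := rfl
  rw [hφ]
  rw [smul_mul', s44p_smul_E hζ hχ, hη, ← mul_assoc, ← s44p_E_add hζ]
  congr 2
  ring

/-- Fourier inversion -/
theorem s44p_sum_res (hζ : IsPrimitiveRoot ζ p) (η : ZMod p → L) (m : ZMod p) :
    ∑ j : ZMod p, s44p_E ζ (j * m) * s44p_res ζ η j = (p : L) * η m := by
  unfold s44p_res
  simp_rw [Finset.mul_sum]
  rw [Finset.sum_comm]
  have : ∀ m' : ZMod p, ∑ j : ZMod p, s44p_E ζ (j * m) * (s44p_E ζ (-(j * m')) * η m') =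
      (if m - m' = 0 then (p : L) else 0) * η m' := by
    intro m'
    rw [← s44p_sum_E hζ (m - m'), Finset.sum_mul]
    refine Finset.sum_congr rfl (fun j _ => ?_)
    rw [← mul_assoc, ← s44p_E_add hζ]
    congr 2
    ring
  rw [Finset.sum_congr rfl (fun m' _ => this m')]
  rw [Finset.sum_eq_single m]
  · simp
  · intro m' _ hm'
    rw [if_neg (sub_ne_zero.mpr (Ne.symm hm')), zero_mul]
  · intro h; exact absurd (Finset.mem_univ m) h

theorem s44p_diff_eq (hζ : IsPrimitiveRoot ζ p) (η : ZMod p → L) (m : ZMod p) :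
    (p : L) * (η m - η 0) = ∑ j : ZMod p, (s44p_E ζ (j * m) - 1) * s44p_res ζ η j := by
  have h1 := s44p_sum_res hζ η m
  have h0 := s44p_sum_res hζ η 0
  simp only [mul_zero, s44p_E_zero, one_mul] at h0
  rw [mul_sub, ← h1, ← h0, ← Finset.sum_sub_distrib]
  refine Finset.sum_congr rfl (fun j _ => ?_)
  ring

/-- existence of a radical by hand (Lagrange resolvents of the powers of `η`) -/
theorem s44p_exists_radical (hζ : IsPrimitiveRoot ζ p) (hχ : ∀ g : G, g • ζ = s44p_E ζ (χ g))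
    {η : ZMod p → L} (hη : ∀ (g : G) (m : ZMod p), g • η m = η (a g + χ g * m))
    (hinj : Function.Injective η) :
    ∃ β : L, β ≠ 0 ∧ ∀ g : G, g • β = s44p_E ζ (a g) * β := by
  classical
  by_contra hcon
  have hall : ∀ k : ℕ, s44p_res ζ (fun m => η m ^ k) 1 = 0 := by
    intro k
    by_contra hk
    refine hcon ⟨_, hk, fun g => ?_⟩
    have := s44p_smul_res (a := a) hζ hχ (η := fun m => η m ^ k)
      (fun g m => by rw [smul_pow', hη]) g 1
    rwa [one_mul] at this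
  -- the Lagrange polynomial
  set P : Polynomial L := ∏ m ∈ (Finset.univ.erase (0 : ZMod p)), (Polynomial.X - Polynomial.C (η m))
    with hP
  have hP0 : P.eval (η 0) ≠ 0 := by
    rw [hP, Polynomial.eval_prod]
    refine Finset.prod_ne_zero_iff.mpr (fun m hm => ?_)
    rw [Polynomial.eval_sub, Polynomial.eval_X, Polynomial.eval_C, sub_ne_zero]
    intro h
    exact (Finset.ne_of_mem_erase hm) (hinj h).symm
  have hPm : ∀ m : ZMod p, m ≠ 0 → P.eval (η m) = 0 := by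
    intro m hm
    rw [hP, Polynomial.eval_prod]
    refine Finset.prod_eq_zero (Finset.mem_erase.mpr ⟨hm, Finset.mem_univ m⟩) ?_
    simp
  have h1 : ∑ m : ZMod p, s44p_E ζ (-(1 * m)) * P.eval (η m) = P.eval (η 0) := by
    rw [Finset.sum_eq_single (0 : ZMod p)]
    · simp [s44p_E_zero]
    · intro m _ hm; rw [hPm m hm, mul_zero]
    · intro h; exact absurd (Finset.mem_univ _) h
  have h2 : ∑ m : ZMod p, s44p_E ζ (-(1 * m)) * P.eval (η m) = 0 := by
    simp_rw [Polynomial.eval_eq_sum_range, Finset.mul_sum]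
    rw [Finset.sum_comm]
    refine Finset.sum_eq_zero (fun k _ => ?_)
    have := hall k
    unfold s44p_res at this
    calc ∑ m : ZMod p, s44p_E ζ (-(1 * m)) * (P.coeff k * η m ^ k)
        = P.coeff k * ∑ m : ZMod p, s44p_E ζ (-(1 * m)) * η m ^ k := by
          rw [Finset.mul_sum]; refine Finset.sum_congr rfl (fun m _ => ?_); ring
      _ = 0 := by rw [this, mul_zero]
  exact hP0 (h1 ▸ h2)

end Resolvent

section Main

variable {L : Type*} [Field L] {Γ₀ : Type*} [LinearOrderedCommGroupWithZero Γ₀]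
  {v : Valuation L Γ₀} {G : Type*} [Group G] [MulSemiringAction G L]
  {p : ℕ} [Fact p.Prime] {ζ : L} {χ a : G → ZMod p}

/-- `β ^ p` is fixed. -/
theorem s44p_radical_pow_fixed (hζ : IsPrimitiveRoot ζ p) {β : L}
    (hβ : ∀ g : G, g • β = s44p_E ζ (a g) * β) (g : G) : g • β ^ p = β ^ p := by
  rw [smul_pow', hβ, mul_pow, s44p_E_pow hζ]
  simp [s44p_E_zero]

/-- the valuation of a nonzero resolvent lies in the class `v β ^ j · Z`. -/
theorem s44p_res_val (hζ : IsPrimitiveRoot ζ p) (hχ : ∀ g : G, g • ζ = s44p_E ζ (χ g))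
    {β : L} (hβ0 : β ≠ 0) (hβ : ∀ g : G, g • β = s44p_E ζ (a g) * β)
    {η : ZMod p → L} (hη : ∀ (g : G) (m : ZMod p), g • η m = η (a g + χ g * m))
    (j : ZMod p) (hj : s44p_res ζ η j ≠ 0) :
    ∃ γ : Γ₀, s44p_InZ v G γ ∧ v (s44p_res ζ η j) = γ * v β ^ j.val := by
  refine ⟨v (s44p_res ζ η j / β ^ j.val), ⟨_, div_ne_zero hj (pow_ne_zero _ hβ0), fun g => ?_, rfl⟩,
    ?_⟩
  · rw [smul_div₀', smul_pow', hβ, s44p_smul_res hζ hχ hη, mul_pow, s44p_E_pow_val hζ]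
    have hE := s44p_E_ne_zero hζ (j * a g)
    field_simp
  · rw [map_div₀, map_pow, div_mul_cancel₀]
    exact pow_ne_zero _ ((v.ne_zero_iff).mpr hβ0)

/-- distinct nonzero indices give distinct valuations of the (nonzero) resolvents, in the
`tres` case. -/
theorem s44p_res_val_ne (hζ : IsPrimitiveRoot ζ p) (hχ : ∀ g : G, g • ζ = s44p_E ζ (χ g))
    {β : L} (hβ0 : β ≠ 0) (hβ : ∀ g : G, g • β = s44p_E ζ (a g) * β)
    (hβZ : ¬ s44p_InZ v G (v β))
    {η : ZMod p → L} (hη : ∀ (g : G) (m : ZMod p), g • η m = η (a g + χ g * m))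
    {i j : ZMod p} (hij : i ≠ j) (hi : s44p_res ζ η i ≠ 0) (hj : s44p_res ζ η j ≠ 0) :
    v (s44p_res ζ η i) ≠ v (s44p_res ζ η j) := by
  have hp : p.Prime := Fact.out
  have hvβ : v β ≠ 0 := (v.ne_zero_iff).mpr hβ0
  have hpZ : s44p_InZ v G (v β ^ p) :=
    ⟨β ^ p, pow_ne_zero _ hβ0, s44p_radical_pow_fixed hζ hβ, map_pow v β p⟩
  -- symmetric statement
  have key : ∀ {i j : ZMod p}, i.val < j.val → s44p_res ζ η i ≠ 0 → s44p_res ζ η j ≠ 0 →
      v (s44p_res ζ η i) ≠ v (s44p_res ζ η j) := by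
    intro i j hlt hi hj heq
    obtain ⟨γi, hγi, hvi⟩ := s44p_res_val (v := v) hζ hχ hβ0 hβ hη i hi
    obtain ⟨γj, hγj, hvj⟩ := s44p_res_val (v := v) hζ hχ hβ0 hβ hη j hj
    rw [hvi, hvj] at heq
    have hγj0 := s44p_inZ_ne_zero hγj
    have hn : v β ^ (j.val - i.val) = γi * γj⁻¹ := by
      have h1 : v β ^ j.val = v β ^ (j.val - i.val) * v β ^ i.val := by
        rw [← pow_add, Nat.sub_add_cancel hlt.le]
      rw [h1] at heq
      have h2 : v β ^ i.val ≠ 0 := pow_ne_zero _ hvβ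
      have h3 : γi = γj * v β ^ (j.val - i.val) := by
        have : γi * v β ^ i.val = (γj * v β ^ (j.val - i.val)) * v β ^ i.val := by
          rw [heq]; ac_rfl
        exact mul_right_cancel₀ h2 this
      rw [h3, mul_comm γj, mul_assoc, mul_inv_cancel₀ hγj0, mul_one]
    have hnZ : s44p_InZ v G (v β ^ (j.val - i.val)) := by
      rw [hn]; exact s44p_inZ_mul hγi (s44p_inZ_inv hγj)
    have hcop : Nat.Coprime (j.val - i.val) p := by
      rw [Nat.coprime_comm, hp.coprime_iff_not_dvd]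
      intro hd
      have h1 : j.val - i.val < p := lt_of_le_of_lt (Nat.sub_le _ _) (ZMod.val_lt j)
      have h2 : 0 < j.val - i.val := Nat.sub_pos_of_lt hlt
      exact absurd (Nat.le_of_dvd h2 hd) (not_le.mpr h1)
    exact hβZ (s44p_inZ_of_coprime hvβ hcop hnZ hpZ)
  rcases lt_trichotomy i.val j.val with h | h | h
  · exact key h hi hj
  · exact absurd (ZMod.val_injective p h) hij
  · exact (key h hj hi).symm

/-- **the `tres` computation**: if `v β ∉ Z` then all the differences `η m - η 0`, `m ≠ 0`, have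
the same valuation, which lies in `v (ζ - 1) / v p · Z · v β ^ j₀` for some `0 < j₀ < p`. -/
theorem s44p_tres_val (hζ : IsPrimitiveRoot ζ p) (hχ : ∀ g : G, g • ζ = s44p_E ζ (χ g))
    (hp0 : (p : L) ≠ 0)
    {β : L} (hβ0 : β ≠ 0) (hβ : ∀ g : G, g • β = s44p_E ζ (a g) * β)
    (hβZ : ¬ s44p_InZ v G (v β))
    {η : ZMod p → L} (hη : ∀ (g : G) (m : ZMod p), g • η m = η (a g + χ g * m))
    (hne : ∃ m : ZMod p, η m ≠ η 0) :
    ∃ (γ : Γ₀) (j₀ : ZMod p), s44p_InZ v G γ ∧ j₀ ≠ 0 ∧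
      ∀ m : ZMod p, m ≠ 0 → v (η m - η 0) = v (ζ - 1) * (v (p : L))⁻¹ * γ * v β ^ j₀.val := by
  classical
  have hp : p.Prime := Fact.out
  have hvp : v (p : L) ≠ 0 := (v.ne_zero_iff).mpr hp0
  set S : Finset (ZMod p) := Finset.univ.filter (fun j => j ≠ 0 ∧ s44p_res ζ η j ≠ 0) with hS
  have hSne : S.Nonempty := by
    by_contra hemp
    rw [Finset.not_nonempty_iff_eq_empty] at hemp
    obtain ⟨m, hm⟩ := hne
    have h0 : ∑ j : ZMod p, (s44p_E ζ (j * m) - 1) * s44p_res ζ η j = 0 := by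
      refine Finset.sum_eq_zero (fun j _ => ?_)
      by_cases hj0 : j = 0
      · subst hj0; simp [s44p_E_zero]
      · have : j ∉ S := by rw [hemp]; exact Finset.notMem_empty j
        rw [hS, Finset.mem_filter] at this
        have hr : s44p_res ζ η j = 0 := by
          by_contra hr
          exact this ⟨Finset.mem_univ j, hj0, hr⟩
        rw [hr, mul_zero]
    rw [← s44p_diff_eq hζ η m] at h0
    rcases mul_eq_zero.mp h0 with h | h
    · exact hp0 h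
    · exact hm (sub_eq_zero.mp h)
  obtain ⟨J, hJS, hJmax⟩ := Finset.exists_max_image S (fun j => v (s44p_res ζ η j)) hSne
  rw [hS, Finset.mem_filter] at hJS
  obtain ⟨-, hJ0, hJr⟩ := hJS
  obtain ⟨γ, hγ, hvJ⟩ := s44p_res_val (v := v) hζ hχ hβ0 hβ hη J hJr
  refine ⟨γ, J, hγ, hJ0, fun m hm => ?_⟩
  have hζ1 : v (ζ - 1) ≠ 0 := by
    rw [v.ne_zero_iff, sub_ne_zero]
    exact hζ.ne_one hp.one_lt
  have hsum : v (∑ j : ZMod p, (s44p_E ζ (j * m) - 1) * s44p_res ζ η j) =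
      v ((s44p_E ζ (J * m) - 1) * s44p_res ζ η J) := by
    refine Valuation.map_sum_eq_of_lt v (Finset.mem_univ J) (fun j hj => ?_)
    have hjJ : j ≠ J := by
      intro h; rw [h] at hj; simp at hj
    have hvt : v ((s44p_E ζ (J * m) - 1) * s44p_res ζ η J) =
        v (ζ - 1) * v (s44p_res ζ η J) := by
      rw [map_mul, s44p_val_E_sub_one v hζ (mul_ne_zero hJ0 hm)]
    rw [hvt]
    by_cases hjS : j ≠ 0 ∧ s44p_res ζ η j ≠ 0
    · have hle : v (s44p_res ζ η j) ≤ v (s44p_res ζ η J) :=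
        hJmax j (by rw [hS, Finset.mem_filter]; exact ⟨Finset.mem_univ j, hjS⟩)
      have hneq := s44p_res_val_ne hζ hχ hβ0 hβ hβZ hη hjJ hjS.2 hJr
      have hlt : v (s44p_res ζ η j) < v (s44p_res ζ η J) := lt_of_le_of_ne hle hneq
      rw [map_mul, s44p_val_E_sub_one v hζ (mul_ne_zero hjS.1 hm)]
      exact (mul_lt_mul_iff_right₀ (zero_lt_iff.mpr hζ1)).mpr hlt
    · have h0 : (s44p_E ζ (j * m) - 1) * s44p_res ζ η j = 0 := by
        by_cases hj0 : j = 0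
        · subst hj0; simp [s44p_E_zero]
        · have : s44p_res ζ η j = 0 := by
            by_contra hr; exact hjS ⟨hj0, hr⟩
          rw [this, mul_zero]
      rw [h0, map_zero]
      exact zero_lt_iff.mpr (mul_ne_zero hζ1 ((v.ne_zero_iff).mpr hJr))
  rw [← s44p_diff_eq hζ η m, map_mul, map_mul, s44p_val_E_sub_one v hζ (mul_ne_zero hJ0 hm),
    hvJ] at hsum
  calc v (η m - η 0) = (v (p : L))⁻¹ * (v (p : L) * v (η m - η 0)) := by
        rw [← mul_assoc, inv_mul_cancel₀ hvp, one_mul]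
    _ = v (ζ - 1) * (v (p : L))⁻¹ * γ * v β ^ J.val := by rw [hsum]; ac_rfl

/-- `x * y ∈ Z`, `x ∈ Z` ⟹ `y ∈ Z`. -/
theorem s44p_inZ_of_mul {x y : Γ₀} (hxy : s44p_InZ v G (x * y)) (hx : s44p_InZ v G x) :
    s44p_InZ v G y := by
  have hx0 := s44p_inZ_ne_zero hx
  have : y = x⁻¹ * (x * y) := by rw [← mul_assoc, inv_mul_cancel₀ hx0, one_mul]
  rw [this]
  exact s44p_inZ_mul (s44p_inZ_inv hx) hxy

/-- **[P-ABS], the class argument**: under the curve relation, the valuation of every radical of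
the cocycle `a` lies in `Z`. -/
theorem s44p_radical_inZ (hζ : IsPrimitiveRoot ζ p) (hχ : ∀ g : G, g • ζ = s44p_E ζ (χ g))
    (hp0 : (p : L) ≠ 0) (hp2 : p ≠ 2)
    {β : L} (hβ0 : β ≠ 0) (hβ : ∀ g : G, g • β = s44p_E ζ (a g) * β)
    {η : ZMod p → L} (hη : ∀ (g : G) (m : ZMod p), g • η m = η (a g + χ g * m))
    (hne : ∃ m : ZMod p, η m ≠ η 0)
    {ξ : ZMod p → L} (hξ0 : ∀ m : ZMod p, m ≠ 0 → ξ m ≠ 0)
    (hξ : ∀ (g : G) (m : ZMod p), g • ξ m = ξ (χ g * m))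
    {γN : Γ₀} (hγN : s44p_InZ v G γN)
    (hcurve : ∀ m : ZMod p, m ≠ 0 →
      v (η m - η 0) * v (η (-m) - η 0) = γN ^ 2 * (v (ξ m))⁻¹) :
    s44p_InZ v G (v β) := by
  classical
  by_contra hβZ
  have hp : p.Prime := Fact.out
  have hvβ : v β ≠ 0 := (v.ne_zero_iff).mpr hβ0
  have hvp : v (p : L) ≠ 0 := (v.ne_zero_iff).mpr hp0
  have hpZ : s44p_InZ v G (v β ^ p) :=
    ⟨β ^ p, pow_ne_zero _ hβ0, s44p_radical_pow_fixed hζ hβ, map_pow v β p⟩
  obtain ⟨γ, j₀, hγ, hj₀, hval⟩ := s44p_tres_val hζ hχ hp0 hβ0 hβ hβZ hη hne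
  have hγ0 := s44p_inZ_ne_zero hγ
  have hγN0 := s44p_inZ_ne_zero hγN
  have hζ1 : v (ζ - 1) ≠ 0 := by
    rw [v.ne_zero_iff, sub_ne_zero]
    exact hζ.ne_one hp.one_lt
  set C : Γ₀ := v (ζ - 1) * (v (p : L))⁻¹ * γ with hC
  have hC0 : C ≠ 0 := mul_ne_zero (mul_ne_zero hζ1 (inv_ne_zero hvp)) hγ0
  set W : Γ₀ := v β ^ j₀.val with hW
  have hW0 : W ≠ 0 := pow_ne_zero _ hvβ
  -- the valuations of the `ξ m`
  have hξval : ∀ m : ZMod p, m ≠ 0 → v (ξ m) = γN ^ 2 * ((C * W) * (C * W))⁻¹ := by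
    intro m hm
    have h1 := hcurve m hm
    rw [hval m hm, hval (-m) (neg_ne_zero.mpr hm)] at h1
    have hξm : v (ξ m) ≠ 0 := (v.ne_zero_iff).mpr (hξ0 m hm)
    have hCW : (C * W) * (C * W) ≠ 0 := mul_ne_zero (mul_ne_zero hC0 hW0) (mul_ne_zero hC0 hW0)
    have h2 : (C * W) * (C * W) * v (ξ m) = γN ^ 2 := by
      rw [h1, mul_assoc, inv_mul_cancel₀ hξm, mul_one]
    rw [← h2, mul_comm ((C * W) * (C * W)), mul_assoc, mul_inv_cancel₀ hCW, mul_one]
  -- the product of the `ξ u`, `u` a unit, is fixed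
  set Pi : L := ∏ u : (ZMod p)ˣ, ξ (u : ZMod p) with hPi
  have hPi0 : Pi ≠ 0 := Finset.prod_ne_zero_iff.mpr (fun u _ => hξ0 _ u.ne_zero)
  have hPifix : ∀ g : G, g • Pi = Pi := by
    intro g
    rw [hPi, Finset.smul_prod']
    have hc := s44p_chi_ne_zero hζ hχ g
    refine Fintype.prod_equiv (Equiv.mulLeft (Units.mk0 (χ g) hc)) _ _ (fun u => ?_)
    rw [hξ]
    simp
  have hPival : v Pi = (γN ^ 2 * ((C * W) * (C * W))⁻¹) ^ (p - 1) := by
    rw [hPi, map_prod, Finset.prod_congr rfl (fun u _ => hξval _ u.ne_zero), Finset.prod_const,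
      Finset.card_univ, ZMod.card_units_eq_totient, Nat.totient_prime hp]
  have hD : s44p_InZ v G ((γN ^ 2 * ((C * W) * (C * W))⁻¹) ^ (p - 1)) :=
    ⟨Pi, hPi0, hPifix, hPival⟩
  -- hence `((C W)(C W)) ^ (p - 1) ∈ Z`
  have hCW : (C * W) * (C * W) ≠ 0 := mul_ne_zero (mul_ne_zero hC0 hW0) (mul_ne_zero hC0 hW0)
  have h3 : s44p_InZ v G (((C * W) * (C * W)) ^ (p - 1)) := by
    have h4 : (γN ^ 2) ^ (p - 1) =
        (γN ^ 2 * ((C * W) * (C * W))⁻¹) ^ (p - 1) * ((C * W) * (C * W)) ^ (p - 1) := by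
      rw [← mul_pow, mul_assoc, inv_mul_cancel₀ hCW, mul_one]
    refine s44p_inZ_of_mul (x := (γN ^ 2 * ((C * W) * (C * W))⁻¹) ^ (p - 1)) ?_ hD
    rw [← h4]
    exact s44p_inZ_pow (s44p_inZ_pow hγN 2) _
  -- `C ^ (p - 1) ∈ Z`
  have hCZ : s44p_InZ v G (C ^ (p - 1)) := by
    rw [hC, mul_pow, mul_pow, s44p_val_zeta_sub_one_pow v hζ]
    exact s44p_inZ_mul (s44p_inZ_mul (s44p_inZ_natCast hp0)
      (s44p_inZ_pow (s44p_inZ_inv (s44p_inZ_natCast hp0)) _)) (s44p_inZ_pow hγ _)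
  -- hence `v β ^ n ∈ Z` with `n = (j₀ + j₀) (p - 1)`
  have h5 : ((C * W) * (C * W)) ^ (p - 1) =
      (C ^ (p - 1) * C ^ (p - 1)) * v β ^ ((j₀.val + j₀.val) * (p - 1)) := by
    rw [add_mul, pow_add, pow_mul, ← hW, mul_pow (C * W), mul_pow C W]
    ac_rfl
  rw [h5] at h3
  have h6 : s44p_InZ v G (v β ^ ((j₀.val + j₀.val) * (p - 1))) :=
    s44p_inZ_of_mul h3 (s44p_inZ_mul hCZ hCZ)
  have hcop : Nat.Coprime ((j₀.val + j₀.val) * (p - 1)) p := by
    rw [Nat.coprime_comm, hp.coprime_iff_not_dvd]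
    intro hd
    have hj1 : 0 < j₀.val := Nat.pos_of_ne_zero (fun h => hj₀ ((ZMod.val_eq_zero j₀).mp h))
    have hj2 : j₀.val < p := ZMod.val_lt j₀
    have h2p : 2 ≤ p := hp.two_le
    rcases (hp.dvd_mul).mp hd with h | h
    · rw [← two_mul] at h
      rcases (hp.dvd_mul).mp h with h' | h'
      · exact hp2 ((Nat.prime_dvd_prime_iff_eq hp Nat.prime_two).mp h')
      · exact absurd (Nat.le_of_dvd hj1 h') (not_le.mpr hj2)
    · have : p ≤ p - 1 := Nat.le_of_dvd (by omega) h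
      omega
  exact hβZ (s44p_inZ_of_coprime hvβ hcop h6 hpZ)

/-- **[P-ABS], final form**: a UNIT radical of the cocycle `a` exists. -/
theorem s44p_peu_abs (hζ : IsPrimitiveRoot ζ p) (hχ : ∀ g : G, g • ζ = s44p_E ζ (χ g))
    (hp0 : (p : L) ≠ 0) (hp2 : p ≠ 2)
    {η : ZMod p → L} (hη : ∀ (g : G) (m : ZMod p), g • η m = η (a g + χ g * m))
    (hinj : Function.Injective η)
    {ξ : ZMod p → L} (hξ0 : ∀ m : ZMod p, m ≠ 0 → ξ m ≠ 0)
    (hξ : ∀ (g : G) (m : ZMod p), g • ξ m = ξ (χ g * m))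
    {γN : Γ₀} (hγN : s44p_InZ v G γN)
    (hcurve : ∀ m : ZMod p, m ≠ 0 →
      v (η m - η 0) * v (η (-m) - η 0) = γN ^ 2 * (v (ξ m))⁻¹) :
    ∃ β : L, v β = 1 ∧ ∀ g : G, g • β = s44p_E ζ (a g) * β := by
  have hp : p.Prime := Fact.out
  obtain ⟨β, hβ0, hβ⟩ := s44p_exists_radical hζ hχ hη hinj
  have hne : ∃ m : ZMod p, η m ≠ η 0 := by
    refine ⟨1, fun h => ?_⟩
    have := hinj h
    exact one_ne_zero this
  obtain ⟨c, hc0, hcf, hcv⟩ :=
    s44p_radical_inZ hζ hχ hp0 hp2 hβ0 hβ hη hne hξ0 hξ hγN hcurve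
  refine ⟨β / c, ?_, fun g => ?_⟩
  · rw [map_div₀, hcv, div_self ((v.ne_zero_iff).mpr hβ0)]
  · rw [smul_div₀', hβ, hcf, mul_div_assoc]

end Main

end Fermat.Agent.S44
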