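/-
S44 cell [A] LOC-FREY-p, sub-cell [P-ID] (helper27; design finding #3808).  Prefix `s44p_`.

THE CURVE SIDE OF THE "PEU" ARGUMENT: for `P` with `x(P), x(2P) ∈ A` and `T` with `x(T) ∉ A`
(i.e. `T` in the kernel of reduction),

  `v (x(P + T) - x(P)) * v (x(P - T) - x(P)) = v (ψ₂²(x(P))) / v (x(T))`.

It is the valuation of the ring identity
  `(x(P+T) - x)(x(P-T) - x)(x - x_T)² = dupNum(x) - x_T ψ₂²(x) = ψ₂²(x) (x(2P) - x_T)`
which follows from the sum and product formulas of `S05/Kummer.lean`.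
-/
import Mathlib
import Fermat.Agent.S05.Kummer

set_option autoImplicit false

namespace Fermat.Agent.S44

open WeierstrassCurve WeierstrassCurve.Affine Fermat.Agent.S05

variable {F : Type*} [Field F] {W : Affine F}

/-- the ring identity -/
theorem s44p_id_ring (X xt xp xm : F) (hs : (xp + xm) * (X - xt) ^ 2 = sumNum W X xt)
    (hpn : xp * xm * (X - xt) ^ 2 = prodNum W X xt) :
    (xp - X) * (xm - X) * (X - xt) ^ 2 = dupNum W X - xt * psi2Sq W X := by
  simp only [sumNum, prodNum, dupNum, psi2Sq] at *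
  linear_combination hpn - X * hs

variable [DecidableEq F]

/-- **[P-ID]** in coordinates. -/
theorem s44p_id_val_some (A : ValuationSubring F) (h2 : (2 : F) ≠ 0) {X Y xt yt X2 Y2 : F}
    (h : W.Nonsingular X Y) (ht : W.Nonsingular xt yt) (h2P : W.Nonsingular X2 Y2)
    (e2 : (2 : ℕ) • Point.some X Y h = Point.some X2 Y2 h2P)
    (hX : X ∈ A) (hX2 : X2 ∈ A) (hxt : xt ∉ A) :
    ∃ (xp yp : F) (hp : W.Nonsingular xp yp) (xm ym : F) (hm : W.Nonsingular xm ym),
      Point.some X Y h + Point.some xt yt ht = Point.some xp yp hp ∧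
      Point.some X Y h - Point.some xt yt ht = Point.some xm ym hm ∧
      A.valuation (xp - X) * A.valuation (xm - X) =
        A.valuation (psi2Sq W X) * (A.valuation xt)⁻¹ := by
  have hne : X ≠ xt := fun h => hxt (h ▸ hX)
  obtain ⟨xp, yp, hp, xm, ym, hm, hadd, hsub, hs, hpn⟩ := add_sub_of_X_ne' h2 h ht hne
  refine ⟨xp, yp, hp, xm, ym, hm, hadd, hsub, ?_⟩
  have hid := s44p_id_ring (W := W) X xt xp xm hs hpn
  -- duplication
  have hdup : X2 * psi2Sq W X = dupNum W X := by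
    rcases two_nsmul_some h with ⟨-, h0⟩ | ⟨-, x', y', h', e', hx'⟩
    · rw [e2] at h0; exact absurd h0 (Point.some_ne_zero _)
    · rw [e2] at e'
      have : X2 = x' := by
        have := congrArg xOf e'
        simpa using this
      rw [this]; exact hx'
  rw [← hdup] at hid
  have hid' : (xp - X) * (xm - X) * (X - xt) ^ 2 = psi2Sq W X * (X2 - xt) := by
    rw [hid]; ring
  have hvxt : 1 < A.valuation xt := by
    rw [← not_le]; exact fun hle => hxt ((A.valuation_le_one_iff _).mp hle)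
  have hvX : A.valuation X ≤ 1 := (A.valuation_le_one_iff _).mpr hX
  have hvX2 : A.valuation X2 ≤ 1 := (A.valuation_le_one_iff _).mpr hX2
  have h1 : A.valuation (X - xt) = A.valuation xt :=
    Valuation.map_sub_eq_of_lt_right _ (lt_of_le_of_lt hvX hvxt)
  have h3 : A.valuation (X2 - xt) = A.valuation xt :=
    Valuation.map_sub_eq_of_lt_right _ (lt_of_le_of_lt hvX2 hvxt)
  have hv := congrArg A.valuation hid'
  rw [map_mul, map_mul, map_pow, h1, map_mul, h3] at hv
  have hxt0 : A.valuation xt ≠ 0 := ne_of_gt (lt_trans zero_lt_one hvxt)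
  -- cancel
  have h4 : (A.valuation (xp - X) * A.valuation (xm - X)) * (A.valuation xt * A.valuation xt) =
      (A.valuation (psi2Sq W X) * (A.valuation xt)⁻¹) * (A.valuation xt * A.valuation xt) := by
    rw [← sq, hv, mul_assoc (A.valuation (psi2Sq W X)), sq, ← mul_assoc (A.valuation xt)⁻¹,
      inv_mul_cancel₀ hxt0, one_mul]
  exact mul_right_cancel₀ (mul_ne_zero hxt0 hxt0) h4

/-- **[P-ID]** for points. -/
theorem s44p_id_val (A : ValuationSubring F) (h2 : (2 : F) ≠ 0) {P T : W.Point}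
    (hP : P ≠ 0) (h2P : (2 : ℕ) • P ≠ 0) (hT : T ≠ 0)
    (hX : xOf P ∈ A) (hX2 : xOf ((2 : ℕ) • P) ∈ A) (hxt : xOf T ∉ A) :
    P + T ≠ 0 ∧ P - T ≠ 0 ∧
    A.valuation (xOf (P + T) - xOf P) * A.valuation (xOf (P - T) - xOf P) =
      A.valuation (psi2Sq W (xOf P)) * (A.valuation (xOf T))⁻¹ := by
  rcases P with _ | ⟨X, Y, h⟩
  · exact absurd rfl hP
  rcases T with _ | ⟨xt, yt, ht⟩
  · exact absurd rfl hT
  rcases h2' : (2 : ℕ) • Point.some X Y h with _ | ⟨X2, Y2, h2P'⟩
  · exact absurd h2' h2P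
  rw [h2'] at hX2
  simp only [xOf_some] at hX hX2 hxt
  obtain ⟨xp, yp, hp, xm, ym, hm, hadd, hsub, hv⟩ :=
    s44p_id_val_some A h2 h ht h2P' h2' hX hX2 hxt
  rw [hadd, hsub]
  exact ⟨Point.some_ne_zero _, Point.some_ne_zero _, by simpa using hv⟩

end Fermat.Agent.S44
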