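/-
S44 cell [A] LOC-FREY-p, sub-cell [P-CURVE] (helper27; design finding #3808).  Prefix `s44p_`.

THE "PEU" THEOREM FOR A WEIERSTRASS CURVE WITH AN ABSTRACT GROUP ACTION: [P-ABS] + [P-ID].

`K` a field, `A : ValuationSubring K`, `W : Affine K`, `G` a group acting on `K` by
automorphisms (NOT assumed to preserve the valuation) and on `W.Point` by additive maps `act g` with
`x(act g P) = g • x(P)`.  `x, v : W.Point` with `p • x = 0`, the nonzero multiples of `x` in the
kernel of reduction (`x(k x) ∉ A`), `x(v), x(2v) ∈ A`, `2v ∉ ⟨x⟩`, `act g x = χ(g) x`,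
`act g v = v + a(g) x`, `g • ζ = ζ ^ χ(g)`, and `v (ψ₂²(x(v))) = v(c)²` with `c ≠ 0` fixed by `G`
(for the Frey curve at `p ∣ abc`: S05's annulus analysis, `c` a power of `p`).

Then there is `β` with `A.valuation β = 1` and `g • β = ζ ^ a(g) * β` for all `g`: the cocycle `a`
is PEU RAMIFIE.
-/
import Mathlib
import Fermat.Agent.S44.LocP.PeuAbs
import Fermat.Agent.S44.LocP.PeuId

set_option autoImplicit false

namespace Fermat.Agent.S44

open WeierstrassCurve WeierstrassCurve.Affine Fermat.Agent.S05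

variable {K : Type*} [Field K] [DecidableEq K] {W : Affine K}

section Aux

variable {p : ℕ} [Fact p.Prime]

omit [Fact p.Prime] in
theorem s44p_mod_smul {M : Type*} [AddCommGroup M] {x : M} (hpx : p • x = 0) (k : ℕ) :
    (k % p) • x = k • x := by
  conv_rhs => rw [← Nat.mod_add_div k p]
  rw [add_nsmul, mul_nsmul, hpx, nsmul_zero, add_zero]

/-- `m ↦ m.val • x` is additive on `ZMod p` when `p • x = 0`. -/
theorem s44p_val_smul_add {M : Type*} [AddCommGroup M] {x : M} (hpx : p • x = 0)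
    (m n : ZMod p) : (m + n).val • x = m.val • x + n.val • x := by
  rw [← add_nsmul, ZMod.val_add, s44p_mod_smul hpx]

theorem s44p_val_smul_neg {M : Type*} [AddCommGroup M] {x : M} (hpx : p • x = 0)
    (m : ZMod p) : (-m).val • x = -(m.val • x) := by
  have h := s44p_val_smul_add hpx m (-m)
  rw [add_neg_cancel, ZMod.val_zero, zero_nsmul] at h
  exact eq_neg_of_add_eq_zero_right h.symm

theorem s44p_val_smul_mul {M : Type*} [AddCommGroup M] {x : M} (hpx : p • x = 0)
    (m n : ZMod p) : (m * n).val • x = m.val • n.val • x := by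
  rw [← mul_nsmul', ZMod.val_mul, s44p_mod_smul hpx]

theorem s44p_val_smul_eq_zero_iff {M : Type*} [AddCommGroup M] {x : M} (hpx : p • x = 0)
    (hx0 : x ≠ 0) (m : ZMod p) : m.val • x = 0 ↔ m = 0 := by
  constructor
  · intro h
    by_contra hm
    have h1 : (m⁻¹ * m).val • x = 0 := by
      rw [s44p_val_smul_mul hpx, h, nsmul_zero]
    rw [inv_mul_cancel₀ hm, ZMod.val_one, one_nsmul] at h1
    exact hx0 h1
  · rintro rfl; simp

omit [DecidableEq K] in
theorem s44p_eq_or_eq_neg_of_xOf_eq {P Q : W.Point} (hP : P ≠ 0) (hQ : Q ≠ 0)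
    (h : xOf P = xOf Q) : P = Q ∨ P = -Q := by
  rcases P with _ | ⟨x₁, y₁, h₁⟩
  · exact absurd rfl hP
  rcases Q with _ | ⟨x₂, y₂, h₂⟩
  · exact absurd rfl hQ
  simp only [xOf_some] at h
  exact Point.X_eq_iff.mp h

end Aux

section Main

variable {p : ℕ} [Fact p.Prime] {G : Type*} [Group G] [MulSemiringAction G K]

/-- **[P-CURVE]**: the cocycle `a` of `g v = v + a(g) x` is peu ramifie. -/
theorem s44p_peu_curve (A : ValuationSubring K) (hp2 : p ≠ 2) (hp0 : (p : K) ≠ 0)
    (h2 : (2 : K) ≠ 0)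
    (act : G → W.Point →+ W.Point) (hactx : ∀ (g : G) (P : W.Point), xOf (act g P) = g • xOf P)
    {ζ : K} (hζ : IsPrimitiveRoot ζ p) (χ a : G → ZMod p)
    (hχ : ∀ g : G, g • ζ = ζ ^ (χ g).val)
    {x v : W.Point} (hpx : p • x = 0)
    (hxA : ∀ m : ZMod p, m ≠ 0 → xOf (m.val • x) ∉ A)
    (hvA : xOf v ∈ A) (h2vA : xOf ((2 : ℕ) • v) ∈ A)
    (hvx : ∀ m : ZMod p, (2 : ℕ) • v ≠ m.val • x)
    (hgx : ∀ g : G, act g x = (χ g).val • x) (hgv : ∀ g : G, act g v = v + (a g).val • x)
    {c : K} (hc0 : c ≠ 0) (hcf : ∀ g : G, g • c = c)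
    (hcv : A.valuation (psi2Sq W (xOf v)) = A.valuation c ^ 2) :
    ∃ β : K, A.valuation β = 1 ∧ ∀ g : G, g • β = ζ ^ (a g).val * β := by
  classical
  have hx0 : x ≠ 0 := by
    intro h0
    have := hxA 1 one_ne_zero
    rw [h0, nsmul_zero] at this
    exact this (by simp)
  have hχ' : ∀ g : G, g • ζ = s44p_E ζ (χ g) := hχ
  -- the points `v + m x`
  have hPne : ∀ m : ZMod p, v + m.val • x ≠ 0 := by
    intro m h0
    have h1 : v = -(m.val • x) := eq_neg_of_add_eq_zero_left h0
    refine hvx (-(m + m)) ?_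
    rw [s44p_val_smul_neg hpx, s44p_val_smul_add hpx, two_nsmul]
    conv_lhs => rw [h1]
    abel
  have hv0 : v ≠ 0 := by
    have := hPne 0
    simpa using this
  set η : ZMod p → K := fun m => xOf (v + m.val • x) with hη_def
  set ξ : ZMod p → K := fun m => if m = 0 then 1 else xOf (m.val • x) with hξ_def
  have hη0 : η 0 = xOf v := by simp [hη_def]
  have hη : ∀ (g : G) (m : ZMod p), g • η m = η (a g + χ g * m) := by
    intro g m
    simp only [hη_def]
    rw [← hactx, map_add, map_nsmul, hgv, hgx, s44p_val_smul_add hpx, s44p_val_smul_mul hpx,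
      add_assoc, smul_comm m.val]
  have hinj : Function.Injective η := by
    intro m m' h
    rcases s44p_eq_or_eq_neg_of_xOf_eq (hPne m) (hPne m') h with h1 | h1
    · have h2 : m.val • x = m'.val • x := add_left_cancel h1
      have h3 : (m - m').val • x = 0 := by
        rw [sub_eq_add_neg, s44p_val_smul_add hpx, s44p_val_smul_neg hpx, h2, add_neg_cancel]
      exact sub_eq_zero.mp ((s44p_val_smul_eq_zero_iff hpx hx0 _).mp h3)
    · exfalso
      refine hvx (-(m + m')) ?_
      rw [s44p_val_smul_neg hpx, s44p_val_smul_add hpx, two_nsmul]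
      have : v + v = (v + m.val • x) - m.val • x + v := by abel
      rw [this, h1]
      abel
  have hξ0 : ∀ m : ZMod p, m ≠ 0 → ξ m ≠ 0 := by
    intro m hm h0
    simp only [hξ_def, if_neg hm] at h0
    exact hxA m hm (h0 ▸ A.zero_mem)
  have hξ : ∀ (g : G) (m : ZMod p), g • ξ m = ξ (χ g * m) := by
    intro g m
    have hc := s44p_chi_ne_zero hζ hχ' g
    by_cases hm : m = 0
    · subst hm
      simp [hξ_def]
    · simp only [hξ_def, if_neg hm, if_neg (mul_ne_zero hc hm)]
      rw [← hactx, map_nsmul, hgx, s44p_val_smul_mul hpx, smul_comm]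
  have hγN : s44p_InZ A.valuation G (A.valuation c) := ⟨c, hc0, hcf, rfl⟩
  have hcurve : ∀ m : ZMod p, m ≠ 0 →
      A.valuation (η m - η 0) * A.valuation (η (-m) - η 0) =
        A.valuation c ^ 2 * (A.valuation (ξ m))⁻¹ := by
    intro m hm
    have h2P : (2 : ℕ) • v ≠ 0 := by
      have := hvx 0
      simpa using this
    have hT : m.val • x ≠ 0 := fun h => hm ((s44p_val_smul_eq_zero_iff hpx hx0 m).mp h)
    obtain ⟨-, -, hval⟩ := s44p_id_val A h2 hv0 h2P hT hvA h2vA (hxA m hm)
    simp only [hη_def, hξ_def, if_neg hm]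
    rw [s44p_val_smul_neg hpx, ← sub_eq_add_neg, ZMod.val_zero, zero_nsmul, add_zero, hval, hcv]
  obtain ⟨β, hβ1, hβ⟩ := s44p_peu_abs (v := A.valuation) (a := a) hζ hχ' hp0 hp2 hη hinj hξ0 hξ
    hγN hcurve
  exact ⟨β, hβ1, hβ⟩

end Main

end Fermat.Agent.S44
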