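/-
Project S44 (Mazur–Ribet at `p`, Frey form), cell [A] LOC-FREY-p (helper17): THE ASSEMBLY.
Prefix `s44a_`.

For the Frey curve at a place `A ∣ p` of bad reduction (`p ∣ abc`), `Γ` the inertia group of `A`,
`ζ` a primitive `p`-th root of unity:

* `s44a_frey_gen`     : `Z = E[p] ∩ E₁(A)` is generated by any of its nonzero elements `x₀`;
* `s44a_frey_val_x`   : `|x(x₀)| · |ζ - 1|² = 1`   (helper6's (A2-VAL) + `|ζ - 1|^(p-1) = |p|`);
* `s44a_frey_eig`     : `σ ζ = ζ ^ k → σ • x₀ = k • x₀` for `σ ∈ Γ`   (helper6's (A2-CHI));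
* `s44a_frey_locBasis`: the data `x₀, v₀, a, β` of the seam `s44_IsLocBasis`, `β` from helper27's
  `s44p_peu_curve` and his annulus input (T1) `s44p_frey_eta_val`.
-/
import Mathlib
import Fermat.Agent.S44.LocP.FreyLine
import Fermat.Agent.S44.LocP.E1Val
import Fermat.Agent.S44.LocP.E1Chi
import Fermat.Agent.S44.LocP.PeuCurve
import Fermat.Agent.S44.LocP.AnnulusFrey
import Fermat.Agent.S05.Inertia
import Fermat.Agent.S05.FreyQbar

set_option autoImplicit false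

open WeierstrassCurve WeierstrassCurve.Affine WeierstrassCurve.Affine.Point
open FreyPackage Fermat.Agent.S05 Fermat.Agent.S13 Fermat.Agent.S58 Fermat.Agent.MZ

namespace Fermat.Agent.S44

/-! ### A subgroup of prime order is generated by any nonzero element -/

theorem s44a_exists_nsmul_of_card {G : Type*} [AddCommGroup G] {p : ℕ} (hp : p.Prime)
    (Z : AddSubgroup G) (hZ : Nat.card Z = p) {x : G} (hx : x ∈ Z) (hx0 : x ≠ 0) {T : G}
    (hT : T ∈ Z) : ∃ k : ℕ, k < p ∧ T = k • x := by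
  have : Fact p.Prime := ⟨hp⟩
  have h := mem_zmultiples_of_prime_card (G := Z) hZ (g := ⟨x, hx⟩) (g' := ⟨T, hT⟩)
    (fun h => hx0 (congrArg Subtype.val h))
  obtain ⟨n, hn⟩ := AddSubgroup.mem_zmultiples_iff.mp h
  have hn' : n • x = T := by
    have := congrArg Subtype.val hn
    simpa using this
  have hpx : p • x = 0 := by
    have := card_nsmul_eq_zero' (G := Z) (x := ⟨x, hx⟩)
    rw [hZ] at this
    simpa using congrArg Subtype.val this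
  have hp0 : (p : ℤ) ≠ 0 := by exact_mod_cast hp.ne_zero
  have hppos : (0 : ℤ) < p := by exact_mod_cast hp.pos
  have h0 : 0 ≤ n % (p : ℤ) := Int.emod_nonneg n hp0
  refine ⟨(n % (p : ℤ)).toNat, (Int.toNat_lt h0).mpr (Int.emod_lt_of_pos n hppos), ?_⟩
  rw [← hn', ← natCast_zsmul, Int.toNat_of_nonneg h0]
  conv_lhs => rw [← Int.emod_add_mul_ediv n p]
  rw [add_zsmul, mul_zsmul, natCast_zsmul, smul_comm, hpx, zsmul_zero, add_zero]

local notation "Qb" => AlgebraicClosure ℚ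

variable (P : FreyPackage) (A : ValuationSubring Qb)

/-- `Z = E[p] ∩ E₁(A)` is generated by any nonzero element. -/
theorem s44a_frey_gen (hA : A.LiesOverPrime P.p) (hbad : A.valuation (P.freyCurve⁄Qb).Δ ≠ 1)
    {x₀ : (P.freyCurve⁄Qb).Point} (hx₀ : x₀ ∈ s44a_freyZ P A hA) (hx₀0 : x₀ ≠ 0)
    {T : (P.freyCurve⁄Qb).Point} (hT : T ∈ s44a_freyZ P A hA) :
    ∃ k : ℕ, k < P.p ∧ T = k • x₀ :=
  s44a_exists_nsmul_of_card P.pp _ (s44a_frey_card_Z P A hA hbad) hx₀ hx₀0 hT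

/-- integers prime to `p` are units at `A ∣ p` -/
theorem s44a_val_natCast (hA : A.LiesOverPrime P.p) {k : ℕ} (hk : ¬ P.p ∣ k) :
    A.valuation ((k : ℕ) : Qb) = 1 := by
  have := (intVal_eq_one_iff A hA P.pp (k : ℤ)).mpr (fun hd => hk (by exact_mod_cast hd))
  simpa using this

/-- `|ζ - 1| < 1` at `A ∣ p`. -/
theorem s44a_val_zeta_sub_one_lt (hA : A.LiesOverPrime P.p) {ζ : Qb}
    (hζ : IsPrimitiveRoot ζ P.p) : A.valuation (ζ - 1) < 1 := by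
  have : Fact P.p.Prime := ⟨P.pp⟩
  have h2 := s44p_val_zeta_sub_one_pow A.valuation hζ
  have hlt : A.valuation ((P.p : ℕ) : Qb) < 1 := intVal_prime_lt_one A hA
  by_contra hge
  rw [not_lt] at hge
  have : 1 ≤ A.valuation (ζ - 1) ^ (P.p - 1) := one_le_pow₀ hge
  rw [h2] at this
  exact absurd hlt (not_lt.mpr this)

/-- **(A2-VAL)** for the Frey curve: `|x(x₀)| · |ζ - 1|² = 1` for `x₀ ∈ Z ∖ 0`. -/
theorem s44a_frey_val_x (hA : A.LiesOverPrime P.p) (hbad : A.valuation (P.freyCurve⁄Qb).Δ ≠ 1)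
    {ζ : Qb} (hζ : IsPrimitiveRoot ζ P.p)
    {x₀ : (P.freyCurve⁄Qb).Point} (hx₀ : x₀ ∈ s44a_freyZ P A hA) (hx₀0 : x₀ ≠ 0) :
    A.valuation (xOf x₀) * A.valuation (ζ - 1) ^ 2 = 1 := by
  have hp2 : P.p ≠ 2 := by have := P.hp5; omega
  have hW := freyL_integralModel P A hA P.pp hp2
  obtain ⟨m, hm⟩ := P.pp.odd_of_ne_two hp2
  have hm0 : m ≠ 0 := by have := P.hp5; omega
  have hpm : (2 * m + 1).Prime := by rw [← hm]; exact P.pp
  have hunitB := s44a_frey_unit P A hA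
  rw [hm] at hunitB
  have hunit := s44a_ldC_unit A (P.freyCurve⁄Qb) hW.b₂ hW.b₄ hW.b₆ hW.b₈ m hunitB
  have hku : ∀ k : ℕ, 0 < k → k < 2 * m + 1 → A.valuation (k : Qb) = 1 := by
    intro k hk0 hk
    refine s44a_val_natCast P A hA (fun hd => ?_)
    have := Nat.le_of_dvd hk0 hd
    omega
  have hpx : (2 * m + 1) • x₀ = 0 := by rw [← hm]; exact hx₀.1
  have h1 := s44av_E1_val A (P.freyCurve⁄Qb) (freyL_Δ_ne_zero P) hW hpm hku hunit x₀ hpx hx₀0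
    hx₀.2 (fun T hT hTk => by
      obtain ⟨k, -, hk⟩ := s44a_frey_gen P A hA hbad hx₀ hx₀0 (T := T)
        ⟨by rw [hm]; exact hT, hTk⟩
      exact ⟨k, hk⟩)
  have : Fact P.p.Prime := ⟨P.pp⟩
  have h2 := s44p_val_zeta_sub_one_pow A.valuation hζ
  have e : P.p - 1 = 2 * m := by omega
  rw [← hm, ← h2, e, pow_mul, ← mul_pow] at h1
  exact (pow_eq_one_iff_of_nonneg zero_le hm0).mp h1

/-- **(A2-CHI)** for the Frey curve: inertia acts on `Z` through the cyclotomic character. -/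
theorem s44a_frey_eig (hA : A.LiesOverPrime P.p) (hbad : A.valuation (P.freyCurve⁄Qb).Δ ≠ 1)
    {ζ : Qb} (hζ : IsPrimitiveRoot ζ P.p)
    {x₀ : (P.freyCurve⁄Qb).Point} (hx₀ : x₀ ∈ s44a_freyZ P A hA) (hx₀0 : x₀ ≠ 0)
    (σ : Qb ≃ₐ[ℚ] Qb) (hσ : σ ∈ A.inertiaSubgroupIn ℚ) (k : ℕ) (hk : σ ζ = ζ ^ k) :
    σ • x₀ = k • x₀ := by
  classical
  have hp2 : P.p ≠ 2 := by have := P.hp5; omega
  have hσx := s44a_frey_Z_inertia_stable P A hA σ hσ hx₀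
  obtain ⟨n, -, hn⟩ := s44a_frey_gen P A hA hbad hx₀ hx₀0 hσx
  have hxl := s44a_frey_val_x P A hA hbad hζ hx₀ hx₀0
  have hpx : P.p • x₀ = 0 := hx₀.1
  rcases x₀ with _ | ⟨x, y, h⟩
  · exact absurd rfl hx₀0
  rw [xOf_some] at hxl
  obtain ⟨ha1, ha2, ha3, ha4, ha6⟩ := freyL_a_mem P A hA P.pp hp2
  have h2 : A.valuation (2 : Qb) = 1 := two_unit A hA P.pp hp2
  have hlam1 : A.valuation (ζ - 1) < 1 := s44a_val_zeta_sub_one_lt P A hA hζ
  have hlam0 : ζ - 1 ≠ 0 := sub_ne_zero.mpr (hζ.ne_one P.pp.one_lt)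
  have hg : (σ : Qb →+* Qb) (ζ - 1) = (∑ i ∈ Finset.range k, ζ ^ i) * (ζ - 1) := by
    rw [geom_sum_mul]
    change σ (ζ - 1) = _
    rw [map_sub, map_one, hk]
  have hpk : ¬ P.p ∣ k := by
    intro hd
    have h1 : ζ ^ k = 1 := (hζ.pow_eq_one_iff_dvd k).mpr hd
    rw [h1] at hk
    have : ζ = 1 := σ.injective (hk.trans (map_one σ).symm)
    exact hζ.ne_one P.pp.one_lt this
  have hvk : A.valuation ((k : ℕ) : Qb) = 1 := s44a_val_natCast P A hA hpk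
  have hζ1 : A.valuation ζ ≤ 1 := by
    have h1 : A.valuation ζ ^ P.p = 1 := by rw [← map_pow, hζ.pow_eq_one, map_one]
    exact ((pow_eq_one_iff_of_nonneg zero_le P.hp0).mp h1).le
  have hgc : A.valuation ((∑ i ∈ Finset.range k, ζ ^ i) - (k : Qb)) < 1 := by
    have e : (∑ i ∈ Finset.range k, ζ ^ i) - (k : Qb) = ∑ i ∈ Finset.range k, (ζ ^ i - 1) := by
      rw [Finset.sum_sub_distrib, Finset.sum_const, Finset.card_range, nsmul_eq_mul, mul_one]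
    rw [e]
    refine Valuation.map_sum_lt _ one_ne_zero fun i _ => ?_
    exact lt_of_le_of_lt (s44p_val_pow_sub_one_le A.valuation hζ1 i) hlam1
  have hg1 : A.valuation (∑ i ∈ Finset.range k, ζ ^ i) = 1 := by
    have e : (∑ i ∈ Finset.range k, ζ ^ i) =
        (k : Qb) + ((∑ i ∈ Finset.range k, ζ ^ i) - (k : Qb)) := by ring
    rw [e, Valuation.map_add_eq_of_lt_left _ (by rw [hvk]; exact hgc), hvk]
  have hn' := hn
  rw [Fermat.Agent.S05.smul_some σ h] at hn'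
  have hfin := s44av_chi A (P.freyCurve⁄Qb) (freyL_Δ_ne_zero P) h2 ha1 ha2 ha3 ha4 ha6 hlam0 hlam1
    h hxl (σ : Qb →+* Qb) (fun z hz => inertia_sub_lt_one A hσ hz) hg hg1 hgc _ hn'
  have hd : (P.p : ℤ) ∣ (n : ℤ) - (k : ℤ) := by
    refine (intVal_lt_one_iff A hA P.pp _).mp ?_
    push_cast
    exact hfin
  rw [hn]
  obtain ⟨c, hc⟩ := hd
  have e1 : ((n : ℤ) - (k : ℤ)) • Point.some x y h = 0 := by
    rw [hc, mul_zsmul, natCast_zsmul, smul_comm, hpx, zsmul_zero]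
  rw [sub_zsmul, natCast_zsmul, natCast_zsmul] at e1
  exact add_neg_eq_zero.mp e1

/-! ### The local basis -/

omit A in
/-- `x(σ T) = σ (x(T))`. -/
theorem s44a_xOf_smul (σ : Qb ≃ₐ[ℚ] Qb) (T : (P.freyCurve⁄Qb).Point) :
    xOf (σ • T) = σ (xOf T) := by
  rcases T with _ | ⟨x, y, h⟩
  · have : σ • (0 : (P.freyCurve⁄Qb).Point) = 0 := ga_smul_zero σ
    change xOf (σ • (0 : (P.freyCurve⁄Qb).Point)) = σ (xOf (0 : (P.freyCurve⁄Qb).Point))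
    rw [this, xOf_zero, _root_.map_zero]
  · rw [Fermat.Agent.S05.smul_some σ h]
    rfl

/-- `2 • v ∉ Z` for a `p`-torsion point `v ∉ Z`. -/
theorem s44a_two_nsmul_not_mem (hA : A.LiesOverPrime P.p) {v₀ : (P.freyCurve⁄Qb).Point}
    (hpv : P.p • v₀ = 0) (hv : v₀ ∉ s44a_freyZ P A hA) : (2 : ℕ) • v₀ ∉ s44a_freyZ P A hA := by
  intro h2
  apply hv
  obtain ⟨m, hm⟩ := P.pp.odd_of_ne_two (by have := P.hp5; omega)
  have e : v₀ = (m + 1) • ((2 : ℕ) • v₀) := by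
    rw [← mul_nsmul]
    have : 2 * (m + 1) = P.p + 1 := by omega
    rw [this, add_nsmul, hpv, zero_add, one_nsmul]
  rw [e]
  exact (s44a_freyZ P A hA).nsmul_mem h2 _

/-- **the local basis of `E[p]` at `A ∣ p`** (`p ∣ abc`): `x₀ ∈ Z` a generator, `v₀ ∉ Z`, the cocycle
`a` and the peu-ramifié datum `β`. -/
theorem s44a_frey_locData (hA : A.LiesOverPrime P.p)
    (hbad : A.valuation (P.freyCurve⁄Qb).Δ ≠ 1)
    {ζ : Qb} (hζ : IsPrimitiveRoot ζ P.p) :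
    ∃ (x₀ v₀ : (P.freyCurve⁄Qb).Point) (a : (Qb ≃ₐ[ℚ] Qb) → ℕ) (β : Qb),
      P.p • x₀ = 0 ∧ P.p • v₀ = 0 ∧
      (∀ σ ∈ A.inertiaSubgroupIn ℚ, ∀ k : ℕ, σ ζ = ζ ^ k → σ • x₀ = k • x₀) ∧
      (∀ σ ∈ A.inertiaSubgroupIn ℚ, σ • v₀ = v₀ + a σ • x₀) ∧
      (∀ m : ℤ, v₀ ≠ m • x₀) ∧
      A.valuation β = 1 ∧
      (∀ σ ∈ A.inertiaSubgroupIn ℚ, σ β = ζ ^ a σ * β) := by
  classical
  have : Fact P.p.Prime := ⟨P.pp⟩
  have : NeZero P.p := ⟨P.hp0⟩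
  have hp2 : P.p ≠ 2 := by have := P.hp5; omega
  obtain ⟨x₀, hpx, hx₀0, hx₀k⟩ := s44a_frey_exists_in P A hA
  obtain ⟨v₁, hpv₁, -, hv₁k⟩ := s44a_frey_exists_out P A hA hbad
  have hx₀ : x₀ ∈ s44a_freyZ P A hA := ⟨hpx, hx₀k⟩
  have hv₁ : v₁ ∉ s44a_freyZ P A hA := fun h => hv₁k h.2
  -- (T1): pass to `v₀ = v₁` or `v₀ = 2 • v₁`
  obtain ⟨j, hj, n, hn⟩ := s44p_frey_eta_val P P.pp hp2 A hA hbad v₁ hpv₁ hv₁k
  obtain ⟨v₀, hv₀def⟩ : ∃ v₀ : (P.freyCurve⁄Qb).Point, v₀ = j • v₁ := ⟨_, rfl⟩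
  have hpv : P.p • v₀ = 0 := by rw [hv₀def, smul_comm, hpv₁, nsmul_zero]
  have hv₀ : v₀ ∉ s44a_freyZ P A hA := by
    rcases hj with rfl | rfl
    · rwa [hv₀def, one_nsmul]
    · rw [hv₀def]
      exact s44a_two_nsmul_not_mem P A hA hpv₁ hv₁
  have hv₀k : ¬ InKerRed A v₀ := fun h => hv₀ ⟨hpv, h⟩
  rw [← hv₀def] at hn
  have h2v₀ := s44a_two_nsmul_not_mem P A hA hpv hv₀
  -- the cocycle
  have hex : ∀ σ ∈ A.inertiaSubgroupIn ℚ, ∃ k : ℕ, σ • v₀ - v₀ = k • x₀ := by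
    intro σ hσ
    obtain ⟨k, -, hk⟩ := s44a_frey_gen P A hA hbad hx₀ hx₀0
      (s44a_frey_Z_inertia P A hA hbad σ hσ v₀ hpv)
    exact ⟨k, hk⟩
  set a : (Qb ≃ₐ[ℚ] Qb) → ℕ := fun σ =>
    if h : σ ∈ A.inertiaSubgroupIn ℚ then (hex σ h).choose else 0 with ha
  have hext : ∀ σ ∈ A.inertiaSubgroupIn ℚ, σ • v₀ = v₀ + a σ • x₀ := by
    intro σ hσ
    have h1 := (hex σ hσ).choose_spec
    have h2 : a σ = (hex σ hσ).choose := by rw [ha]; exact dif_pos hσ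
    rw [h2, ← h1]
    abel
  -- the character
  have hchi : ∀ g : ↥(A.inertiaSubgroupIn ℚ), ∃ i : ℕ, i < P.p ∧ ζ ^ i = (g : Qb ≃ₐ[ℚ] Qb) ζ := by
    intro g
    refine hζ.eq_pow_of_pow_eq_one ?_
    rw [← map_pow, hζ.pow_eq_one, map_one]
  set χ : ↥(A.inertiaSubgroupIn ℚ) → ZMod P.p := fun g => (((hchi g).choose : ℕ) : ZMod P.p)
    with hχdef
  have hχval : ∀ g, (χ g).val = (hchi g).choose := fun g =>
    ZMod.val_natCast_of_lt (hchi g).choose_spec.1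
  have heig : ∀ σ ∈ A.inertiaSubgroupIn ℚ, ∀ k : ℕ, σ ζ = ζ ^ k → σ • x₀ = k • x₀ :=
    fun σ hσ k hk => s44a_frey_eig P A hA hbad hζ hx₀ hx₀0 σ hσ k hk
  refine ⟨x₀, v₀, a, ?_⟩
  -- the radical
  have hp0 : ((P.p : ℕ) : Qb) ≠ 0 := by exact_mod_cast P.hp0
  obtain ⟨β, hβ1, hβ⟩ := s44p_peu_curve (p := P.p) (G := ↥(A.inertiaSubgroupIn ℚ))
    (W := (P.freyCurve⁄Qb)) A hp2 hp0 two_ne_zero
    (fun g => DistribSMul.toAddMonoidHom (P.freyCurve⁄Qb).Point (g : Qb ≃ₐ[ℚ] Qb))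
    (fun g T => s44a_xOf_smul P (g : Qb ≃ₐ[ℚ] Qb) T)
    hζ χ (fun g => ((a (g : Qb ≃ₐ[ℚ] Qb) : ℕ) : ZMod P.p))
    (fun g => by
      rw [hχval]
      exact (hchi g).choose_spec.2.symm)
    hpx
    (fun m hm => by
      have hmem : m.val • x₀ ∈ s44a_freyZ P A hA := (s44a_freyZ P A hA).nsmul_mem hx₀ _
      rcases hmem.2 with h0 | h0
      · exact absurd ((s44p_val_smul_eq_zero_iff hpx hx₀0 m).mp h0) hm
      · exact h0)
    (by
      by_contra h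
      exact hv₀k (Or.inr h))
    (by
      by_contra h
      exact h2v₀ ⟨by rw [smul_comm, hpv, smul_zero], Or.inr h⟩)
    (fun m h => h2v₀ (h ▸ (s44a_freyZ P A hA).nsmul_mem hx₀ _))
    (fun g => by
      rw [hχval]
      exact heig g g.2 _ (hchi g).choose_spec.2.symm)
    (fun g => by
      rw [ZMod.val_natCast, s44p_mod_smul hpx]
      exact hext g g.2)
    (c := ((P.p : ℕ) : Qb) ^ n) (zpow_ne_zero _ hp0)
    (fun g => by
      change (g : Qb ≃ₐ[ℚ] Qb) (((P.p : ℕ) : Qb) ^ n) = _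
      rw [map_zpow₀, map_natCast])
    hn
  refine ⟨β, hpx, hpv, heig, hext, ?_, hβ1, ?_⟩
  · intro m h
    exact hv₀ (h ▸ (s44a_freyZ P A hA).zsmul_mem hx₀ _)
  · intro σ hσ
    have h1 := hβ ⟨σ, hσ⟩
    rw [ZMod.val_natCast] at h1
    change σ β = _ at h1
    rw [h1]
    congr 1
    conv_rhs => rw [← Nat.mod_add_div (a σ) P.p]
    rw [pow_add, pow_mul, hζ.pow_eq_one, one_pow, mul_one]

end Fermat.Agent.S44
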