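/-
Project S44 (Mazur–Ribet at `p`, Frey form), cell [A] LOC-FREY-p (helper17): THE SEAM.
Prefix `s44a_`.

`s44a_locFrey : s44_LocFrey_stmt Fr` for EVERY frame `Fr : s44_Frame P M` whose place `Fr.A` lies
over `p`, whose `Fr.ζ` is a primitive `p`-th root of unity, provided `p ∣ abc` (bad reduction of the
Frey curve at `p`; automatic when `M p` is a conductor level).  Only the fields `A`, `ζ` of the frame
are used, so the statement survives any re-cut of the geometric fields of the frame.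
-/
import Mathlib
import Fermat.Agent.S44.LocP.Asm
import Fermat.Agent.S44.Low.Seams

set_option autoImplicit false

open WeierstrassCurve WeierstrassCurve.Affine WeierstrassCurve.Affine.Point
open FreyPackage Fermat.Agent.S05 Fermat.Agent.S58 Fermat.Agent.MZ

namespace Fermat.Agent.S44

local notation "Qb" => AlgebraicClosure ℚ

/-- `p ∣ abc` ⟹ the Frey curve has bad reduction at every place over `p`. -/
theorem s44a_hbad (P : FreyPackage) (A : ValuationSubring Qb) (hA : A.LiesOverPrime P.p)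
    (habc : (P.p : ℤ) ∣ P.a * P.b * P.c) : A.valuation (P.freyCurve⁄Qb).Δ ≠ 1 := by
  have hpp : Prime (P.p : ℤ) := Nat.prime_iff_prime_int.mp P.pp
  -- `p ∣ Δ` of the integral model
  have h1 : (P.p : ℤ) ∣ (P.a ^ P.p * P.b ^ P.p * P.c ^ P.p) ^ 2 := by
    have e : (P.a ^ P.p * P.b ^ P.p * P.c ^ P.p) ^ 2 = (P.a * P.b * P.c) ^ (2 * P.p) := by ring
    rw [e]
    exact dvd_pow habc (Nat.mul_ne_zero two_ne_zero P.hp0)
  rw [← mzj_fr_Δ] at h1
  have hΔ : (P.p : ℤ) ∣ P.freyCurveInt.Δ := by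
    rcases hpp.dvd_or_dvd h1 with h | h
    · exfalso
      have h256 : (256 : ℤ) = 2 ^ 8 := by norm_num
      rw [h256] at h
      have h2 : (P.p : ℤ) ∣ 2 := hpp.dvd_of_dvd_pow h
      have h3 : P.p ∣ 2 := by exact_mod_cast h2
      have := Nat.le_of_dvd (by norm_num) h3
      have := P.hp5
      omega
    · exact h
  have e : (P.freyCurve⁄Qb).Δ = ((P.freyCurveInt.Δ : ℤ) : Qb) := by
    rw [freyL_Δ, ← mzj_fr_map, WeierstrassCurve.map_Δ]
    simp
  rw [e]
  exact (intVal_lt_one_of_dvd A hA hΔ).ne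

section Seam

variable {P : FreyPackage} {M : ℕ} [NeZero M] [NeZero (M * P.p)]

/-- **[A]**: the seam `s44_LocFrey_stmt` for every frame over `p`. -/
theorem s44a_locFrey (Fr : s44_Frame P M) (hA : Fr.A.LiesOverPrime P.p)
    (hζ : IsPrimitiveRoot Fr.ζ P.p) (habc : (P.p : ℤ) ∣ P.a * P.b * P.c) :
    s44_LocFrey_stmt Fr := by
  obtain ⟨x₀, v₀, a, β, hpx, hpv, heig, hext, hind, hβ1, hβ⟩ :=
    s44a_frey_locData P Fr.A hA (s44a_hbad P Fr.A hA habc) hζ
  have memT : ∀ T : (P.freyCurve⁄s44_Qb).Point, P.p • T = 0 →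
      T ∈ Submodule.torsionBy ℤ (P.freyCurve⁄s44_Qb).Point (P.p : ℤ) := by
    intro T hT
    rw [Submodule.mem_torsionBy_iff, natCast_zsmul]
    exact hT
  have hβ0 : β ≠ 0 := by
    intro h0
    rw [h0, _root_.map_zero] at hβ1
    exact zero_ne_one hβ1
  refine ⟨⟨x₀, memT x₀ hpx⟩, ⟨v₀, memT v₀ hpv⟩, a, β, ?_⟩
  refine ⟨?_, ?_, ?_, hβ0, ?_, ?_, ?_⟩
  · intro σ hσ k hk
    apply Subtype.ext
    have e : ((k • (⟨x₀, memT x₀ hpx⟩ : s44_Tors P) : s44_Tors P) :
        (P.freyCurve⁄s44_Qb).Point) = k • x₀ := Submodule.coe_smul_of_tower k _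
    rw [e]
    exact heig σ hσ k hk
  · intro σ hσ
    apply Subtype.ext
    have e : ((a σ • (⟨x₀, memT x₀ hpx⟩ : s44_Tors P) : s44_Tors P) :
        (P.freyCurve⁄s44_Qb).Point) = a σ • x₀ := Submodule.coe_smul_of_tower (a σ) _
    rw [Submodule.coe_add, e]
    exact hext σ hσ
  · intro m h
    apply hind m
    have e : ((m • (⟨x₀, memT x₀ hpx⟩ : s44_Tors P) : s44_Tors P) :
        (P.freyCurve⁄s44_Qb).Point) = m • x₀ := Submodule.coe_smul_of_tower m _
    have := congrArg Subtype.val h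
    rw [e] at this
    exact this
  · exact (Fr.A.valuation_le_one_iff β).mp hβ1.le
  · refine (Fr.A.valuation_le_one_iff β⁻¹).mp ?_
    rw [map_inv₀, hβ1, inv_one]
  · intro σ hσ
    exact hβ σ hσ

/-- **[A]** when `M p` is a conductor level. -/
theorem s44a_locFrey_of_cond (Fr : s44_Frame P M) (hA : Fr.A.LiesOverPrime P.p)
    (hζ : IsPrimitiveRoot Fr.ζ P.p) (hcond : P.IsConductorLevel (M * P.p)) :
    s44_LocFrey_stmt Fr :=
  s44a_locFrey Fr hA hζ (hcond.p_dvd_abc (Dvd.intro_left M rfl))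

end Seam

end Fermat.Agent.S44
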