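/-
S44 cell [A] LOC-FREY-p, SUB of the assembly (helper19, on request of helper17 #3860).
Prefix `s44r_`.  Mathlib only.

A SUBGROUP OF PRIME ORDER IS GENERATED BY ANY OF ITS NONZERO ELEMENTS, in the `ℕ`-multiple form
consumed by `s44_IsLocBasis`:

* `s44r_exists_nsmul_of_card_prime` : `|Z| = p`, `0 ≠ x0 ∈ Z` ⟹ every `T ∈ Z` is `k • x0`, `k < p`;
* `s44r_exists_fn` : the function form (choice of the cocycle `a : S → ℕ`);
* `s44r_ne_zsmul_of_not_mem` : `v0 ∉ Z`, `x0 ∈ Z` ⟹ `v0 ≠ m • x0` for all `m : ℤ`.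
-/
import Mathlib

set_option autoImplicit false

namespace Fermat.Agent.S44

variable {G : Type*} [AddCommGroup G]

/-- every element of a subgroup of prime order `p` is a multiple `k • x0`, `k < p`, of any nonzero
element `x0` of it. -/
theorem s44r_exists_nsmul_of_card_prime {p : ℕ} (hp : p.Prime) (Z : AddSubgroup G)
    (hZ : Nat.card Z = p) {x0 : G} (hx0 : x0 ∈ Z) (hne : x0 ≠ 0) :
    ∀ T ∈ Z, ∃ k : ℕ, k < p ∧ T = k • x0 := by
  intro T hT
  have : Fact p.Prime := ⟨hp⟩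
  have hne' : (⟨x0, hx0⟩ : Z) ≠ 0 := fun h => hne (congrArg Subtype.val h)
  have hmem : (⟨T, hT⟩ : Z) ∈ AddSubgroup.zmultiples (⟨x0, hx0⟩ : Z) :=
    mem_zmultiples_of_prime_card hZ hne'
  obtain ⟨n, hn⟩ := AddSubgroup.mem_zmultiples_iff.1 hmem
  have hn' : n • x0 = T := by
    have := congrArg Subtype.val hn
    simpa using this
  -- `p • x0 = 0`
  have hpx : p • x0 = 0 := by
    have h1 : Nat.card Z • (⟨x0, hx0⟩ : Z) = 0 := card_nsmul_eq_zero'
    rw [hZ] at h1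
    have := congrArg Subtype.val h1
    simpa using this
  have hp0 : (p : ℤ) ≠ 0 := by exact_mod_cast hp.ne_zero
  refine ⟨(n % (p : ℤ)).toNat, ?_, ?_⟩
  · have h1 : n % (p : ℤ) < p := Int.emod_lt_of_pos n (by exact_mod_cast hp.pos)
    have h0 : 0 ≤ n % (p : ℤ) := Int.emod_nonneg n hp0
    omega
  · have h0 : 0 ≤ n % (p : ℤ) := Int.emod_nonneg n hp0
    have h2 : ((n % (p : ℤ)).toNat : ℤ) = n % (p : ℤ) := Int.toNat_of_nonneg h0
    rw [← hn', ← natCast_zsmul, h2]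
    conv_lhs => rw [← Int.emod_add_mul_ediv n (p : ℤ)]
    rw [add_smul, mul_smul, natCast_zsmul, smul_comm, hpx, smul_zero, add_zero]

/-- the function form: a family `d σ ∈ Z` (`σ ∈ Γ`) is `a σ • x0` for a function `a` with values
`< p`. -/
theorem s44r_exists_fn {p : ℕ} (hp : p.Prime) (Z : AddSubgroup G)
    (hZ : Nat.card Z = p) {x0 : G} (hx0 : x0 ∈ Z) (hne : x0 ≠ 0) {S : Type*} (d : S → G)
    (Γ : Set S) (hd : ∀ σ ∈ Γ, d σ ∈ Z) :
    ∃ a : S → ℕ, (∀ σ, a σ < p) ∧ ∀ σ ∈ Γ, d σ = a σ • x0 := by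
  classical
  have h := s44r_exists_nsmul_of_card_prime hp Z hZ hx0 hne
  refine ⟨fun σ => if hσ : σ ∈ Γ then (h (d σ) (hd σ hσ)).choose else 0, ?_, ?_⟩
  · intro σ
    by_cases hσ : σ ∈ Γ
    · simp only [hσ, dif_pos]
      exact (h (d σ) (hd σ hσ)).choose_spec.1
    · simp only [hσ, dif_neg, not_false_eq_true]
      exact hp.pos
  · intro σ hσ
    simp only [hσ, dif_pos]
    exact (h (d σ) (hd σ hσ)).choose_spec.2

/-- a point outside the line is not a multiple of a point of the line. -/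
theorem s44r_ne_zsmul_of_not_mem (Z : AddSubgroup G) {x0 v0 : G} (hx0 : x0 ∈ Z) (hv0 : v0 ∉ Z)
    (m : ℤ) : v0 ≠ m • x0 := fun h => hv0 (h ▸ Z.zsmul_mem hx0 m)

end Fermat.Agent.S44
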