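/-
S44 project, cell [A] LOC-FREY-p, sub-cell (A2-CHI), cyclotomic form (helper6).  Prefix `s44av_`.

`s44av_chi_zeta`: `K` a field, `A : ValuationSubring K` with residue characteristic `p = 2m+1`
(`v(p) < 1`, every `j` prime to `p` is a unit), `ζ` a primitive `p`-th root of unity,
`P = (x, y)` a point of `W` (integral model, `2 ∈ Aˣ`, `Δ ≠ 0`) with `v(x)^m * v(p) = 1`
(the conclusion of `s44av_E1_val`), `σ` a ring endomorphism of `K` acting trivially on the residue
field of `A` with `σ ζ = ζ ^ k` and `σ P = n • P`.  Then `v(n - k) < 1`, i.e. `n ≡ k mod p`.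
-/
import Mathlib
import Fermat.Agent.S44.LocP.E1Chi
import Fermat.Agent.S44.LocP.PeuAbs

set_option autoImplicit false
set_option linter.unusedSectionVars false

namespace Fermat.Agent.S44

open WeierstrassCurve WeierstrassCurve.Affine IsLocalRing

variable {K : Type*} [Field K] [DecidableEq K] (A : ValuationSubring K)
  [DecidableEq (ResidueField A)]

/-- `a ^ n = 1` forces `a = 1` in a linearly ordered group with zero. -/
theorem s44av_eq_one_of_pow_eq_one {Γ₀ : Type*} [LinearOrderedCommGroupWithZero Γ₀] {a : Γ₀}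
    {n : ℕ} (hn : n ≠ 0) (h : a ^ n = 1) : a = 1 := by
  rcases lt_trichotomy a 1 with h1 | h1 | h1
  · exact absurd h (ne_of_lt (pow_lt_one₀ zero_le h1 hn))
  · exact h1
  · exact absurd h (ne_of_gt (one_lt_pow₀ h1 hn))

/-- **(A2-CHI), cyclotomic form.** -/
theorem s44av_chi_zeta (W : Affine K) (hΔ : W.Δ ≠ 0) (h2 : A.valuation (2 : K) = 1)
    (ha1 : W.a₁ ∈ A) (ha2 : W.a₂ ∈ A) (ha3 : W.a₃ ∈ A) (ha4 : W.a₄ ∈ A) (ha6 : W.a₆ ∈ A)
    {p : ℕ} [Fact p.Prime] {m : ℕ} (hpm : p = 2 * m + 1)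
    (hpA : A.valuation (p : K) < 1)
    (hnd : ∀ j : ℕ, ¬ p ∣ j → A.valuation (j : K) = 1)
    {ζ : K} (hζ : IsPrimitiveRoot ζ p)
    {x y : K} (h : W.Nonsingular x y) (hxv : A.valuation x ^ m * A.valuation (p : K) = 1)
    (σ : K →+* K) (hσ : ∀ z ∈ A, A.valuation (σ z - z) < 1)
    {k : ℕ} (hk : σ ζ = ζ ^ k)
    (h' : W.Nonsingular (σ x) (σ y)) {n : ℕ}
    (hn : Point.some (σ x) (σ y) h' = n • Point.some x y h) :
    A.valuation ((n : K) - (k : K)) < 1 := by
  have hp : p.Prime := Fact.out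
  have hm0 : m ≠ 0 := by
    rintro rfl
    rw [hpm] at hp
    exact Nat.not_prime_one (by simpa using hp)
  set lam : K := ζ - 1 with hlam
  have hζ1 : ζ ≠ 1 := hζ.ne_one hp.one_lt
  have hl0 : lam ≠ 0 := sub_ne_zero.mpr hζ1
  have hlp : A.valuation lam ^ (p - 1) = A.valuation (p : K) :=
    s44p_val_zeta_sub_one_pow A.valuation hζ
  have hp1 : p - 1 = 2 * m := by omega
  have hl1 : A.valuation lam < 1 := by
    by_contra hcon
    rw [not_lt] at hcon
    have : (1 : A.ValueGroup) ≤ A.valuation lam ^ (p - 1) := one_le_pow₀ hcon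
    rw [hlp] at this
    exact absurd hpA (not_lt.mpr this)
  -- `v(x) * v(lam)² = 1`
  have hxl : A.valuation x * A.valuation lam ^ 2 = 1 := by
    refine s44av_eq_one_of_pow_eq_one hm0 ?_
    rw [mul_pow, ← pow_mul, ← hp1, hlp]
    exact hxv
  -- `ζ` is a unit
  have hζv : A.valuation ζ = 1 := by
    refine s44av_eq_one_of_pow_eq_one hp.ne_zero ?_
    rw [← map_pow, hζ.pow_eq_one, map_one]
  have hζA : ζ ∈ A := (A.valuation_le_one_iff _).mp hζv.le
  -- the geometric sum
  set g : K := ∑ i ∈ Finset.range k, ζ ^ i with hgdef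
  have hg : σ lam = g * lam := by
    rw [hlam, map_sub, map_one, hk, hgdef, geom_sum_mul]
  have hterm : ∀ i : ℕ, A.valuation (ζ ^ i - 1) < 1 := by
    intro i
    have e : ζ ^ i - 1 = (∑ j ∈ Finset.range i, ζ ^ j) * (ζ - 1) := (geom_sum_mul ζ i).symm
    rw [e, map_mul]
    have h1 : A.valuation (∑ j ∈ Finset.range i, ζ ^ j) ≤ 1 := by
      rw [A.valuation_le_one_iff]
      exact sum_mem fun j _ => pow_mem hζA j
    calc A.valuation (∑ j ∈ Finset.range i, ζ ^ j) * A.valuation (ζ - 1)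
        ≤ 1 * A.valuation (ζ - 1) := mul_le_mul_left h1 _
      _ = A.valuation lam := one_mul _
      _ < 1 := hl1
  have hgc : A.valuation (g - (k : K)) < 1 := by
    have e : g - (k : K) = ∑ i ∈ Finset.range k, (ζ ^ i - 1) := by
      rw [Finset.sum_sub_distrib, hgdef]
      simp
    rw [e]
    exact Valuation.map_sum_lt _ one_ne_zero fun i _ => hterm i
  -- `k` is prime to `p`
  have hkp : ¬ p ∣ k := by
    have hprim : IsPrimitiveRoot (ζ ^ k) p := by
      rw [← hk]
      exact hζ.map_of_injective σ.injective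
    have hcop := (hζ.pow_iff_coprime hp.pos k).mp hprim
    intro hd
    have : p ∣ Nat.gcd k p := Nat.dvd_gcd hd dvd_rfl
    rw [hcop] at this
    exact hp.one_lt.ne' (Nat.dvd_one.mp this)
  have hkv : A.valuation (k : K) = 1 := hnd k hkp
  have hg1 : A.valuation g = 1 := by
    have : g = (k : K) + (g - (k : K)) := by ring
    rw [this, Valuation.map_add_eq_of_lt_left _ (by rw [hkv]; exact hgc), hkv]
  exact s44av_chi A W hΔ h2 ha1 ha2 ha3 ha4 ha6 hl0 hl1 h hxl σ hσ hg hg1 hgc h' hn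

end Fermat.Agent.S44
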