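/-
S44 project, cell [A] LOC-FREY-p, sub-cell (A2-CHI) FOR THE FREY CURVE (helper6).  Prefix `s44av_`.

`s44av_frey_chi`: `P : FreyPackage`, `A` a place of `ℚ̄` above `p = P.p`, `ζ` a primitive `p`-th
root of unity, `x₀ ≠ 0` a generator of `E[p] ∩ E₁(A)` (kernel of reduction, `S05.InKerRed`).  Then
every `σ` in the inertia group of `A` acts on `x₀` as it acts on `ζ`:
`σ ζ = ζ ^ k → σ • x₀ = k • x₀`.

No hypothesis on the reduction type is needed (the Frey curve is semistable: `mzj_fr_SS`); the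
existence of `x₀` (i.e. `|E[p] ∩ E₁| = p`) is cell (A1b).
-/
import Mathlib
import Fermat.Agent.S05.FreyLocal
import Fermat.Agent.S05.Inertia
import Fermat.Agent.S05.IntVal
import Fermat.Agent.S05.Unfold
import Fermat.Agent.S05.GaloisAction
import Fermat.Agent.MZ.J.E1Unit
import Fermat.Agent.MZ.J.Frey
import Fermat.Agent.S44.LocP.E1Val
import Fermat.Agent.S44.LocP.E1ChiZeta

set_option autoImplicit false
set_option linter.unusedSectionVars false

namespace Fermat.Agent.S44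

open Polynomial WeierstrassCurve WeierstrassCurve.Affine WeierstrassCurve.Affine.Point
open FreyPackage Fermat.Agent.S05 Fermat.Agent.S13 Fermat.Agent.S58 Fermat.Agent.MZ

/-- a polynomial with coefficients in `A` whose square has a unit coefficient has a unit
coefficient -/
theorem s44av_unit_of_sq_unit {K : Type*} [Field K] (A : ValuationSubring K) {Q : K[X]}
    (hQ : ∀ i, Q.coeff i ∈ A) {i : ℕ} (hi : A.valuation ((Q ^ 2).coeff i) = 1) :
    ∃ j, A.valuation (Q.coeff j) = 1 := by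
  by_contra hcon
  push Not at hcon
  have hlt : ∀ j, A.valuation (Q.coeff j) < 1 := fun j =>
    lt_of_le_of_ne ((A.valuation_le_one_iff _).mpr (hQ j)) (hcon j)
  have h1 : A.valuation ((Q ^ 2).coeff i) < 1 := by
    rw [sq, coeff_mul]
    refine Valuation.map_sum_lt _ one_ne_zero fun ab _ => ?_
    rw [map_mul]
    calc A.valuation (Q.coeff ab.1) * A.valuation (Q.coeff ab.2)
        ≤ A.valuation (Q.coeff ab.1) * 1 :=
          mul_le_mul_right ((A.valuation_le_one_iff _).mpr (hQ ab.2)) _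
      _ = A.valuation (Q.coeff ab.1) := mul_one _
      _ < 1 := hlt ab.1
  rw [hi] at h1
  exact lt_irrefl _ h1

/-- **(A2-CHI) for the Frey curve**: inertia at `p` acts on a generator of `E[p] ∩ E₁` through the
mod `p` cyclotomic character. -/
theorem s44av_frey_chi (P : FreyPackage) (A : ValuationSubring (AlgebraicClosure ℚ))
    (hA : A.LiesOverPrime P.p) {ζ : AlgebraicClosure ℚ} (hζ : IsPrimitiveRoot ζ P.p)
    (x₀ : (P.freyCurve⁄(AlgebraicClosure ℚ)).Point) (hx₀ : P.p • x₀ = 0) (hx₀0 : x₀ ≠ 0)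
    (hE1 : InKerRed A x₀)
    (hZ : ∀ T : (P.freyCurve⁄(AlgebraicClosure ℚ)).Point, P.p • T = 0 → InKerRed A T →
      ∃ k : ℕ, T = k • x₀)
    (σ : AlgebraicClosure ℚ ≃ₐ[ℚ] AlgebraicClosure ℚ) (hσ : σ ∈ A.inertiaSubgroupIn ℚ)
    (k : ℕ) (hk : σ ζ = ζ ^ k) : σ • x₀ = k • x₀ := by
  classical
  have hp2 : P.p ≠ 2 := by have := P.hp5; omega
  have : Fact P.p.Prime := ⟨P.pp⟩
  obtain ⟨m, hm⟩ := P.hp_odd
  have hW := freyL_integralModel P A hA P.pp hp2
  obtain ⟨ha1, ha2, ha3, ha4, ha6⟩ := freyL_a_mem P A hA P.pp hp2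
  have h2 : A.valuation (2 : AlgebraicClosure ℚ) = 1 := two_unit A hA P.pp hp2
  have hΔ : (P.freyCurve⁄(AlgebraicClosure ℚ)).Δ ≠ 0 := freyL_Δ_ne_zero P
  have hpA : A.valuation ((P.p : ℕ) : AlgebraicClosure ℚ) < 1 := intVal_prime_lt_one A hA
  have hnd : ∀ j : ℕ, ¬ P.p ∣ j → A.valuation (j : AlgebraicClosure ℚ) = 1 := by
    intro j hj
    have h1 : ¬ (P.p : ℤ) ∣ (j : ℤ) := by
      intro hd
      exact hj (by exact_mod_cast hd)
    have := intVal_eq_one_of_not_dvd A hA P.pp h1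
    simpa using this
  -- the unit coefficient
  have hss : ¬ ((P.p : ℤ) ∣ P.freyCurveInt.c₄ ∧ (P.p : ℤ) ∣ P.freyCurveInt.Δ) := by
    rintro ⟨h4, hd⟩
    rcases mzj_fr_SS P P.p P.pp with h | h
    · exact h hd
    · exact h h4
  obtain ⟨i, hi⟩ := mzj_eu_main (W := P.freyCurveInt) (mzj_fr_Δ_ne_zero P) P.pp hss A hA
  have hWeq : ((s58_WQ P.freyCurveInt)⁄s58_Qb) = (P.freyCurve⁄(AlgebraicClosure ℚ)) := by
    rw [s58_WQ, mzj_fr_map]
  rw [hWeq, hm, ldB_two_mul_add_one_eq_sq] at hi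
  have hCint : ∀ j, (ldC (ldPoly (P.freyCurve⁄(AlgebraicClosure ℚ))) m).coeff j ∈ A := fun j =>
    ldC_coeff_mem_valuationSubring A _ hW.b₂ hW.b₄ hW.b₆ hW.b₈ m j
  have hunit := s44av_unit_of_sq_unit A hCint hi
  -- the point
  have hpm : (2 * m + 1).Prime := hm ▸ P.pp
  have hku : ∀ j : ℕ, 0 < j → j < 2 * m + 1 → A.valuation (j : AlgebraicClosure ℚ) = 1 := by
    intro j hj0 hjlt
    refine hnd j ?_
    intro hd
    have := Nat.le_of_dvd hj0 hd
    omega
  have hxv := s44av_E1_val A (P.freyCurve⁄(AlgebraicClosure ℚ)) hΔ hW hpm hku hunit x₀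
    (hm ▸ hx₀) hx₀0 hE1 (fun T hT hTE => hZ T (hm ▸ hT) hTE)
  rcases x₀ with _ | ⟨x, y, h⟩
  · exact absurd rfl hx₀0
  rw [xOf_some, ← hm] at hxv
  have hx : x ∉ A := (inKerRed_some h).mp hE1
  -- `σ • x₀` is again in `E[p] ∩ E₁`
  have hσsome := smul_some σ h
  have h' := (WeierstrassCurve.Affine.baseChange_nonsingular (P.freyCurve : Affine ℚ)
    (f := σ.toAlgHom) σ.injective x y).mpr h
  have hσt : P.p • (σ • (Point.some x y h : (P.freyCurve⁄(AlgebraicClosure ℚ)).Point)) = 0 := by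
    rw [← ga_smul_nsmul, hx₀]
    exact ga_smul_zero σ
  have hσE : InKerRed A (σ • (Point.some x y h : (P.freyCurve⁄(AlgebraicClosure ℚ)).Point)) := by
    rw [hσsome]
    refine Or.inr ?_
    change σ x ∉ A
    intro hmem
    exact hx ((inertia_apply_mem_iff A hσ x).mp hmem)
  obtain ⟨n, hn⟩ := hZ _ hσt hσE
  rw [hσsome] at hn
  have hlt := s44av_chi_zeta A (P.freyCurve⁄(AlgebraicClosure ℚ)) hΔ h2 ha1 ha2 ha3 ha4 ha6
    (p := P.p) (m := m) hm hpA hnd hζ h hxv (σ : AlgebraicClosure ℚ →+* AlgebraicClosure ℚ)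
    (fun z hz => inertia_sub_lt_one A hσ hz) hk h' hn
  -- `n ≡ k mod p`
  have hdvd : (P.p : ℤ) ∣ (n : ℤ) - (k : ℤ) := by
    rw [← intVal_lt_one_iff A hA P.pp]
    push_cast
    exact hlt
  rw [hσsome, hn]
  obtain ⟨c, hc⟩ := hdvd
  have h3 : ((n : ℤ) - (k : ℤ)) • (Point.some x y h : (P.freyCurve⁄(AlgebraicClosure ℚ)).Point)
      = 0 := by
    rw [hc, mul_comm, mul_smul, natCast_zsmul, hx₀, zsmul_zero]
  rw [sub_smul, natCast_zsmul, natCast_zsmul, sub_eq_zero] at h3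
  exact h3

end Fermat.Agent.S44
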