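/-
Project S44, cell [A] LOC-FREY-p (helper17): the seam `s44_LocFrey_stmt` for the concrete frames
`s44_frame P M hpM` (S44/Frame.lean) and `s44_frame2 P M hpM` (S44/Frame2.lean).  Prefix `s44a_`.
Both are instances of the frame-generic `s44a_locFrey_of_cond` (LocP/Main.lean): only the fields
`A` (a place over `p`) and `ζ` (a primitive `p`-th root of unity) of the frame are used.
-/
import Mathlib
import Fermat.Agent.S44.LocP.Main
import Fermat.Agent.S44.Frame2

set_option autoImplicit false

namespace Fermat.Agent.S44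

variable (P : FreyPackage) (M : ℕ) [NeZero M] [NeZero (M * P.p)] (hpM : ¬ P.p ∣ M)

/-- **[A]** for the frame of `S44/Frame.lean`. -/
theorem s44a_locFrey_frame (hcond : P.IsConductorLevel (M * P.p)) :
    s44_LocFrey_stmt (s44_frame P M hpM) :=
  s44a_locFrey_of_cond _ (s44_frame_A_liesOver P M hpM) (s44_frame_zeta_spec P M hpM) hcond

/-- **[A]** for the frame of `S44/Frame2.lean`. -/
theorem s44a_locFrey_frame2 (hcond : P.IsConductorLevel (M * P.p)) :
    s44_LocFrey_stmt (s44_frame2 P M hpM) :=
  s44a_locFrey_of_cond _ (s44_frame2_A_liesOver P M hpM) (s44_frame2_zeta_spec P M hpM) hcond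

end Fermat.Agent.S44
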