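/-
S44 (level lowering at `p` for the Frey curve), cell [A] LOC-FREY-p, the KUMMER-RIGIDITY LEMMA
(helper19; prefix `s44r_`; Mathlib only).

`L` a field with a valuation `v`, `G` a group acting on `L` by field automorphisms and fixing a
primitive `p`-th root of unity `ζ`; `β ≠ 0` a Kummer radical: `g • β = ζ ^ (a g) * β`
(`a : G → ZMod p` additive).  Every `θ` fixed by `ker a` is `∑ⱼ cⱼ β ^ j` with `G`-fixed `cⱼ`
(`s44r_decomp`).  If the radical is TRES RAMIFIE in the sense that no `j • v(β)`, `0 < j < p`, is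
the valuation of a nonzero `G`-fixed element, then the nonzero terms have pairwise distinct
valuations (`s44r_terms_distinct`), so `G` moves every such `θ` very little:

* `s44r_rigid`          : `v (σ • θ - θ) ≤ v θ * v (ζ - 1)`;
* `s44r_rigid_lt`       : `<` if `v θ` is the valuation of a nonzero `G`-fixed element;
* `s44r_rigid_integral` : `v θ ≤ 1 → v (σ • θ - θ) < v (ζ - 1)`;
* `s44r_exists_fixed_val`, `s44r_exists_fixed_val_of_integral` : the contrapositives
  (some `σ` moves some such `θ` by more ⟹ some `v (β ^ j) = v c`, `0 < j < p`, `c ≠ 0` fixed).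

Use: a point `Q` of an elliptic curve with `σ Q = Q + x`, `x` a nonzero `p`-torsion point of the
kernel of reduction, has integral coordinate functions `θ` moved by at least `ζ - 1`; so the
Kummer class of the extension is PEU RAMIFIE.  No different, no discriminant, no ring of integers.
-/
import Mathlib

set_option autoImplicit false

namespace Fermat.Agent.S44

open Finset

section Sum

variable {L Γ₀ : Type*} [Field L] [LinearOrderedCommGroupWithZero Γ₀] (v : Valuation L Γ₀)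

/-- A finite sum whose nonzero terms have pairwise distinct valuations: every term is bounded by
the sum, and the valuation of the sum is attained (auxiliary form for the induction). -/
theorem s44r_le_sum_aux {ι : Type*} [DecidableEq ι] (s : Finset ι) (f : ι → L)
    (hd : ∀ i ∈ s, ∀ j ∈ s, i ≠ j → f i ≠ 0 → f j ≠ 0 → v (f i) ≠ v (f j)) :
    (∀ i ∈ s, v (f i) ≤ v (∑ j ∈ s, f j)) ∧
      ((∑ j ∈ s, f j) = 0 ∨ ∃ i₀ ∈ s, f i₀ ≠ 0 ∧ v (∑ j ∈ s, f j) = v (f i₀)) := by
  induction s using Finset.induction_on with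
  | empty => exact ⟨fun i hi => absurd hi (Finset.notMem_empty i), Or.inl Finset.sum_empty⟩
  | insert a s ha ih =>
    have hd' : ∀ i ∈ s, ∀ j ∈ s, i ≠ j → f i ≠ 0 → f j ≠ 0 → v (f i) ≠ v (f j) :=
      fun i hi j hj => hd i (Finset.mem_insert_of_mem hi) j (Finset.mem_insert_of_mem hj)
    obtain ⟨h1, h2⟩ := ih hd'
    rw [Finset.sum_insert ha]
    by_cases hfa : f a = 0
    · rw [hfa, zero_add]
      refine ⟨fun i hi => ?_, ?_⟩
      · rcases Finset.mem_insert.1 hi with rfl | hi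
        · rw [hfa, map_zero]; exact zero_le
        · exact h1 i hi
      · rcases h2 with h2 | ⟨i₀, hi₀, h0, hv⟩
        · exact Or.inl h2
        · exact Or.inr ⟨i₀, Finset.mem_insert_of_mem hi₀, h0, hv⟩
    · rcases h2 with h2 | ⟨i₀, hi₀, h0, hv⟩
      · rw [h2, add_zero]
        refine ⟨fun i hi => ?_, Or.inr ⟨a, Finset.mem_insert_self a s, hfa, rfl⟩⟩
        rcases Finset.mem_insert.1 hi with rfl | hi
        · exact le_rfl
        · have := h1 i hi
          rw [h2, map_zero] at this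
          exact this.trans zero_le
      · have hne : v (f a) ≠ v (∑ j ∈ s, f j) := by
          rw [hv]
          refine hd a (Finset.mem_insert_self a s) i₀ (Finset.mem_insert_of_mem hi₀) ?_ hfa h0
          rintro rfl
          exact ha hi₀
        have hmax := Valuation.map_add_of_distinct_val v hne
        refine ⟨fun i hi => ?_, ?_⟩
        · rw [hmax]
          rcases Finset.mem_insert.1 hi with rfl | hi
          · exact le_max_left _ _
          · exact (h1 i hi).trans (le_max_right _ _)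
        · right
          rcases le_total (v (f a)) (v (∑ j ∈ s, f j)) with hle | hle
          · exact ⟨i₀, Finset.mem_insert_of_mem hi₀, h0, by rw [hmax, max_eq_right hle, hv]⟩
          · exact ⟨a, Finset.mem_insert_self a s, hfa, by rw [hmax, max_eq_left hle]⟩

/-- A finite sum whose nonzero terms have pairwise distinct valuations: every term is bounded by
the sum. -/
theorem s44r_le_sum {ι : Type*} [DecidableEq ι] (s : Finset ι) (f : ι → L)
    (hd : ∀ i ∈ s, ∀ j ∈ s, i ≠ j → f i ≠ 0 → f j ≠ 0 → v (f i) ≠ v (f j)) :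
    ∀ i ∈ s, v (f i) ≤ v (∑ j ∈ s, f j) :=
  (s44r_le_sum_aux v s f hd).1

end Sum

section Rigid

variable {L Γ₀ : Type*} [Field L] [LinearOrderedCommGroupWithZero Γ₀] (v : Valuation L Γ₀)
variable {G : Type*} [Group G] [MulSemiringAction G L]

/-- `v (ζ ^ n - 1) ≤ v (ζ - 1)` for a root of unity `ζ`. -/
theorem s44r_val_pow_sub_one_le {ζ : L} (hζ1 : v ζ = 1) (n : ℕ) : v (ζ ^ n - 1) ≤ v (ζ - 1) := by
  have h : ζ ^ n - 1 = (ζ - 1) * ∑ i ∈ Finset.range n, ζ ^ i := by
    rw [mul_comm, geom_sum_mul]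
  rw [h, map_mul]
  have hs : v (∑ i ∈ Finset.range n, ζ ^ i) ≤ 1 := by
    apply Valuation.map_sum_le
    intro i _
    rw [map_pow, hζ1, one_pow]
  calc v (ζ - 1) * v (∑ i ∈ Finset.range n, ζ ^ i) ≤ v (ζ - 1) * 1 := by gcongr
    _ = v (ζ - 1) := mul_one _

/-- **Kummer decomposition.**  `G` fixes the primitive `p`-th root of unity `ζ`; `β ≠ 0` with
`g • β = ζ ^ (a g) * β`; `θ` is fixed by `ker a`.  Then `θ = ∑ⱼ cⱼ β ^ j` with `G`-fixed `cⱼ`. -/
theorem s44r_decomp {p : ℕ} [NeZero p] (hp : p.Prime) (hpL : (p : L) ≠ 0) {ζ β θ : L}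
    (hζ : IsPrimitiveRoot ζ p) (hζG : ∀ g : G, g • ζ = ζ) (hβ0 : β ≠ 0)
    (a : G → ZMod p) (ha : ∀ g h : G, a (g * h) = a g + a h)
    (hβ : ∀ g : G, g • β = ζ ^ (a g).val * β)
    (hθ : ∀ g : G, a g = 0 → g • θ = θ) :
    ∃ c : ZMod p → L, (∀ (g : G) (j : ZMod p), g • c j = c j) ∧
      θ = ∑ j : ZMod p, c j * β ^ j.val := by
  classical
  have : Fact p.Prime := ⟨hp⟩
  -- the trivial case
  by_cases htriv : ∀ σ : G, a σ = 0
  · refine ⟨fun j => if j = 0 then θ else 0, fun g j => ?_, ?_⟩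
    · dsimp only
      split_ifs
      · exact hθ g (htriv g)
      · exact smul_zero g
    · rw [Finset.sum_eq_single (0 : ZMod p)]
      · dsimp only
        rw [if_pos rfl, ZMod.val_zero, pow_zero, mul_one]
      · intro j _ hj
        dsimp only
        rw [if_neg hj, zero_mul]
      · intro h; exact absurd (Finset.mem_univ _) h
  push Not at htriv
  obtain ⟨σ, hσ⟩ := htriv
  -- `a` as a monoid homomorphism
  let aH : G →* Multiplicative (ZMod p) :=
    { toFun := fun g => Multiplicative.ofAdd (a g)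
      map_one' := by
        have h := ha 1 1
        rw [mul_one] at h
        have h0 : a 1 = 0 := by
          have : a 1 + 0 = a 1 + a 1 := by rw [add_zero]; exact h
          exact (add_left_cancel this).symm
        rw [h0]; rfl
      map_mul' := fun g h => by rw [ha]; rfl }
  have haH : ∀ g, a g = Multiplicative.toAdd (aH g) := fun g => rfl
  have ha_pow : ∀ (g : G) (n : ℕ), a (g ^ n) = n • a g := by
    intro g n
    rw [haH, map_pow, toAdd_pow]; rfl
  have ha_inv : ∀ g : G, a g⁻¹ = - a g := by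
    intro g
    rw [haH, map_inv, toAdd_inv]; rfl
  -- a generator `σ₀` with `a σ₀ = 1`
  set r := a σ with hr
  obtain ⟨σ₀, hσ₀⟩ : ∃ σ₀ : G, σ₀ = σ ^ (r⁻¹).val := ⟨_, rfl⟩
  have haσ₀ : a σ₀ = 1 := by
    rw [hσ₀, ha_pow, nsmul_eq_mul, ZMod.natCast_zmod_val, inv_mul_cancel₀ hσ]
  have haσ₀n : ∀ n : ℕ, a (σ₀ ^ n) = (n : ZMod p) := by
    intro n
    rw [ha_pow, haσ₀, nsmul_eq_mul, mul_one]
  -- periodicity of `ζ ^ n` and of `σ₀ ^ n • θ`
  have hζp : ζ ^ p = 1 := hζ.pow_eq_one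
  have hζmod : ∀ n : ℕ, ζ ^ (n % p) = ζ ^ n := by
    intro n
    conv_rhs => rw [← Nat.div_add_mod n p, pow_add, pow_mul, hζp, one_pow, one_mul]
  have hσ₀p : σ₀ ^ p • θ = θ := by
    apply hθ
    rw [haσ₀n, ZMod.natCast_self]
  have hσ₀pq : ∀ q : ℕ, (σ₀ ^ p) ^ q • θ = θ := by
    intro q
    induction q with
    | zero => simp
    | succ q ih => rw [pow_succ, mul_smul, hσ₀p, ih]
  have hΘmod : ∀ n : ℕ, σ₀ ^ (n % p) • θ = σ₀ ^ n • θ := by
    intro n
    have h : σ₀ ^ n = σ₀ ^ (n % p) * (σ₀ ^ p) ^ (n / p) := by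
      rw [← pow_mul, ← pow_add, Nat.mod_add_div]
    rw [h, mul_smul, hσ₀pq]
  -- the two periodic functions on `ZMod p`
  set E : ZMod p → L := fun k => ζ ^ k.val with hE
  set Θ : ZMod p → L := fun k => σ₀ ^ k.val • θ with hΘ
  have hζ0 : ζ ≠ 0 := hζ.ne_zero hp.ne_zero
  have hE0 : ∀ k, E k ≠ 0 := fun k => pow_ne_zero _ hζ0
  have hE_add : ∀ k l : ZMod p, E (k + l) = E k * E l := by
    intro k l
    simp only [hE]
    rw [ZMod.val_add, hζmod, pow_add]
  have hE_zero : E 0 = 1 := by simp only [hE, ZMod.val_zero, pow_zero]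
  have hE_one : E 1 = ζ := by
    simp only [hE]
    rw [ZMod.val_one, pow_one]
  have hE_mul : ∀ k l : ZMod p, E (k * l) = ζ ^ (k.val * l.val) := by
    intro k l
    simp only [hE]
    rw [ZMod.val_mul, hζmod]
  have hEG : ∀ (g : G) (k : ZMod p), g • E k = E k := by
    intro g k
    simp only [hE]
    rw [smul_pow', hζG]
  -- the action on `Θ`
  have hΘG : ∀ (g : G) (k : ZMod p), g • Θ k = Θ (k + a g) := by
    intro g k
    simp only [hΘ]
    rw [ZMod.val_add, hΘmod]
    set τ : G := (σ₀ ^ (k.val + (a g).val))⁻¹ * g * σ₀ ^ k.val with hτ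
    have haτ : a τ = 0 := by
      rw [hτ, ha, ha, ha_inv, haσ₀n, haσ₀n]
      push_cast
      rw [ZMod.natCast_zmod_val, ZMod.natCast_zmod_val]
      ring
    have hg : g * σ₀ ^ k.val = σ₀ ^ (k.val + (a g).val) * τ := by
      rw [hτ]; group
    rw [← mul_smul, hg, mul_smul, hθ τ haτ]
  have hΘ0 : Θ 0 = θ := by simp only [hΘ, ZMod.val_zero, pow_zero, one_smul]
  -- the sum of all `p`-th roots of unity
  have hsumE : ∑ k : ZMod p, E k = 0 := by
    have h1 : ζ * ∑ k : ZMod p, E k = ∑ k : ZMod p, E k := by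
      rw [Finset.mul_sum]
      have : ∀ k : ZMod p, ζ * E k = E (k + 1) := by
        intro k; rw [hE_add, hE_one, mul_comm]
      simp_rw [this]
      exact Equiv.sum_comp (Equiv.addRight (1 : ZMod p)) E
    have h2 : (ζ - 1) * ∑ k : ZMod p, E k = 0 := by rw [sub_mul, h1, one_mul, sub_self]
    rcases mul_eq_zero.1 h2 with h | h
    · exact absurd (sub_eq_zero.1 h) (hζ.ne_one hp.one_lt)
    · exact h
  have hsumEi : ∀ i : ZMod p, ∑ j : ZMod p, E (-(i * j)) = if i = 0 then (p : L) else 0 := by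
    intro i
    split_ifs with hi
    · subst hi
      simp only [zero_mul, neg_zero, hE_zero, Finset.sum_const, Finset.card_univ, ZMod.card,
        nsmul_eq_mul, mul_one]
    · have hbij : Function.Bijective (fun j : ZMod p => -(i * j)) :=
        (Equiv.neg (ZMod p)).bijective.comp (mulLeft_bijective₀ i hi)
      rw [← hsumE]
      exact Fintype.sum_bijective _ hbij _ _ (fun _ => rfl)
  -- the eigencomponents
  set y : ZMod p → L := fun j => (p : L)⁻¹ * ∑ i : ZMod p, E (-(i * j)) * Θ i with hy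
  have hy_sum : ∑ j : ZMod p, y j = θ := by
    simp only [hy]
    rw [← Finset.mul_sum, Finset.sum_comm]
    have : ∀ i : ZMod p, ∑ j : ZMod p, E (-(i * j)) * Θ i
        = (if i = 0 then (p : L) else 0) * Θ i := by
      intro i; rw [← Finset.sum_mul, hsumEi]
    simp_rw [this]
    rw [Finset.sum_eq_single (0 : ZMod p)]
    · rw [if_pos rfl, hΘ0, ← mul_assoc, inv_mul_cancel₀ hpL, one_mul]
    · intro i _ hi; rw [if_neg hi, zero_mul]
    · intro h; exact absurd (Finset.mem_univ _) h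
  have hyG : ∀ (g : G) (j : ZMod p), g • y j = E (a g * j) * y j := by
    intro g j
    simp only [hy]
    rw [smul_mul', smul_inv'', Finset.smul_sum]
    have hpG : g • (p : L) = (p : L) := by
      have := map_natCast (MulSemiringAction.toRingHom G L g) p
      exact this
    rw [hpG, mul_left_comm]
    congr 1
    rw [Finset.mul_sum]
    have h1 : ∀ i : ZMod p, g • (E (-(i * j)) * Θ i) = E (-(i * j)) * Θ (i + a g) := by
      intro i; rw [smul_mul', hEG, hΘG]
    simp_rw [h1]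
    have h2 : ∀ i : ZMod p, E (a g * j) * (E (-(i * j)) * Θ i)
        = (fun i' : ZMod p => E (-((i' - a g) * j)) * Θ i') i := by
      intro i
      simp only
      rw [← mul_assoc, ← hE_add]
      congr 2
      ring
    simp_rw [h2]
    have h3 : ∀ i : ZMod p, E (-(i * j)) * Θ (i + a g)
        = (fun i' : ZMod p => E (-((i' - a g) * j)) * Θ i') (i + a g) := by
      intro i
      simp only [add_sub_cancel_right]
    simp_rw [h3]
    exact Equiv.sum_comp (Equiv.addRight (a g))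
      (fun i' : ZMod p => E (-((i' - a g) * j)) * Θ i')
  -- the powers of `β`
  have hB0 : ∀ j : ZMod p, β ^ j.val ≠ 0 := fun j => pow_ne_zero _ hβ0
  have hBG : ∀ (g : G) (j : ZMod p), g • β ^ j.val = E (a g * j) * β ^ j.val := by
    intro g j
    rw [smul_pow', hβ, mul_pow, ← pow_mul, hE_mul]
  -- the coefficients
  refine ⟨fun j => y j / β ^ j.val, fun g j => ?_, ?_⟩
  · simp only
    rw [div_eq_mul_inv, smul_mul', smul_inv'', hyG, hBG, mul_inv, mul_mul_mul_comm,
      mul_inv_cancel₀ (hE0 _), one_mul]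
  · have hcB : ∀ j : ZMod p, y j / β ^ j.val * β ^ j.val = y j :=
      fun j => div_mul_cancel₀ _ (hB0 j)
    simp_rw [hcB]; exact hy_sum.symm

/-- In a Kummer decomposition `θ = ∑ⱼ cⱼ β ^ j` with `G`-fixed `cⱼ`, if no `v (β ^ j)`,
`0 < j < p`, is the valuation of a nonzero `G`-fixed element then the nonzero terms have pairwise
distinct valuations. -/
theorem s44r_terms_distinct {p : ℕ} [NeZero p] {β : L} (hβ0 : β ≠ 0)
    (htres : ∀ j : ℕ, 0 < j → j < p → ∀ c : L, c ≠ 0 → (∀ g : G, g • c = c) → v (β ^ j) ≠ v c)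
    (c : ZMod p → L) (hcG : ∀ (g : G) (j : ZMod p), g • c j = c j) :
    ∀ i ∈ (Finset.univ : Finset (ZMod p)), ∀ j ∈ (Finset.univ : Finset (ZMod p)),
      i ≠ j → c i * β ^ i.val ≠ 0 → c j * β ^ j.val ≠ 0 →
      v (c i * β ^ i.val) ≠ v (c j * β ^ j.val) := by
  have hB0 : ∀ j : ZMod p, β ^ j.val ≠ 0 := fun j => pow_ne_zero _ hβ0
  -- it suffices to treat `i.val < j.val`
  have key : ∀ i j : ZMod p, i.val < j.val → c i * β ^ i.val ≠ 0 → c j * β ^ j.val ≠ 0 →
      v (c i * β ^ i.val) ≠ v (c j * β ^ j.val) := by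
    intro i j hij hi hj heq
    have hci : c i ≠ 0 := left_ne_zero_of_mul hi
    have hcj : c j ≠ 0 := left_ne_zero_of_mul hj
    have hjp : j.val < p := ZMod.val_lt j
    refine htres (j.val - i.val) (Nat.sub_pos_of_lt hij) (by omega) (c i / c j)
      (div_ne_zero hci hcj) (fun g => by rw [div_eq_mul_inv, smul_mul', smul_inv'', hcG, hcG]) ?_
    have hBij : β ^ j.val = β ^ i.val * β ^ (j.val - i.val) := by
      rw [← pow_add]
      congr 1
      omega
    rw [hBij, map_mul, map_mul, map_mul] at heq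
    have hvBi : v (β ^ i.val) ≠ 0 := (Valuation.ne_zero_iff v).2 (hB0 i)
    have hvcj : v (c j) ≠ 0 := (Valuation.ne_zero_iff v).2 hcj
    rw [map_div₀, eq_div_iff hvcj]
    have h1 : v (β ^ i.val) * (v (β ^ (j.val - i.val)) * v (c j))
        = v (β ^ i.val) * v (c i) :=
      calc v (β ^ i.val) * (v (β ^ (j.val - i.val)) * v (c j))
          = v (c j) * (v (β ^ i.val) * v (β ^ (j.val - i.val))) := by ac_rfl
        _ = v (c i) * v (β ^ i.val) := heq.symm
        _ = v (β ^ i.val) * v (c i) := mul_comm _ _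
    exact mul_left_cancel₀ hvBi h1
  intro i _ j _ hij hi hj
  rcases lt_trichotomy i.val j.val with h | h | h
  · exact key i j h hi hj
  · exact absurd (ZMod.val_injective p h) hij
  · exact fun heq => key j i h hj hi heq.symm

/-- the action of `σ` on a Kummer decomposition -/
theorem s44r_smul_sub {p : ℕ} [NeZero p] {ζ β θ : L}
    (a : G → ZMod p) (hβ : ∀ g : G, g • β = ζ ^ (a g).val * β)
    (c : ZMod p → L) (hcG : ∀ (g : G) (j : ZMod p), g • c j = c j)
    (hθsum : θ = ∑ j : ZMod p, c j * β ^ j.val) (σ : G) :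
    σ • θ - θ = ∑ j : ZMod p, c j * β ^ j.val * (ζ ^ ((a σ).val * j.val) - 1) := by
  conv_lhs => rw [hθsum]
  rw [Finset.smul_sum, ← Finset.sum_sub_distrib]
  apply Finset.sum_congr rfl
  intro j _
  rw [smul_mul', hcG, smul_pow', hβ, mul_pow, ← pow_mul]
  ring

/-- **Kummer rigidity.**  `G` fixes the primitive `p`-th root of unity `ζ`; `β ≠ 0` with
`g • β = ζ ^ (a g) * β`; `θ` is fixed by `ker a`.  If no `v (β ^ j)`, `0 < j < p`, is the
valuation of a nonzero `G`-fixed element, then `v (σ • θ - θ) ≤ v θ * v (ζ - 1)` for all `σ`. -/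
theorem s44r_rigid {p : ℕ} (hp : p.Prime) (hpL : (p : L) ≠ 0) {ζ β θ : L}
    (hζ : IsPrimitiveRoot ζ p) (hζG : ∀ g : G, g • ζ = ζ) (hβ0 : β ≠ 0)
    (a : G → ZMod p) (ha : ∀ g h : G, a (g * h) = a g + a h)
    (hβ : ∀ g : G, g • β = ζ ^ (a g).val * β)
    (hθ : ∀ g : G, a g = 0 → g • θ = θ)
    (htres : ∀ j : ℕ, 0 < j → j < p → ∀ c : L, c ≠ 0 → (∀ g : G, g • c = c) → v (β ^ j) ≠ v c)
    (σ : G) : v (σ • θ - θ) ≤ v θ * v (ζ - 1) := by
  classical
  have : NeZero p := ⟨hp.ne_zero⟩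
  obtain ⟨c, hcG, hθsum⟩ := s44r_decomp hp hpL hζ hζG hβ0 a ha hβ hθ
  have hdist := s44r_terms_distinct v hβ0 htres c hcG
  have hle : ∀ j : ZMod p, v (c j * β ^ j.val) ≤ v θ := by
    intro j
    have := s44r_le_sum v (Finset.univ : Finset (ZMod p)) (fun j => c j * β ^ j.val) hdist j
      (Finset.mem_univ j)
    rw [← hθsum] at this
    exact this
  have hζ1 : v ζ = 1 := by
    have h : v ζ ^ p = 1 := by rw [← map_pow, hζ.pow_eq_one, map_one]
    exact (pow_eq_one_iff.1 h).resolve_right hp.ne_zero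
  rw [s44r_smul_sub a hβ c hcG hθsum σ]
  apply Valuation.map_sum_le
  intro j _
  rw [map_mul]
  exact mul_le_mul' (hle j) (s44r_val_pow_sub_one_le v hζ1 _)

/-- **Kummer rigidity, strict form**: if moreover `v θ` is the valuation of a nonzero `G`-fixed
element (e.g. `θ` is a unit), then `v (σ • θ - θ) < v θ * v (ζ - 1)`. -/
theorem s44r_rigid_lt {p : ℕ} (hp : p.Prime) (hpL : (p : L) ≠ 0) {ζ β θ : L}
    (hζ : IsPrimitiveRoot ζ p) (hζG : ∀ g : G, g • ζ = ζ) (hβ0 : β ≠ 0)
    (a : G → ZMod p) (ha : ∀ g h : G, a (g * h) = a g + a h)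
    (hβ : ∀ g : G, g • β = ζ ^ (a g).val * β)
    (hθ : ∀ g : G, a g = 0 → g • θ = θ)
    (htres : ∀ j : ℕ, 0 < j → j < p → ∀ c : L, c ≠ 0 → (∀ g : G, g • c = c) → v (β ^ j) ≠ v c)
    {c₀ : L} (hc₀ : c₀ ≠ 0) (hc₀G : ∀ g : G, g • c₀ = c₀) (hθc₀ : v θ = v c₀)
    (σ : G) : v (σ • θ - θ) < v θ * v (ζ - 1) := by
  classical
  have : NeZero p := ⟨hp.ne_zero⟩
  obtain ⟨c, hcG, hθsum⟩ := s44r_decomp hp hpL hζ hζG hβ0 a ha hβ hθ
  have hdist := s44r_terms_distinct v hβ0 htres c hcG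
  have hle : ∀ j : ZMod p, v (c j * β ^ j.val) ≤ v θ := by
    intro j
    have := s44r_le_sum v (Finset.univ : Finset (ZMod p)) (fun j => c j * β ^ j.val) hdist j
      (Finset.mem_univ j)
    rw [← hθsum] at this
    exact this
  have hvθ : v θ ≠ 0 := by rw [hθc₀]; exact (Valuation.ne_zero_iff v).2 hc₀
  -- the terms with `j ≠ 0` are strictly smaller than `θ`
  have hlt : ∀ j : ZMod p, j ≠ 0 → v (c j * β ^ j.val) < v θ := by
    intro j hj
    refine lt_of_le_of_ne (hle j) (fun heq => ?_)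
    have hcj : c j ≠ 0 := by
      intro h0
      rw [h0, zero_mul, map_zero] at heq
      exact hvθ heq.symm
    have hj0 : 0 < j.val := Nat.pos_of_ne_zero (fun h => hj ((ZMod.val_eq_zero j).1 h))
    refine htres j.val hj0 (ZMod.val_lt j) (c₀ / c j) (div_ne_zero hc₀ hcj)
      (fun g => by rw [div_eq_mul_inv, smul_mul', smul_inv'', hc₀G, hcG]) ?_
    have hvcj : v (c j) ≠ 0 := (Valuation.ne_zero_iff v).2 hcj
    rw [map_div₀, eq_div_iff hvcj, ← hθc₀, ← heq, map_mul, mul_comm]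
  have hζ1 : v ζ = 1 := by
    have h : v ζ ^ p = 1 := by rw [← map_pow, hζ.pow_eq_one, map_one]
    exact (pow_eq_one_iff.1 h).resolve_right hp.ne_zero
  have hlam : v (ζ - 1) ≠ 0 :=
    (Valuation.ne_zero_iff v).2 (sub_ne_zero.2 (hζ.ne_one hp.one_lt))
  rw [s44r_smul_sub a hβ c hcG hθsum σ]
  apply Valuation.map_sum_lt v (mul_ne_zero hvθ hlam)
  intro j _
  by_cases hj : j = 0
  · subst hj
    simp only [ZMod.val_zero, mul_zero, pow_zero, sub_self, map_zero]
    exact zero_lt_iff.2 (mul_ne_zero hvθ hlam)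
  · rw [map_mul]
    calc v (c j * β ^ j.val) * v (ζ ^ ((a σ).val * j.val) - 1)
        ≤ v (c j * β ^ j.val) * v (ζ - 1) :=
          mul_le_mul' le_rfl (s44r_val_pow_sub_one_le v hζ1 _)
      _ < v θ * v (ζ - 1) := mul_lt_mul_of_pos_right (hlt j hj) (zero_lt_iff.2 hlam)

/-- **Kummer rigidity for integral elements**: under the tres-ramifie hypothesis every integral
`θ` fixed by `ker a` satisfies `v (σ • θ - θ) < v (ζ - 1)`. -/
theorem s44r_rigid_integral {p : ℕ} (hp : p.Prime) (hpL : (p : L) ≠ 0) {ζ β θ : L}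
    (hζ : IsPrimitiveRoot ζ p) (hζG : ∀ g : G, g • ζ = ζ) (hβ0 : β ≠ 0)
    (a : G → ZMod p) (ha : ∀ g h : G, a (g * h) = a g + a h)
    (hβ : ∀ g : G, g • β = ζ ^ (a g).val * β)
    (hθ : ∀ g : G, a g = 0 → g • θ = θ)
    (htres : ∀ j : ℕ, 0 < j → j < p → ∀ c : L, c ≠ 0 → (∀ g : G, g • c = c) → v (β ^ j) ≠ v c)
    (hθ1 : v θ ≤ 1) (σ : G) : v (σ • θ - θ) < v (ζ - 1) := by
  have hlam : v (ζ - 1) ≠ 0 :=
    (Valuation.ne_zero_iff v).2 (sub_ne_zero.2 (hζ.ne_one hp.one_lt))
  rcases lt_or_eq_of_le hθ1 with h | h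
  · calc v (σ • θ - θ) ≤ v θ * v (ζ - 1) :=
          s44r_rigid v hp hpL hζ hζG hβ0 a ha hβ hθ htres σ
      _ < 1 * v (ζ - 1) := by
          rw [mul_comm (v θ), mul_comm 1]
          exact mul_lt_mul_of_pos_left h (zero_lt_iff.2 hlam)
      _ = v (ζ - 1) := one_mul _
  · have := s44r_rigid_lt v hp hpL hζ hζG hβ0 a ha hβ hθ htres (c₀ := 1) one_ne_zero
      (fun g => smul_one g) (by rw [h, map_one]) σ
    rwa [h, one_mul] at this

/-- **Kummer rigidity, contrapositive form**: if some `σ` moves some `θ` (fixed by `ker a`) by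
more than `(ζ - 1) θ`, then some `v (β ^ j)`, `0 < j < p`, is the valuation of a nonzero `G`-fixed
element (the Kummer class is not tres ramifie). -/
theorem s44r_exists_fixed_val {p : ℕ} (hp : p.Prime) (hpL : (p : L) ≠ 0) {ζ β θ : L}
    (hζ : IsPrimitiveRoot ζ p) (hζG : ∀ g : G, g • ζ = ζ) (hβ0 : β ≠ 0)
    (a : G → ZMod p) (ha : ∀ g h : G, a (g * h) = a g + a h)
    (hβ : ∀ g : G, g • β = ζ ^ (a g).val * β)
    (hθ : ∀ g : G, a g = 0 → g • θ = θ)
    (σ : G) (hσ : v θ * v (ζ - 1) < v (σ • θ - θ)) :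
    ∃ j : ℕ, 0 < j ∧ j < p ∧ ∃ c : L, c ≠ 0 ∧ (∀ g : G, g • c = c) ∧ v (β ^ j) = v c := by
  by_contra hcon
  push Not at hcon
  exact absurd (s44r_rigid v hp hpL hζ hζG hβ0 a ha hβ hθ
    (fun j hj0 hjp c hc hcG => hcon j hj0 hjp c hc hcG) σ) (not_le.2 hσ)

/-- **Kummer rigidity, contrapositive form for integral elements**: if some `σ` moves some
integral `θ` (fixed by `ker a`) by at least `ζ - 1`, the Kummer class is not tres ramifie. -/
theorem s44r_exists_fixed_val_of_integral {p : ℕ} (hp : p.Prime) (hpL : (p : L) ≠ 0) {ζ β θ : L}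
    (hζ : IsPrimitiveRoot ζ p) (hζG : ∀ g : G, g • ζ = ζ) (hβ0 : β ≠ 0)
    (a : G → ZMod p) (ha : ∀ g h : G, a (g * h) = a g + a h)
    (hβ : ∀ g : G, g • β = ζ ^ (a g).val * β)
    (hθ : ∀ g : G, a g = 0 → g • θ = θ) (hθ1 : v θ ≤ 1)
    (σ : G) (hσ : v (ζ - 1) ≤ v (σ • θ - θ)) :
    ∃ j : ℕ, 0 < j ∧ j < p ∧ ∃ c : L, c ≠ 0 ∧ (∀ g : G, g • c = c) ∧ v (β ^ j) = v c := by
  by_contra hcon
  push Not at hcon
  exact absurd (s44r_rigid_integral v hp hpL hζ hζG hβ0 a ha hβ hθ
    (fun j hj0 hjp c hc hcG => hcon j hj0 hjp c hc hcG) hθ1 σ) (not_lt.2 hσ)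

end Rigid

end Fermat.Agent.S44
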