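/-
S44 (level lowering at `p` for the Frey curve), cell [A] LOC-FREY-p, sub-cell (A3-END)
(helper19; prefix `s44r_`).

In the local setting `mzo_Ctx p O L A Γ` of S56 (`Γ` = inertia at `p`, `O = A ∩ L^Γ` a discrete
valuation ring with uniformiser `p`), let `ζ` be a primitive `p`-th root of unity,
`s • ζ = ζ ^ ω(s)`, and `β ≠ 0` a radical of a function `a : Γ → ZMod p` on ALL of `Γ`:
`s • β = ζ ^ a(s) * β` (Hilbert 90).  If ONE integral element `θ` fixed by `ker ω ∩ ker a` is moved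
by some `σ ∈ ker ω` by at least `ζ - 1`, i.e. `v (ζ - 1) ≤ v (σ • θ - θ)`, then `a` is PEU RAMIFIE
(`s56fo_Peu`, the datum consumed by S56 `Flat/Ord`): `s44r_peu_of_moved`.

Proof: Kummer rigidity (`LocP/Rigid.lean`) on `G := ker ω` gives `0 < j < p` and `c ≠ 0` fixed by
`ker ω` with `v (β ^ j) = v c`; the `Γ`-orbit of `c` has `d ≤ p - 1` elements, so
`v c ^ d = v p ^ m` (`s56fe_norm`) and `v (β ^ p) = v p ^ i` (`s56fm_val_fixed`); Bezout for
`gcd (j d, p) = 1` gives `v (β ^ p) = v p ^ (p i')`, and `s56fop_caseA` concludes.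
-/
import Mathlib
import Fermat.Agent.S44.LocP.Rigid
import Fermat.Agent.S56.Flat.Efn
import Fermat.Agent.S56.Flat.Mono
import Fermat.Agent.S56.Flat.Ord.Peu2

set_option autoImplicit false

noncomputable section

namespace Fermat.Agent.S44

open Fermat.Agent.MZ Fermat.Agent.S56

section ValueGroup

variable {Γ₀ : Type*} [LinearOrderedCommGroupWithZero Γ₀]

/-- Bezout in a value group: `V ^ n = P ^ m`, `V ^ p = P ^ i`, `gcd (n, p) = 1` ⟹
`V ^ p = P ^ (p * i')`. -/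
theorem s44r_bezout {V P : Γ₀} (hV : V ≠ 0) (hP : P ≠ 0) {n p : ℕ} (hnp : Nat.Coprime n p)
    {m i : ℤ} (h1 : V ^ n = P ^ m) (h2 : V ^ p = P ^ i) :
    ∃ i' : ℤ, V ^ p = P ^ ((p : ℤ) * i') := by
  -- `x * n + y * p = 1`
  have hgcd : (Nat.gcd n p : ℤ) = 1 := by rw [hnp]; rfl
  have hb := Nat.gcd_eq_gcd_ab n p
  rw [hgcd] at hb
  set x := Nat.gcdA n p with hx
  set y := Nat.gcdB n p with hy
  -- `V = P ^ (m x + i y)`
  have hVz : V = P ^ (m * x + i * y) := by
    have h3 : V ^ ((n : ℤ) * x + (p : ℤ) * y) = V := by rw [← hb, zpow_one]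
    rw [zpow_add₀ hV, zpow_mul, zpow_mul, zpow_natCast, zpow_natCast, h1, h2, ← zpow_mul,
      ← zpow_mul, ← zpow_add₀ hP] at h3
    exact h3.symm
  refine ⟨m * x + i * y, ?_⟩
  conv_lhs => rw [hVz]
  rw [← zpow_natCast, ← zpow_mul, mul_comm]

end ValueGroup

section Main

variable {p : ℕ} {O : Type} [CommRing O] [IsDomain O] [IsDiscreteValuationRing O]
  {L : Type} [Field L] [Algebra O L] {A : ValuationSubring L}
  {Γ : Type} [Group Γ] [MulSemiringAction Γ L]

/-- equal powers of a primitive root have congruent exponents. -/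
theorem s44r_modEq_of_pow_eq [NeZero p] {ζ : L} (hζ : IsPrimitiveRoot ζ p) {m n : ℕ}
    (h : ζ ^ m = ζ ^ n) : m ≡ n [MOD p] := by
  have hmod : ∀ k : ℕ, ζ ^ (k % p) = ζ ^ k := fun k => by
    conv_rhs => rw [← Nat.div_add_mod k p, pow_add, pow_mul, hζ.pow_eq_one, one_pow, one_mul]
  have hp0 : 0 < p := Nat.pos_of_ne_zero (NeZero.ne p)
  exact hζ.pow_inj (Nat.mod_lt _ hp0) (Nat.mod_lt _ hp0) (by rw [hmod, hmod, h])

/-- `ω` is multiplicative. -/
theorem s44r_omega_mul [NeZero p] {ζ : L} (hζ : IsPrimitiveRoot ζ p) {ω : Γ → ZMod p}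
    (hωζ : ∀ s : Γ, s • ζ = ζ ^ (ω s).val) (s t : Γ) : ω (s * t) = ω s * ω t := by
  have h1 : ζ ^ (ω (s * t)).val = ζ ^ ((ω s).val * (ω t).val) := by
    rw [← hωζ, mul_smul, hωζ t, smul_pow', hωζ s, ← pow_mul]
  have h2 : (ω (s * t)).val ≡ (ω s).val * (ω t).val [MOD p] := s44r_modEq_of_pow_eq hζ h1
  have h3 : ((ω (s * t)).val : ZMod p) = (((ω s).val * (ω t).val : ℕ) : ZMod p) :=
    (ZMod.natCast_eq_natCast_iff _ _ _).2 h2
  rw [ZMod.natCast_zmod_val, Nat.cast_mul, ZMod.natCast_zmod_val, ZMod.natCast_zmod_val] at h3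
  exact h3

theorem s44r_omega_one [NeZero p] {ζ : L} (hζ : IsPrimitiveRoot ζ p) {ω : Γ → ZMod p}
    (hωζ : ∀ s : Γ, s • ζ = ζ ^ (ω s).val) : ω 1 = 1 := by
  have h1 : ζ ^ (ω (1 : Γ)).val = ζ ^ 1 := by rw [← hωζ, one_smul, pow_one]
  have h2 : (ω (1 : Γ)).val ≡ 1 [MOD p] := s44r_modEq_of_pow_eq hζ h1
  have h3 : ((ω (1 : Γ)).val : ZMod p) = ((1 : ℕ) : ZMod p) :=
    (ZMod.natCast_eq_natCast_iff _ _ _).2 h2
  rw [ZMod.natCast_zmod_val, Nat.cast_one] at h3
  exact h3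

/-- the radical relation makes `a` additive on `ker ω`. -/
theorem s44r_a_add [NeZero p] (hp : p.Prime) {ζ β : L} (hζ : IsPrimitiveRoot ζ p) (hβ0 : β ≠ 0)
    {ω a : Γ → ZMod p} (hωζ : ∀ s : Γ, s • ζ = ζ ^ (ω s).val)
    (hβ : ∀ s : Γ, s • β = ζ ^ (a s).val * β) (s t : Γ) (hs : ω s = 1) :
    a (s * t) = a s + a t := by
  have hsζ : s • ζ = ζ := by
    rw [hωζ, hs, ZMod.val_one'' hp.one_lt.ne', pow_one]
  have h1 : ζ ^ (a (s * t)).val * β = ζ ^ ((a s).val + (a t).val) * β := by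
    rw [← hβ, mul_smul, hβ t, smul_mul', smul_pow', hsζ, hβ s, pow_add]
    ring
  have h2 : ζ ^ (a (s * t)).val = ζ ^ ((a s).val + (a t).val) := mul_right_cancel₀ hβ0 h1
  have h3 : (a (s * t)).val ≡ (a s).val + (a t).val [MOD p] := s44r_modEq_of_pow_eq hζ h2
  have h4 : ((a (s * t)).val : ZMod p) = (((a s).val + (a t).val : ℕ) : ZMod p) :=
    (ZMod.natCast_eq_natCast_iff _ _ _).2 h3
  rw [ZMod.natCast_zmod_val, Nat.cast_add, ZMod.natCast_zmod_val, ZMod.natCast_zmod_val] at h4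
  exact h4

/-- **(A3-END)**: one integral element fixed by `ker ω ∩ ker a` and moved by some `σ ∈ ker ω` by at
least `ζ - 1` ⟹ the function `a` (with radical `β` on all of `Γ`) is peu ramifie. -/
theorem s44r_peu_of_moved (hctx : mzo_Ctx p O L A Γ)
    (hperf : ∀ x : O, ∃ y : O, algebraMap O L (y ^ p - x) ∈ A.nonunits)
    {ζ : L} (hζ : IsPrimitiveRoot ζ p) {ω a : Γ → ZMod p}
    (hωζ : ∀ s : Γ, s • ζ = ζ ^ (ω s).val)
    {β : L} (hβ0 : β ≠ 0) (hβ : ∀ s : Γ, s • β = ζ ^ (a s).val * β)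
    {θ : L} (hθA : θ ∈ A) (hθ : ∀ s : Γ, ω s = 1 → a s = 0 → s • θ = θ)
    {σ : Γ} (hσ : ω σ = 1) (hmv : A.valuation (ζ - 1) ≤ A.valuation (σ • θ - θ)) :
    s56fo_Peu O p ζ a := by
  classical
  have hp : p.Prime := hctx.r_prime
  have : NeZero p := ⟨hp.ne_zero⟩
  have : Fact p.Prime := ⟨hp⟩
  have hpL : (p : L) ≠ 0 := hctx.r_ne
  have hω1 := s44r_omega_one hζ hωζ
  have hωmul := s44r_omega_mul hζ hωζ
  -- the subgroup `G = ker ω`
  let G : Subgroup Γ :=
    { carrier := {s | ω s = 1}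
      mul_mem' := fun {s t} hs ht => by
        show ω (s * t) = 1
        rw [hωmul, hs, ht, mul_one]
      one_mem' := hω1
      inv_mem' := fun {s} hs => by
        show ω s⁻¹ = 1
        have h := hωmul s s⁻¹
        rw [mul_inv_cancel, hω1, hs, one_mul] at h
        exact h.symm }
  have hGmem : ∀ s : Γ, s ∈ G ↔ ω s = 1 := fun s => Iff.rfl
  have hGζ : ∀ g : G, g • ζ = ζ := by
    intro g
    show (g : Γ) • ζ = ζ
    rw [hωζ, (hGmem _).1 g.2, ZMod.val_one'' hp.one_lt.ne', pow_one]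
  -- Kummer rigidity on `G`
  obtain ⟨j, hj0, hjp, c, hc0, hcG, hvc⟩ :=
    s44r_exists_fixed_val_of_integral (G := G) A.valuation hp hpL hζ hGζ hβ0
      (fun g => a (g : Γ))
      (fun g h => s44r_a_add hp hζ hβ0 hωζ hβ (g : Γ) (h : Γ) ((hGmem _).1 g.2))
      (fun g => hβ (g : Γ))
      (fun g hg => hθ (g : Γ) ((hGmem _).1 g.2) hg)
      ((A.valuation_le_one_iff θ).2 hθA) ⟨σ, hσ⟩ hmv
  -- `s • c` depends only on `ω s`
  have hfac : ∀ s t : Γ, ω s = ω t → s • c = t • c := by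
    intro s t hst
    have hmem : t⁻¹ * s ∈ G := by
      rw [hGmem, hωmul]
      have h := hωmul t t⁻¹
      rw [mul_inv_cancel, hω1] at h
      rw [hst, mul_comm]
      exact h.symm
    have h1 := hcG ⟨t⁻¹ * s, hmem⟩
    have h2 : (t⁻¹ * s) • c = c := h1
    calc s • c = (t * (t⁻¹ * s)) • c := by rw [mul_inv_cancel_left]
      _ = t • c := by rw [mul_smul, h2]
  -- `ω s ≠ 0`
  have hω0 : ∀ s : Γ, ω s ≠ 0 := by
    intro s h0
    have h := hωmul s s⁻¹
    rw [mul_inv_cancel, hω1, h0, zero_mul] at h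
    exact one_ne_zero h
  -- the orbit of `c` is finite with at most `p - 1` elements
  let F : ZMod p → L := fun u => if h : ∃ s : Γ, ω s = u then h.choose • c else 0
  have hF : ∀ s : Γ, s • c = F (ω s) := by
    intro s
    have h : ∃ t : Γ, ω t = ω s := ⟨s, rfl⟩
    show s • c = if h : ∃ t : Γ, ω t = ω s then h.choose • c else 0
    rw [dif_pos h]
    exact hfac s h.choose h.choose_spec.symm
  have hsub : MulAction.orbit Γ c ⊆ ↑((Finset.univ.erase (0 : ZMod p)).image F) := by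
    rintro x ⟨s, rfl⟩
    rw [Finset.mem_coe, Finset.mem_image]
    exact ⟨ω s, Finset.mem_erase.2 ⟨hω0 s, Finset.mem_univ _⟩, (hF s).symm⟩
  have hfin : (MulAction.orbit Γ c).Finite := (Finset.finite_toSet _).subset hsub
  have hcard : hfin.toFinset.card ≤ p - 1 := by
    calc hfin.toFinset.card ≤ ((Finset.univ.erase (0 : ZMod p)).image F).card := by
          apply Finset.card_le_card
          intro x hx
          rw [Set.Finite.mem_toFinset] at hx
          exact hsub hx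
      _ ≤ (Finset.univ.erase (0 : ZMod p)).card := Finset.card_image_le
      _ = p - 1 := by
          rw [Finset.card_erase_of_mem (Finset.mem_univ _), Finset.card_univ, ZMod.card]
  set d := hfin.toFinset.card with hd
  have hd0 : 0 < d := s56fe_card_pos c hfin
  obtain ⟨m, hm⟩ := s56fe_norm hctx hc0 hfin
  -- `β ^ p` is `Γ`-fixed
  have hβp : ∀ s : Γ, s • β ^ p = β ^ p := by
    intro s
    rw [smul_pow', hβ, mul_pow, ← pow_mul, mul_comm _ p, pow_mul, hζ.pow_eq_one, one_pow, one_mul]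
  obtain ⟨i, hi⟩ := s56fm_val_fixed hctx (pow_ne_zero p hβ0) hβp
  -- Bezout
  have hV : A.valuation β ≠ 0 := (Valuation.ne_zero_iff _).2 hβ0
  have hP : A.valuation (p : L) ≠ 0 := (Valuation.ne_zero_iff _).2 hpL
  have hcop : Nat.Coprime (j * d) p := by
    apply Nat.Coprime.symm
    rw [Nat.Prime.coprime_iff_not_dvd hp]
    intro hdvd
    rcases (Nat.Prime.dvd_mul hp).1 hdvd with h | h
    · exact absurd (Nat.le_of_dvd hj0 h) (not_le.2 hjp)
    · have := Nat.le_of_dvd hd0 h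
      have hp1 := hp.one_lt
      omega
  have h1 : A.valuation β ^ (j * d) = A.valuation (p : L) ^ m := by
    rw [pow_mul, ← map_pow, hvc, hm]
  have h2 : A.valuation β ^ p = A.valuation (p : L) ^ i := by
    rw [← map_pow, hi]
  obtain ⟨i', hi'⟩ := s44r_bezout hV hP hcop h1 h2
  exact s56fop_caseA hctx hperf hζ.pow_eq_one hβ0 hβ (by rw [map_pow]; exact hi')

end Main

end Fermat.Agent.S44
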